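import Mathlib
import Fermat.Agent.Lib.CFT.Global.IdeleNorm
import Fermat.Agent.Lib.CFT.HerbrandMul

/-!
# Consequences of the two inequalities: shared definitions (P-CFT, SecondIneq package (C))

Shared by `ConsequencesCyclic.lean` (helper96: prime layers from the two inequalities) and
`Consequences.lean` (helper80: solvable induction, Sylow reduction, action form).
-/

set_option autoImplicit false

open scoped NumberField

noncomputable section

namespace Fermat.Agent.Lib.CFT.Global.SecondIneq.Consequences

open Fermat.Agent.Lib.CFT Fermat.Agent.Lib.CFT.Herbrand Fermat.Agent.Lib.CFT.Global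

/-- A Galois layer `L / K` of number fields is *good* if `H¹(Gal(L/K), C_L) = 0`,
`H²(Gal(L/K), C_L)` is finite and its order divides `[L : K]`. -/
def LayerGood (K L : Type) [Field K] [NumberField K] [Field L] [NumberField L] [Algebra K L]
    [IsGalois K L] : Prop :=
  CategoryTheory.Limits.IsZero (groupCohomology (ideleClassRep L (L ≃ₐ[K] L)) 1) ∧
    Finite (groupCohomology (ideleClassRep L (L ≃ₐ[K] L)) 2) ∧
    Nat.card (groupCohomology (ideleClassRep L (L ≃ₐ[K] L)) 2) ∣ Module.finrank K L

/-- All Galois layers of prime degree are good. -/
def PrimeLayersGood : Prop :=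
  ∀ (K L : Type) [Field K] [NumberField K] [Field L] [NumberField L] [Algebra K L]
    [IsGalois K L], (Module.finrank K L).Prime → LayerGood K L

/-- The first inequality, in Herbrand quotient form, for cyclic layers. -/
def FirstIneqHerbrand : Prop :=
  ∀ (K L : Type) [Field K] [NumberField K] [Field L] [NumberField L] [Algebra K L]
    [IsGalois K L] (s : L ≃ₐ[K] L), (∀ x, x ∈ Subgroup.zpowers s) →
    CycFinMul (L ≃ₐ[K] L) (IdeleClass L) s ∧
      herbrandCycMul (L ≃ₐ[K] L) (IdeleClass L) s = Module.finrank K L

/-- The second inequality, in index form, for layers of prime degree. -/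
def SecondIneqPrime : Prop :=
  ∀ (K L : Type) [Field K] [NumberField K] [Field L] [NumberField L] [Algebra K L]
    [IsGalois K L], (Module.finrank K L).Prime →
    ((principal K).range ⊔ (ideleNorm K L).range).index ∣ Module.finrank K L

end Fermat.Agent.Lib.CFT.Global.SecondIneq.Consequences
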