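import Mathlib
import Fermat.Agent.Lib.CFT.Global.IdeleInvariants
import Fermat.Agent.Lib.CFT.Global.FirstIneqInvariants
import Fermat.Agent.Lib.CFT.HerbrandRep
import Fermat.Agent.Lib.CFT.HerbrandMul
import Fermat.Agent.Lib.CFT.Global.SecondIneq.ConsequencesDefs

/-!
# Cohomology of the idele class group: cyclic layers (helper96, P-CFT, SecondIneq package (C))

`L / K` a cyclic extension of number fields with group `G = Gal(L/K)`.  The index
`[(C_L)^G : N_G C_L]` equals `[J_K : Kˣ N J_L]`; combined with the first inequality (Herbrand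
quotient `= [L:K]`) and the second inequality (`[J_K : Kˣ N J_L] ∣ [L:K]`) this gives
`H¹(G, C_L) = 0` and `|H²(G, C_L)| = [L:K]`.
-/

set_option autoImplicit false

open scoped TensorProduct NumberField

noncomputable section

namespace Fermat.Agent.Lib.CFT.Global.SecondIneq.Consequences

open Fermat.Agent.Lib.CFT Fermat.Agent.Lib.CFT.Herbrand Fermat.Agent.Lib.CFT.Global

/-! ### Bridge between `groupCohomology` of `Rep.ofMulDistribMulAction` and `hIndexMul` -/

section Abstract

variable (G M : Type) [CommGroup G] [Fintype G] [CommGroup M] [MulDistribMulAction G M]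

omit [Fintype G] in
theorem repSub_ofMul (g : G) :
    repSub (Rep.ofMulDistribMulAction G M) g = MonoidHom.toAdditive (subOneMul G M g) := by
  ext u
  rfl

theorem repNorm_ofMul :
    repNorm (Rep.ofMulDistribMulAction G M) = MonoidHom.toAdditive (normMul G M) := by
  refine AddMonoidHom.ext fun (u : Additive M) => ?_
  change (∑ x : G, Additive.ofMul (x • Additive.toMul u) : Additive M) =
    Additive.ofMul (normMul G M (Additive.toMul u))
  rw [normMul_apply, ofMul_prod]

theorem hIndex_repSub_repNorm_ofMul (g : G) :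
    hIndex (repSub (Rep.ofMulDistribMulAction G M) g) (repNorm (Rep.ofMulDistribMulAction G M)) =
      hIndexMul (subOneMul G M g) (normMul G M) :=
  (congrArg₂ hIndex (repSub_ofMul G M g) (repNorm_ofMul G M)).trans (hIndex_toAdditive _ _)

theorem hIndex_repNorm_repSub_ofMul (g : G) :
    hIndex (repNorm (Rep.ofMulDistribMulAction G M)) (repSub (Rep.ofMulDistribMulAction G M) g) =
      hIndexMul (normMul G M) (subOneMul G M g) :=
  (congrArg₂ hIndex (repNorm_ofMul G M) (repSub_ofMul G M g)).trans (hIndex_toAdditive _ _)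

end Abstract

/-! ### The index `[(C_L)^G : N_G C_L]` -/

section Index

variable (K L : Type) [Field K] [NumberField K] [Field L] [NumberField L] [Algebra K L]
  [IsGalois K L]

/-- The group norm on `C_L` is the class norm followed by the inclusion `C_K → C_L`. -/
theorem normMul_ideleClass (c : IdeleClass L) :
    normMul (L ≃ₐ[K] L) (IdeleClass L) c =
      ideleClassMap (algebraMap K L) (ideleClassNorm K L c) := by
  induction c using QuotientGroup.induction_on with
  | H b =>
    rw [normMul_apply, ideleClassNorm_mk, ideleClassMap_mk, ideleMap_ideleNorm]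
    have h : ∀ g : L ≃ₐ[K] L, g • (QuotientGroup.mk b : IdeleClass L) =
        QuotientGroup.mk' (principal L).range (g • b) := fun g => rfl
    simp_rw [h]
    rw [← map_prod]
    rfl

theorem range_normMul_ideleClass :
    (normMul (L ≃ₐ[K] L) (IdeleClass L)).range =
      (ideleClassNorm K L).range.map (ideleClassMap (algebraMap K L)) := by
  ext c
  constructor
  · rintro ⟨d, rfl⟩
    exact ⟨ideleClassNorm K L d, ⟨d, rfl⟩, (normMul_ideleClass K L d).symm⟩
  · rintro ⟨_, ⟨d, rfl⟩, rfl⟩
    exact ⟨d, normMul_ideleClass K L d⟩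

/-- For a generator `s` of the Galois group, the kernel of `s - 1` on `C_L` is the image of
`C_K`. -/
theorem ker_subOneMul_ideleClass {s : L ≃ₐ[K] L} (hs : ∀ x, x ∈ Subgroup.zpowers s) :
    (subOneMul (L ≃ₐ[K] L) (IdeleClass L) s).ker = (ideleClassMap (algebraMap K L)).range := by
  ext c
  rw [MonoidHom.mem_ker, subOneMul_apply, div_eq_one,
    FirstIneq.range_ideleClassMap (exists_ideleMap_eq_of_fixed K L)]
  constructor
  · intro h g
    have hmem : s ∈ MulAction.stabilizer (L ≃ₐ[K] L) c := h
    have hle : Subgroup.zpowers s ≤ MulAction.stabilizer (L ≃ₐ[K] L) c :=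
      (Subgroup.zpowers_le).2 hmem
    exact hle (hs g)
  · intro h
    exact h s

/-- `[(C_L)^G : N_G C_L] = [J_K : Kˣ N J_L]`. -/
theorem hIndexMul_eq_index {s : L ≃ₐ[K] L} (hs : ∀ x, x ∈ Subgroup.zpowers s) :
    hIndexMul (subOneMul (L ≃ₐ[K] L) (IdeleClass L) s) (normMul (L ≃ₐ[K] L) (IdeleClass L)) =
      ((principal K).range ⊔ (ideleNorm K L).range).index := by
  unfold hIndexMul
  have hr : (ideleClassMap (algebraMap K L)).range =
      (⊤ : Subgroup (IdeleClass K)).map (ideleClassMap (algebraMap K L)) :=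
    MonoidHom.range_eq_map _
  rw [ker_subOneMul_ideleClass K L hs, range_normMul_ideleClass, hr,
    Subgroup.relIndex_map_map_of_injective _ _ FirstIneq.ideleClassMap_injective,
    Subgroup.relIndex_top_right]
  have hcomap : (ideleClassNorm K L).range.comap (QuotientGroup.mk' (principal K).range) =
      (principal K).range ⊔ (ideleNorm K L).range := by
    ext x
    rw [Subgroup.mem_comap, Subgroup.mem_sup]
    constructor
    · rintro ⟨c, hc⟩
      induction c using QuotientGroup.induction_on with
      | H b =>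
        rw [ideleClassNorm_mk] at hc
        have h1 : (QuotientGroup.mk (ideleNorm K L b) : IdeleClass K) = QuotientGroup.mk x := hc
        rw [QuotientGroup.eq] at h1
        refine ⟨(ideleNorm K L b)⁻¹ * x, h1, ideleNorm K L b, ⟨b, rfl⟩, ?_⟩
        rw [mul_comm, mul_inv_cancel_left]
    · rintro ⟨y, ⟨a, rfl⟩, z, ⟨b, rfl⟩, rfl⟩
      refine ⟨QuotientGroup.mk b, ?_⟩
      rw [ideleClassNorm_mk]
      change (QuotientGroup.mk (ideleNorm K L b) : IdeleClass K) =
        QuotientGroup.mk (principal K a * ideleNorm K L b)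
      rw [QuotientGroup.eq]
      refine ⟨a, ?_⟩
      rw [mul_comm (principal K a), inv_mul_cancel_left]
  rw [← hcomap, Subgroup.index_comap_of_surjective _ (QuotientGroup.mk'_surjective _)]

end Index

/-! ### Cyclic layers of prime degree -/

section Prime

variable (K L : Type) [Field K] [NumberField K] [Field L] [NumberField L] [Algebra K L]
  [IsGalois K L]

/-- For a cyclic layer of prime degree: `H¹(G, C_L) = 0` and `|H²(G, C_L)| = p`. -/
theorem card_H1_H2_of_prime (h1 : FirstIneqHerbrand) (h2 : SecondIneqPrime)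
    (hp : (Module.finrank K L).Prime) :
    Nat.card (groupCohomology (ideleClassRep L (L ≃ₐ[K] L)) 1) = 1 ∧
      Nat.card (groupCohomology (ideleClassRep L (L ≃ₐ[K] L)) 2) = Module.finrank K L := by
  classical
  have hcard : Nat.card (L ≃ₐ[K] L) = Module.finrank K L := IsGalois.card_aut_eq_finrank K L
  have hcyc : IsCyclic (L ≃ₐ[K] L) := isCyclic_of_prime_card (hp := ⟨hp⟩) hcard
  let _ : CommGroup (L ≃ₐ[K] L) := IsCyclic.commGroup
  obtain ⟨s, hs⟩ := IsCyclic.exists_generator (α := (L ≃ₐ[K] L))
  obtain ⟨hfin, hherb⟩ := h1 K L s hs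
  have hmul := FirstIneq.hIndexMul_eq_mul_of_herbrandCycMul_eq hfin hherb
  have hdvd : hIndexMul (subOneMul (L ≃ₐ[K] L) (IdeleClass L) s)
      (normMul (L ≃ₐ[K] L) (IdeleClass L)) ∣ Module.finrank K L := by
    rw [hIndexMul_eq_index K L hs]
    exact h2 K L hp
  have hb : hIndexMul (normMul (L ≃ₐ[K] L) (IdeleClass L))
      (subOneMul (L ≃ₐ[K] L) (IdeleClass L) s) = 1 := by
    rw [hmul] at hdvd
    have hpos : 0 < Module.finrank K L := hp.pos
    have := Nat.dvd_of_mul_dvd_mul_left hpos
      (by simpa using hdvd : Module.finrank K L * _ ∣ Module.finrank K L * 1)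
    exact Nat.dvd_one.1 this
  have ha : hIndexMul (subOneMul (L ≃ₐ[K] L) (IdeleClass L) s)
      (normMul (L ≃ₐ[K] L) (IdeleClass L)) = Module.finrank K L := by
    rw [hmul, hb, mul_one]
  refine ⟨?_, ?_⟩
  · rw [card_groupCohomology_odd (ideleClassRep L (L ≃ₐ[K] L)) s hs 1 (by decide)]
    exact (hIndex_repNorm_repSub_ofMul (L ≃ₐ[K] L) (IdeleClass L) s).trans hb
  · rw [card_groupCohomology_even (ideleClassRep L (L ≃ₐ[K] L)) s hs 2 (by decide)]
    exact (hIndex_repSub_repNorm_ofMul (L ≃ₐ[K] L) (IdeleClass L) s).trans ha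

end Prime

/-- The two inequalities make every Galois layer of prime degree good. -/
theorem primeLayersGood (h1 : FirstIneqHerbrand) (h2 : SecondIneqPrime) : PrimeLayersGood := by
  intro K L _ _ _ _ _ _ hp
  obtain ⟨hH1, hH2⟩ := card_H1_H2_of_prime K L h1 h2 hp
  refine ⟨?_, ?_, ?_⟩
  · have := (Nat.card_eq_one_iff_unique.1 hH1).1
    exact ModuleCat.isZero_of_subsingleton _
  · exact Nat.finite_of_card_ne_zero (by rw [hH2]; exact hp.ne_zero)
  · rw [hH2]

end Fermat.Agent.Lib.CFT.Global.SecondIneq.Consequences
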