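import Mathlib

/-!
# Abstract selection of auxiliary primes (P-CFT, Global/SecondIneq, piece G8)

Given characters `χ i : V →* C i` onto groups of prime order `p` whose common kernel `H` has
finite index, there is a finite set `T` of indices such that the joint map `V → ∏_{i ∈ T} C i` is
onto with kernel `H`; in particular `[V : H] = p ^ |T|`.
-/

namespace Fermat.Agent.Lib.CFT.Global.SecondIneq

open Subgroup

section

variable {V ι : Type*} [CommGroup V] (C : ι → Type*) [∀ i, CommGroup (C i)]
variable (χ : ∀ i, V →* C i)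

/-- The joint homomorphism `V → ∏_{i ∈ T} C i`. -/
def jointHom (T : Finset ι) : V →* (∀ i : T, C i) := MonoidHom.pi fun i : T => χ i

@[simp] lemma jointHom_apply (T : Finset ι) (b : V) (i : T) : jointHom C χ T b i = χ i b := rfl

lemma mem_ker_jointHom (T : Finset ι) (b : V) :
    b ∈ (jointHom C χ T).ker ↔ ∀ i ∈ T, χ i b = 1 := by
  rw [MonoidHom.mem_ker]
  constructor
  · intro h i hi
    have := congrFun h ⟨i, hi⟩
    simpa using this
  · intro h
    funext i
    exact h i i.2

variable {C χ}

/-- Index of the kernel of a surjective joint map. -/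
lemma index_ker_jointHom {p : ℕ} (hC : ∀ i, Nat.card (C i) = p) (T : Finset ι)
    (hT : Function.Surjective (jointHom C χ T)) :
    (jointHom C χ T).ker.index = p ^ T.card := by
  rw [index_ker, MonoidHom.range_eq_top.2 hT]
  rw [Nat.card_congr (Subgroup.topEquiv (G := ∀ i : T, C i)).toEquiv, Nat.card_pi]
  simp [hC]

/-- Enlarging a surjective joint map by one index. -/
lemma surjective_jointHom_insert {p : ℕ} (hp : p.Prime) (hC : ∀ i, Nat.card (C i) = p)
    [DecidableEq ι] (T : Finset ι) (hT : Function.Surjective (jointHom C χ T)) (j : ι) (b : V)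
    (hb : b ∈ (jointHom C χ T).ker) (hbj : χ j b ≠ 1) :
    Function.Surjective (jointHom C χ (insert j T)) := by
  have : Fact p.Prime := ⟨hp⟩
  -- `χ j b` generates `C j`
  have hgen : ∀ c : C j, c ∈ Subgroup.zpowers (χ j b) :=
    fun c => mem_zpowers_of_prime_card (hC j) hbj
  intro c
  -- hit the `T`-part
  obtain ⟨v, hv⟩ := hT (fun i : T => c ⟨i.1, Finset.mem_insert_of_mem i.2⟩)
  -- adjust the `j`-component
  obtain ⟨k, hk⟩ := Subgroup.mem_zpowers_iff.1
    (hgen (c ⟨j, Finset.mem_insert_self j T⟩ / χ j v))
  refine ⟨v * b ^ k, ?_⟩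
  funext i
  rw [jointHom_apply, map_mul, map_zpow]
  obtain ⟨i, hi⟩ := i
  by_cases hij : i = j
  · subst hij
    rw [hk, mul_div_cancel]
  · have hiT : i ∈ T := (Finset.mem_insert.1 hi).resolve_left hij
    have h1 : χ i b = 1 := (mem_ker_jointHom C χ T b).1 hb i hiT
    have h2 := congrFun hv ⟨i, hiT⟩
    simp only [jointHom_apply] at h2
    rw [h1, one_zpow, mul_one, h2]

end

/-- **Selection of auxiliary indices.** -/
theorem exists_finset_surjective {V ι : Type*} [CommGroup V] (C : ι → Type*)
    [∀ i, CommGroup (C i)] {p : ℕ} (hp : p.Prime) (hC : ∀ i, Nat.card (C i) = p)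
    (χ : ∀ i, V →* C i) (H : Subgroup V) (hH : H = ⨅ i, (χ i).ker) (hfin : H.index ≠ 0) :
    ∃ T : Finset ι, Function.Surjective (fun (b : V) (i : T) => χ i b) ∧
      (∀ b, (∀ i ∈ T, χ i b = 1) → b ∈ H) ∧ H.index = p ^ T.card := by
  classical
  -- `H` is contained in every joint kernel
  have hHle : ∀ T : Finset ι, H ≤ (jointHom C χ T).ker := by
    intro T b hb
    rw [mem_ker_jointHom]
    intro i _
    rw [hH, Subgroup.mem_iInf] at hb
    exact hb i
  -- cardinality bound for surjective joint maps
  have hbound : ∀ T : Finset ι, Function.Surjective (jointHom C χ T) → T.card < H.index := by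
    intro T hT
    have h1 := index_ker_jointHom hC T hT
    have h2 : p ^ T.card ∣ H.index := h1 ▸ index_dvd_of_le (hHle T)
    exact (Nat.lt_pow_self hp.one_lt).trans_le (Nat.le_of_dvd (Nat.pos_of_ne_zero hfin) h2)
  -- main induction
  have key : ∀ n : ℕ, ∀ T : Finset ι, Function.Surjective (jointHom C χ T) →
      H.index - T.card = n →
      ∃ T' : Finset ι, Function.Surjective (jointHom C χ T') ∧
        ∀ j, (jointHom C χ T').ker ≤ (χ j).ker := by
    intro n
    induction n using Nat.strong_induction_on with
    | _ n ih =>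
      intro T hT hn
      by_cases hall : ∀ j, (jointHom C χ T).ker ≤ (χ j).ker
      · exact ⟨T, hT, hall⟩
      · simp only [not_forall] at hall
        obtain ⟨j, hj⟩ := hall
        obtain ⟨b, hb, hbj⟩ := SetLike.not_le_iff_exists.1 hj
        have hbj' : χ j b ≠ 1 := fun h => hbj ((MonoidHom.mem_ker).2 h)
        have hjT : j ∉ T := fun hjT => hbj' ((mem_ker_jointHom C χ T b).1 hb j hjT)
        have hT' := surjective_jointHom_insert hp hC T hT j b hb hbj'
        have hcard : (insert j T).card = T.card + 1 := Finset.card_insert_of_notMem hjT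
        have hlt := hbound _ hT'
        exact ih (H.index - (insert j T).card) (by omega) (insert j T) hT' rfl
  obtain ⟨T, hT, hTall⟩ := key _ ∅ (by
    intro c
    exact ⟨1, funext fun i => absurd i.2 (Finset.notMem_empty _)⟩) rfl
  have hker : (jointHom C χ T).ker = H := by
    refine le_antisymm ?_ (hHle T)
    rw [hH]
    exact le_iInf hTall
  refine ⟨T, hT, ?_, ?_⟩
  · intro b hb
    rw [← hker]
    exact (mem_ker_jointHom C χ T b).2 hb
  · rw [← hker]
    exact index_ker_jointHom hC T hT

end Fermat.Agent.Lib.CFT.Global.SecondIneq
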