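/-
P-CFT work package Global/SecondIneq (task 205), file 1: the abstract idele model.

The algebraic proof of the second inequality (Cassels-Froehlich VII.9) is carried out against an
abstract model of the ideles of a number field `F` containing the `p`-th roots of unity:

* `LocalModel F p`  : local groups `Fv v` (`v` a prime of `𝓞 F`), their unit subgroups `U v`, the
  embeddings `emb v : Fˣ →* Fv v`, the valuations `ord v`, the reduction maps `red v` onto the units
  of the residue field of `v`, an archimedean group `A`, and the value of the product of the local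
  `p`-power indices over the places dividing `p` and infinity;
* `LocalModel.J`    : the restricted product (ideles of the model), `LocalModel.principal`;
* `KummerModel F p` : in addition, for every `b : Fˣ` a subgroup `Nb b` of `J` (the group of idele
  norms from `F(b^{1/p})`) and local norm groups `Nloc b v`, `NlocA b`, subject to the standard
  local facts, the consequence of the first inequality, and weak approximation modulo `p`-th powers.

Everything downstream (`Main.lean`) only uses these structures; the instance for the ideles of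
`Ideles.lean` is constructed separately.
-/
import Mathlib
import Fermat.Agent.Lib.CFT.Global.SUnitsClass

set_option autoImplicit false

namespace Fermat.Agent.Lib.CFT.Global.SecondIneq

open NumberField IsDedekindDomain Fermat.Agent.Lib.CFT.Global.SUnits

/-- The subgroup of `p`-th powers of a commutative group. -/
abbrev powSubgroup (G : Type*) [CommGroup G] (p : ℕ) : Subgroup G := (powMonoidHom p : G →* G).range

lemma mem_powSubgroup_iff {G : Type*} [CommGroup G] {p : ℕ} {x : G} :
    x ∈ powSubgroup G p ↔ ∃ y : G, y ^ p = x := Iff.rfl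

/-- The local data of an abstract idele model of the number field `F` (relative to the prime
number `p`). -/
structure LocalModel (F : Type) [Field F] [NumberField F] (p : ℕ) where
  /-- the multiplicative group of the completion at `v` -/
  Fv : HeightOneSpectrum (𝓞 F) → Type
  [instFv : ∀ v, CommGroup (Fv v)]
  /-- the local units -/
  U : ∀ v, Subgroup (Fv v)
  /-- the embedding of the global field -/
  emb : ∀ v, Fˣ →* Fv v
  /-- the normalised valuation -/
  ord : ∀ v, Fv v →* Multiplicative ℤ
  ord_ker : ∀ v, (ord v).ker = U v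
  ord_surjective : ∀ v, Function.Surjective (ord v)
  ord_emb : ∀ v (x : Fˣ), ord v (emb v x) = Multiplicative.ofAdd (ordAt v x)
  /-- reduction of local units to the residue field -/
  red : ∀ v, U v →* (𝓞 F ⧸ v.asIdeal)ˣ
  red_surjective : ∀ v, Function.Surjective (red v)
  /-- Hensel: away from `p`, a unit congruent to `1` is a `p`-th power of a unit. -/
  red_ker : ∀ v, (p : 𝓞 F) ∉ v.asIdeal → ∀ u : U v, red v u = 1 → ∃ u' : U v, u' ^ p = u
  /-- compatibility of the reduction with the reduction of algebraic integers -/
  red_emb : ∀ v (c : 𝓞 F) (x : Fˣ) (u : U v), (x : F) = (c : F) → (u : Fv v) = emb v x →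
    ((red v u : (𝓞 F ⧸ v.asIdeal)ˣ) : 𝓞 F ⧸ v.asIdeal) = Ideal.Quotient.mk v.asIdeal c
  /-- the archimedean component -/
  A : Type
  [instA : CommGroup A]
  embA : Fˣ →* A
  /-- the product of the local `p`-power indices over the places dividing `p` and infinity -/
  index_p : ∀ P : Finset (HeightOneSpectrum (𝓞 F)), (∀ v, v ∈ P ↔ (p : 𝓞 F) ∈ v.asIdeal) →
    (∏ v ∈ P, (powSubgroup (Fv v) p).index) * (powSubgroup A p).index =
      p ^ (2 * P.card + 2 * Fintype.card (InfinitePlace F))

attribute [instance] LocalModel.instFv LocalModel.instA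

namespace LocalModel

variable {F : Type} [Field F] [NumberField F] {p : ℕ} (M : LocalModel F p)

/-- The unrestricted product of the local groups. -/
abbrev Prod : Type := (∀ v : HeightOneSpectrum (𝓞 F), M.Fv v) × M.A

/-- The ideles of the model: the restricted product. -/
def ideleSubgroup : Subgroup M.Prod where
  carrier := {x | {v | x.1 v ∉ M.U v}.Finite}
  mul_mem' := by
    intro a b ha hb
    refine (ha.union hb).subset ?_
    intro v hv
    by_contra h
    simp only [Set.mem_union, Set.mem_ofPred_eq, not_or, not_not] at h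
    exact hv (mul_mem h.1 h.2)
  one_mem' := by
    have : {v | (1 : M.Prod).1 v ∉ M.U v} = ∅ := by
      ext v; simp [one_mem]
    change {v | (1 : M.Prod).1 v ∉ M.U v}.Finite
    rw [this]
    exact Set.finite_empty
  inv_mem' := by
    intro a ha
    refine ha.subset ?_
    intro v hv h
    exact hv (by simpa using inv_mem h)

/-- The idele group of the model. -/
abbrev J : Type := ↥M.ideleSubgroup

lemma mem_ideleSubgroup (x : M.Prod) :
    x ∈ M.ideleSubgroup ↔ {v | x.1 v ∉ M.U v}.Finite := Iff.rfl

lemma emb_mem_U_iff (v : HeightOneSpectrum (𝓞 F)) (x : Fˣ) :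
    M.emb v x ∈ M.U v ↔ ordAt v x = 0 := by
  rw [← M.ord_ker v, MonoidHom.mem_ker, M.ord_emb]
  exact ofAdd_eq_one

/-- A nonzero element of `F` is a unit at almost all primes. -/
lemma finite_setOf_ordAt_ne_zero (x : Fˣ) :
    {v : HeightOneSpectrum (𝓞 F) | ordAt v x ≠ 0}.Finite := by
  have h1 := HeightOneSpectrum.Support.finite (𝓞 F) (x : F)
  have h2 := HeightOneSpectrum.Support.finite (𝓞 F) ((x⁻¹ : Fˣ) : F)
  refine (h1.union h2).subset ?_
  intro v hv
  simp only [Set.mem_union, HeightOneSpectrum.Support, Set.mem_ofPred_eq]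
  rw [valuation_eq_exp_neg_ordAt, valuation_eq_exp_neg_ordAt, ordAt_inv, ← WithZero.exp_zero,
    WithZero.exp_lt_exp, WithZero.exp_lt_exp]
  have : ordAt v x ≠ 0 := hv
  omega

/-- The diagonal embedding of `Fˣ`. -/
def principal : Fˣ →* M.J where
  toFun x := ⟨(fun v => M.emb v x, M.embA x), by
    rw [mem_ideleSubgroup]
    refine (finite_setOf_ordAt_ne_zero x).subset ?_
    intro v hv
    simpa [emb_mem_U_iff] using hv⟩
  map_one' := by
    ext : 1
    simp only [map_one]
    rfl
  map_mul' x y := by
    ext : 1
    simp only [map_mul]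
    rfl

@[simp] lemma principal_fst (x : Fˣ) (v : HeightOneSpectrum (𝓞 F)) :
    (M.principal x : M.Prod).1 v = M.emb v x := rfl

@[simp] lemma principal_snd (x : Fˣ) : (M.principal x : M.Prod).2 = M.embA x := rfl

end LocalModel

/-- An abstract model of the ideles of `F` together with the norm groups of the Kummer extensions
`F(b^{1/p})`, `b : Fˣ`. -/
structure KummerModel (F : Type) [Field F] [NumberField F] (p : ℕ) extends LocalModel F p where
  /-- the idele norm group of `F(b^{1/p})` -/
  Nb : Fˣ → Subgroup toLocalModel.J
  /-- the local norm groups of `F(b^{1/p})` -/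
  Nloc : Fˣ → ∀ v, Subgroup (Fv v)
  /-- the archimedean norm group of `F(b^{1/p})` -/
  NlocA : Fˣ → Subgroup A
  /-- an idele which is a local norm everywhere is a norm -/
  mem_Nb : ∀ (b : Fˣ) (x : toLocalModel.J), (∀ v, (x : toLocalModel.Prod).1 v ∈ Nloc b v) →
    (x : toLocalModel.Prod).2 ∈ NlocA b → x ∈ Nb b
  pow_mem_Nloc : ∀ (b : Fˣ) (v : HeightOneSpectrum (𝓞 F)) (y : Fv v), y ^ p ∈ Nloc b v
  pow_mem_NlocA : ∀ (b : Fˣ) (y : A), y ^ p ∈ NlocA b
  /-- where `b` is a local `p`-th power, the Kummer extension splits and everything is a norm -/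
  Nloc_eq_top : ∀ (b : Fˣ) (v : HeightOneSpectrum (𝓞 F)), (∃ y : Fv v, y ^ p = emb v b) →
    Nloc b v = ⊤
  NlocA_eq_top : ∀ b : Fˣ, (∃ y : A, y ^ p = embA b) → NlocA b = ⊤
  /-- away from `p` and the support of `b` the Kummer extension is unramified, so units are norms -/
  U_le_Nloc : ∀ (b : Fˣ) (v : HeightOneSpectrum (𝓞 F)), (p : 𝓞 F) ∉ v.asIdeal → ordAt v b = 0 →
    U v ≤ Nloc b v
  /-- consequence of the first inequality: a Kummer extension whose norm group is everything
  is trivial -/
  first_ineq : ∀ b : Fˣ, toLocalModel.principal.range ⊔ Nb b = ⊤ → ∃ c : Fˣ, c ^ p = b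
  /-- weak approximation modulo `p`-th powers -/
  weak_approx : ∀ (T : Finset (HeightOneSpectrum (𝓞 F))) (x : toLocalModel.J), ∃ y : Fˣ,
    (∀ v ∈ T, ∃ z : Fv v, z ^ p = (x : toLocalModel.Prod).1 v / emb v y) ∧
      ∃ z : A, z ^ p = (x : toLocalModel.Prod).2 / embA y

end Fermat.Agent.Lib.CFT.Global.SecondIneq
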