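/-
P-CFT work package Global/SecondIneq (task 205), file 2: basic constructions in a `LocalModel`:
units at a prime, the residue characters, the `S`-ideles, `J = Fˣ · J_S` for class-generating `S`.
-/
import Fermat.Agent.Lib.CFT.Global.SecondIneq.Model

set_option autoImplicit false

namespace Fermat.Agent.Lib.CFT.Global.SecondIneq

open NumberField IsDedekindDomain Fermat.Agent.Lib.CFT.Global.SUnits

variable {F : Type} [Field F] [NumberField F]

/-- The elements of `Fˣ` which are units at the prime `v`. -/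
def unitsAt (v : HeightOneSpectrum (𝓞 F)) : Subgroup Fˣ where
  carrier := {x | ordAt v x = 0}
  mul_mem' := by
    intro a b ha hb
    simp only [Set.mem_ofPred_eq] at ha hb ⊢
    rw [ordAt_mul, ha, hb, add_zero]
  one_mem' := by simp
  inv_mem' := by
    intro a ha
    simp only [Set.mem_ofPred_eq] at ha ⊢
    rw [ordAt_inv, ha, neg_zero]

lemma mem_unitsAt {v : HeightOneSpectrum (𝓞 F)} {x : Fˣ} : x ∈ unitsAt v ↔ ordAt v x = 0 :=
  Iff.rfl

lemma sUnit_le_unitsAt {S : Finset (HeightOneSpectrum (𝓞 F))} {v : HeightOneSpectrum (𝓞 F)}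
    (hv : v ∉ S) : SUnit F S ≤ unitsAt v := fun _ hx => mem_sUnit_iff.1 hx v hv

namespace LocalModel

variable {p : ℕ} (M : LocalModel F p)

/-- The embedding of the `v`-units of `F` into the local units. -/
def embU (v : HeightOneSpectrum (𝓞 F)) : unitsAt v →* M.U v where
  toFun x := ⟨M.emb v x, (M.emb_mem_U_iff v x).2 x.2⟩
  map_one' := by ext; simp
  map_mul' x y := by ext; simp

@[simp] lemma coe_embU (v : HeightOneSpectrum (𝓞 F)) (x : unitsAt v) :
    ((M.embU v x : M.U v) : M.Fv v) = M.emb v x := rfl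

/-- The residue character at `v` (defined through the model). -/
def resChar (v : HeightOneSpectrum (𝓞 F)) : unitsAt v →* (𝓞 F ⧸ v.asIdeal)ˣ :=
  (M.red v).comp (M.embU v)

lemma resChar_apply (v : HeightOneSpectrum (𝓞 F)) (x : unitsAt v) :
    M.resChar v x = M.red v (M.embU v x) := rfl

/-- On algebraic integers the residue character is the reduction modulo `v`. -/
lemma coe_resChar_of_integer (v : HeightOneSpectrum (𝓞 F)) (x : unitsAt v) (c : 𝓞 F)
    (hc : ((x : Fˣ) : F) = (c : F)) :
    ((M.resChar v x : (𝓞 F ⧸ v.asIdeal)ˣ) : 𝓞 F ⧸ v.asIdeal) = Ideal.Quotient.mk v.asIdeal c :=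
  M.red_emb v c x (M.embU v x) hc rfl

/-- The `S`-ideles: units outside `S`. -/
def JS (S : Finset (HeightOneSpectrum (𝓞 F))) : Subgroup M.J where
  carrier := {x | ∀ v, v ∉ S → (x : M.Prod).1 v ∈ M.U v}
  mul_mem' := by
    intro a b ha hb v hv
    exact mul_mem (ha v hv) (hb v hv)
  one_mem' := by
    intro v _
    exact one_mem _
  inv_mem' := by
    intro a ha v hv
    exact inv_mem (ha v hv)

lemma mem_JS {S : Finset (HeightOneSpectrum (𝓞 F))} {x : M.J} :
    x ∈ M.JS S ↔ ∀ v, v ∉ S → (x : M.Prod).1 v ∈ M.U v := Iff.rfl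

lemma JS_mono {S S' : Finset (HeightOneSpectrum (𝓞 F))} (h : S ⊆ S') : M.JS S ≤ M.JS S' :=
  fun _ hx v hv => hx v (fun hv' => hv (h hv'))

/-- The principal `S`-ideles are the `S`-units. -/
lemma comap_principal_JS (S : Finset (HeightOneSpectrum (𝓞 F))) :
    (M.JS S).comap M.principal = SUnit F S := by
  ext x
  rw [Subgroup.mem_comap, mem_JS, mem_sUnit_iff]
  refine forall_congr' fun v => forall_congr' fun _ => ?_
  rw [principal_fst, emb_mem_U_iff]

/-- The valuation vector of an idele is finitely supported. -/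
lemma finite_setOf_ord_ne_one (x : M.J) :
    {v | M.ord v ((x : M.Prod).1 v) ≠ 1}.Finite := by
  refine (x.2 : {v | (x : M.Prod).1 v ∉ M.U v}.Finite).subset ?_
  intro v hv
  simp only [Set.mem_ofPred_eq] at hv ⊢
  rwa [← M.ord_ker v, MonoidHom.mem_ker]

/-- If `S` is class generating then `J = Fˣ · J_S`. -/
lemma principal_range_sup_JS {S : Finset (HeightOneSpectrum (𝓞 F))} (hS : IsClassGenerating S) :
    M.principal.range ⊔ M.JS S = ⊤ := by
  classical
  rw [eq_top_iff]
  intro x _
  let n : HeightOneSpectrum (𝓞 F) →₀ ℤ :=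
    Finsupp.ofSupportFinite (fun v => Multiplicative.toAdd (M.ord v ((x : M.Prod).1 v))) (by
      refine (M.finite_setOf_ord_ne_one x).subset ?_
      intro v hv
      simp only [Function.mem_support, ne_eq] at hv
      simp only [Set.mem_ofPred_eq, ne_eq]
      intro h
      exact hv (by rw [h]; rfl))
  obtain ⟨y, hy⟩ := hS n
  have hmem : (M.principal y)⁻¹ * x ∈ M.JS S := by
    intro v hv
    rw [← M.ord_ker v, MonoidHom.mem_ker]
    have h1 : (((M.principal y)⁻¹ * x : M.J) : M.Prod).1 v =
        (M.emb v y)⁻¹ * (x : M.Prod).1 v := rfl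
    rw [h1, map_mul, map_inv, M.ord_emb, hy v hv]
    change (Multiplicative.ofAdd (Multiplicative.toAdd (M.ord v ((x : M.Prod).1 v))))⁻¹ * _ = 1
    rw [ofAdd_toAdd, inv_mul_cancel]
  have : x = M.principal y * ((M.principal y)⁻¹ * x) := by group
  rw [this]
  exact Subgroup.mul_mem_sup ⟨y, rfl⟩ hmem

end LocalModel

end Fermat.Agent.Lib.CFT.Global.SecondIneq
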