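import Mathlib

/-!
# Index bookkeeping for the second inequality (P-CFT, Global/SecondIneq, piece G1)

For `f : A →* J` and subgroups `E ≤ U` of the commutative group `J`:
`[f(A) U : f(A) E] · [f⁻¹ U : f⁻¹ E] = [U : E]`.
-/

namespace Fermat.Agent.Lib.CFT.Global.SecondIneq

open Subgroup

variable {A J : Type*} [CommGroup A] [CommGroup J]

/-- `[f(A)·U : f(A)·E] · [f⁻¹(U) : f⁻¹(E)] = [U : E]` for `E ≤ U` (no injectivity needed). -/
theorem relIndex_sup_mul_relIndex_comap (f : A →* J) (E U : Subgroup J) (hEU : E ≤ U) :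
    (f.range ⊔ E).relIndex (f.range ⊔ U) * (E.comap f).relIndex (U.comap f) = E.relIndex U := by
  set P : Subgroup J := f.range with hP
  -- second factor
  have h2 : (E.comap f).relIndex (U.comap f) = E.relIndex ((P ⊔ E) ⊓ U) := by
    have hmod : (P ⊔ E) ⊓ U = (P ⊓ U) ⊔ E := by
      calc (P ⊔ E) ⊓ U = (E ⊔ P) ⊓ U := by rw [sup_comm]
        _ = E ⊔ P ⊓ U := sup_inf_assoc_of_le P hEU
        _ = (P ⊓ U) ⊔ E := sup_comm _ _
    rw [relIndex_comap, Subgroup.map_comap_eq, hmod, relIndex_sup_right]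
  -- first factor
  have h1 : (P ⊔ E).relIndex (P ⊔ U) = (P ⊔ E).relIndex U := by
    have : P ⊔ U = (P ⊔ E) ⊔ U := by
      rw [sup_assoc, sup_eq_right.2 hEU]
    rw [this, relIndex_sup_left]
  rw [h1, h2, mul_comm, relIndex_inf_mul_relIndex, inf_eq_left.2 (le_sup_right : E ≤ P ⊔ E)]

/-- Corollary when `f(A)·U = ⊤`: `[J : f(A)·E] · [f⁻¹(U) : f⁻¹(E)] = [U : E]`. -/
theorem index_sup_mul_relIndex_comap (f : A →* J) (E U : Subgroup J) (hEU : E ≤ U)
    (hU : f.range ⊔ U = ⊤) :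
    (f.range ⊔ E).index * (E.comap f).relIndex (U.comap f) = E.relIndex U := by
  rw [← relIndex_sup_mul_relIndex_comap f E U hEU, hU, relIndex_top_right]

/-- Variant: `[f⁻¹(U) : f⁻¹(E)]` divides `[U : E]`. -/
theorem relIndex_comap_dvd (f : A →* J) (E U : Subgroup J) (hEU : E ≤ U) :
    (E.comap f).relIndex (U.comap f) ∣ E.relIndex U :=
  Dvd.intro_left _ (relIndex_sup_mul_relIndex_comap f E U hEU)

end Fermat.Agent.Lib.CFT.Global.SecondIneq
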