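import Mathlib
import Fermat.Agent.Lib.CFT.Local.PowerIndexAbstract

/-!
# The index of `p`-th powers in a tame local field, abstractly (P-CFT, SecondIneq, piece G6)

`G = K_vˣ` with a surjective `ord : G →* ℤ`, `U = ker ord`, a surjection `red : U →* C` onto a
finite cyclic group of order divisible by `p` (the residue units) whose kernel consists of
`p`-th powers (Hensel, residue characteristic `≠ p`).  Then `[U : Uᵖ] = p` and `[G : Gᵖ] = p²`.
-/

namespace Fermat.Agent.Lib.CFT.Global.SecondIneq

open Subgroup

/-- For a subgroup `H` of a commutative group, `[H : Hⁿ]` computed inside `G` or inside `H`. -/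
theorem relIndex_map_pow_eq_index {G : Type*} [CommGroup G] (H : Subgroup G) (n : ℕ) :
    (H.map (powMonoidHom n : G →* G)).relIndex H = (powMonoidHom n : H →* H).range.index := by
  rw [relIndex]
  congr 1
  ext x
  simp only [mem_subgroupOf, mem_map, powMonoidHom_apply, MonoidHom.mem_range]
  constructor
  · rintro ⟨y, hy, hyx⟩
    exact ⟨⟨y, hy⟩, Subtype.ext (by simpa using hyx)⟩
  · rintro ⟨y, rfl⟩
    exact ⟨y.1, y.2, by simp⟩

section

variable {U C : Type*} [CommGroup U] [CommGroup C]

/-- If `red : U →* C` is surjective and its kernel consists of `p`-th powers then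
`[U : Uᵖ] = [C : Cᵖ]`. -/
theorem index_range_pow_eq_of_red (p : ℕ) (red : U →* C) (hred : Function.Surjective red)
    (hker : ∀ u : U, red u = 1 → ∃ u' : U, u' ^ p = u) :
    (powMonoidHom p : U →* U).range.index = (powMonoidHom p : C →* C).range.index := by
  have h : (powMonoidHom p : U →* U).range = ((powMonoidHom p : C →* C).range).comap red := by
    ext u
    simp only [MonoidHom.mem_range, powMonoidHom_apply, mem_comap]
    constructor
    · rintro ⟨v, rfl⟩
      exact ⟨red v, (map_pow red v p).symm⟩
    · rintro ⟨c, hc⟩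
      obtain ⟨v, rfl⟩ := hred c
      have h1 : red (u / v ^ p) = 1 := by
        rw [map_div, map_pow, hc, div_self']
      obtain ⟨w, hw⟩ := hker _ h1
      refine ⟨v * w, ?_⟩
      rw [mul_pow, hw, mul_div_cancel]
  rw [h, index_comap_of_surjective _ hred]

/-- `[U : Uᵖ] = p` when `U` surjects onto a finite cyclic group of order divisible by `p` with
kernel consisting of `p`-th powers. -/
theorem index_range_pow_of_red [Finite C] [IsCyclic C] {p : ℕ} (hp : p.Prime)
    (hC : p ∣ Nat.card C) (red : U →* C) (hred : Function.Surjective red)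
    (hker : ∀ u : U, red u = 1 → ∃ u' : U, u' ^ p = u) :
    (powMonoidHom p : U →* U).range.index = p := by
  rw [index_range_pow_eq_of_red p red hred hker, IsCyclic.index_powMonoidHom_range,
    Nat.gcd_eq_right hC]

end

variable {G C : Type*} [CommGroup G] [CommGroup C] [Finite C] [IsCyclic C]

/-- The unit part: `[U : Uᵖ] = p` for `U = ker ord`. -/
theorem index_range_pow_ker_of_ord_red {p : ℕ} (hp : p.Prime) (hC : p ∣ Nat.card C)
    (ord : G →* Multiplicative ℤ) (red : ord.ker →* C) (hred : Function.Surjective red)
    (hker : ∀ u : ord.ker, red u = 1 → ∃ u' : ord.ker, u' ^ p = u) :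
    (powMonoidHom p : ord.ker →* ord.ker).range.index = p :=
  index_range_pow_of_red hp hC red hred hker

/-- **Tame local index**: `[G : Gᵖ] = p²`. -/
theorem index_range_pow_of_ord_red {p : ℕ} (hp : p.Prime) (hC : p ∣ Nat.card C)
    (ord : G →* Multiplicative ℤ) (hord : Function.Surjective ord)
    (red : ord.ker →* C) (hred : Function.Surjective red)
    (hker : ∀ u : ord.ker, red u = 1 → ∃ u' : ord.ker, u' ^ p = u) :
    (powMonoidHom p : G →* G).range.index = p ^ 2 := by
  rw [Fermat.Agent.Lib.CFT.Local.PowerIndex.index_range_pow_eq_relIndex_mul p hp.ne_zero ord hord,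
    relIndex_map_pow_eq_index, index_range_pow_ker_of_ord_red hp hC ord red hred hker, sq]

end Fermat.Agent.Lib.CFT.Global.SecondIneq
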