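/-
helper66 (P-CFT, WP Global/SecondIneq, piece G2).  The index of the `p`-th powers in the group
of `S`-units of a number field containing the `p`-th roots of unity:
`[O_S^× : (O_S^×)^p] = p ^ (r₁ + r₂ + |S|)`.

* `index_range_nsmul_eq` : for a finitely generated abelian group `A` with torsion subgroup `T`,
  `[A : pA] = p ^ rank A * [T : pT]`;
* `index_range_nsmul_of_isAddCyclic_torsion` : if `T` is cyclic of order divisible by the prime
  `p` then `[A : pA] = p ^ (rank A + 1)`;
* `index_range_pow_sUnit` : the application to `S`-units.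
-/
import Mathlib
import Fermat.Agent.Lib.CFT.Global.SUnitsClass

set_option autoImplicit false

namespace Fermat.Agent.Lib.CFT.Global.SecondIneq

open Module NumberField IsDedekindDomain Fermat.Agent.Lib.CFT.Global.SUnits

section Abstract

variable (A : Type*) [AddCommGroup A] [Module.Finite ℤ A]

/-- The torsion subgroup of a finitely generated abelian group is finite. -/
instance finite_torsion_toAddSubgroup : Finite (Submodule.torsion ℤ A).toAddSubgroup := by
  have : Finite (Submodule.torsion ℤ A) :=
    Module.finite_of_fg_torsion _ (Submodule.torsion_isTorsion)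
  exact this

/-- For a finitely generated abelian group `A` with torsion subgroup `T`:
`[A : pA] = p ^ rank A * [T : pT]`. -/
theorem index_range_nsmul_eq (p : ℕ) [NeZero p] :
    (nsmulAddMonoidHom p : A →+ A).range.index =
      p ^ finrank ℤ A *
        (nsmulAddMonoidHom p : (Submodule.torsion ℤ A).toAddSubgroup →+ _).range.index := by
  set Tm : Submodule ℤ A := Submodule.torsion ℤ A with hTm
  set T : AddSubgroup A := Tm.toAddSubgroup with hT
  set P : AddSubgroup A := (nsmulAddMonoidHom p : A →+ A).range with hP
  set Q := A ⧸ Tm with hQ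
  set PQ : AddSubgroup Q := (nsmulAddMonoidHom p : Q →+ Q).range with hPQ
  have hp0 : p ≠ 0 := NeZero.ne p
  have h1 : P.index = P.relIndex (T ⊔ P) * (T ⊔ P).index :=
    (AddSubgroup.relIndex_mul_index (le_sup_right : P ≤ T ⊔ P)).symm
  have h2 : T ⊔ P = PQ.comap Tm.mkQ.toAddMonoidHom := by
    ext x
    rw [AddSubgroup.mem_sup, AddSubgroup.mem_comap]
    constructor
    · rintro ⟨t, ht, y, ⟨a, rfl⟩, rfl⟩
      refine ⟨Tm.mkQ a, ?_⟩
      change p • Tm.mkQ a = Tm.mkQ (t + p • a)
      rw [map_add, map_nsmul]
      have : Tm.mkQ t = 0 := (Submodule.Quotient.mk_eq_zero Tm).2 ht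
      rw [this, zero_add]
    · rintro ⟨y, hy⟩
      obtain ⟨a, rfl⟩ := Tm.mkQ_surjective y
      change p • Tm.mkQ a = Tm.mkQ x at hy
      rw [← map_nsmul, eq_comm, ← sub_eq_zero, ← map_sub] at hy
      have hmem : x - p • a ∈ Tm := (Submodule.Quotient.mk_eq_zero Tm).1 hy
      exact ⟨x - p • a, hmem, p • a, ⟨a, rfl⟩, by abel⟩
  have h2' : (T ⊔ P).index = PQ.index := by
    rw [h2]
    exact AddSubgroup.index_comap_of_surjective PQ Tm.mkQ_surjective
  have h3 : PQ.index = p ^ finrank ℤ A := by
    have hfr : finrank ℤ Q = finrank ℤ A := finrank_quotient_eq_of_le_torsion le_rfl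
    have hN : PQ = (LinearMap.range (LinearMap.lsmul ℤ Q (p : ℤ))).toAddSubgroup := by
      ext y
      constructor
      · rintro ⟨z, rfl⟩
        exact ⟨z, by simp⟩
      · rintro ⟨z, rfl⟩
        exact ⟨z, by simp⟩
    rw [hN, ← hfr, ← ModN.natCard_eq Q p]
    rfl
  have h4 : P.relIndex (T ⊔ P) = P.relIndex T := AddSubgroup.relIndex_sup_right T P
  have h5 : P.addSubgroupOf T = (nsmulAddMonoidHom p : T →+ T).range := by
    ext x
    rw [AddSubgroup.mem_addSubgroupOf]
    constructor
    · rintro ⟨a, ha⟩
      change p • a = (x : A) at ha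
      have hxT : (x : A) ∈ Tm := x.2
      obtain ⟨n, hn⟩ := hxT
      have haT : a ∈ Tm := by
        refine ⟨⟨(n : ℤ) * p, mem_nonZeroDivisors_of_ne_zero ?_⟩, ?_⟩
        · exact mul_ne_zero (nonZeroDivisors.coe_ne_zero n) (by exact_mod_cast hp0)
        · change ((n : ℤ) * p) • a = 0
          rw [mul_smul, natCast_zsmul, ha]
          exact hn
      exact ⟨⟨a, haT⟩, Subtype.ext ha⟩
    · rintro ⟨t, rfl⟩
      exact ⟨(t : A), rfl⟩
  rw [h1, h4, h2', h3, AddSubgroup.relIndex, h5, mul_comm]

/-- A finitely generated abelian group with cyclic torsion subgroup of order divisible by the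
prime `p` has `[A : pA] = p ^ (rank A + 1)`. -/
theorem index_range_nsmul_of_isAddCyclic_torsion {p : ℕ} (hp : p.Prime)
    [IsAddCyclic (Submodule.torsion ℤ A).toAddSubgroup]
    (hdvd : p ∣ Nat.card (Submodule.torsion ℤ A).toAddSubgroup) :
    (nsmulAddMonoidHom p : A →+ A).range.index = p ^ (finrank ℤ A + 1) := by
  have : NeZero p := ⟨hp.ne_zero⟩
  rw [index_range_nsmul_eq A p, IsAddCyclic.index_nsmulAddMonoidHom_range,
    Nat.gcd_eq_right hdvd, pow_succ]

end Abstract

/-- The multiplicative-to-additive dictionary for the subgroup of `p`-th powers. -/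
theorem index_range_pow_eq_index_range_nsmul (G : Type*) [CommGroup G] (p : ℕ) :
    (powMonoidHom p : G →* G).range.index =
      (nsmulAddMonoidHom p : Additive G →+ Additive G).range.index := by
  rw [← Subgroup.index_toAddSubgroup]
  rfl

section Mult

variable (G : Type*) [CommGroup G] [Module.Finite ℤ (Additive G)]

/-- Multiplicative version: a finitely generated commutative group `G` which embeds its elements
of finite order into a field, with an element of prime order `p`, has
`[G : G^p] = p ^ (rank G + 1)`. -/
theorem index_range_pow_of_injective_field {F : Type*} [Field F] (f : G →* F)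
    (hf : Function.Injective f) {p : ℕ} (hp : p.Prime) {z : G} (hz : orderOf z = p) :
    (powMonoidHom p : G →* G).range.index = p ^ (finrank ℤ (Additive G) + 1) := by
  rw [index_range_pow_eq_index_range_nsmul]
  set T : AddSubgroup (Additive G) := (Submodule.torsion ℤ (Additive G)).toAddSubgroup with hT
  have hcyc : IsCyclic (Multiplicative T) := by
    let g : Multiplicative T →* F :=
      { toFun := fun x => f (Additive.toMul ((Multiplicative.toAdd x : T) : Additive G))
        map_one' := by simp
        map_mul' := fun x y => by simp }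
    refine isCyclic_of_injective_ringHom g ?_
    intro x y hxy
    have h1 := hf hxy
    have h2 : ((Multiplicative.toAdd x : T) : Additive G) = ((Multiplicative.toAdd y : T) :
        Additive G) := Additive.toMul.injective h1
    exact Multiplicative.toAdd.injective (Subtype.ext h2)
  have : IsAddCyclic T := isCyclic_multiplicative_iff.1 hcyc
  apply index_range_nsmul_of_isAddCyclic_torsion (Additive G) hp
  -- the element `z` of order `p` lies in the torsion subgroup
  have hzT : Additive.ofMul z ∈ T := by
    rw [hT, Submodule.torsion_int]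
    change IsOfFinAddOrder (Additive.ofMul z)
    rw [isOfFinAddOrder_ofMul_iff, ← orderOf_pos_iff, hz]
    exact hp.pos
  have hord : addOrderOf (⟨Additive.ofMul z, hzT⟩ : T) = p := by
    rw [← hz, ← addOrderOf_ofMul_eq_orderOf, ← AddSubgroup.addOrderOf_coe]
  rw [← hord]
  exact addOrderOf_dvd_natCard _

end Mult

section SUnit

variable {K : Type*} [Field K] [NumberField K]

/-- **Index of the `p`-th powers in the `S`-units** of a number field containing the `p`-th
roots of unity. -/
theorem index_range_pow_sUnit {p : ℕ} (hp : p.Prime) {ζ : K} (hζ : IsPrimitiveRoot ζ p)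
    (S : Finset (HeightOneSpectrum (𝓞 K))) :
    (powMonoidHom p : SUnit K S →* SUnit K S).range.index =
      p ^ (Fintype.card (InfinitePlace K) + S.card) := by
  have hζ0 : ζ ≠ 0 := hζ.ne_zero hp.ne_zero
  -- `ζ` as an `S`-unit
  have hmem : Units.mk0 ζ hζ0 ∈ SUnit K S := by
    rw [mem_sUnit_iff]
    intro v _
    have h1 : (Units.mk0 ζ hζ0) ^ p = 1 := by
      ext
      simpa using hζ.pow_eq_one
    have h2 := ordAt_pow v (Units.mk0 ζ hζ0) p
    rw [h1, ordAt_one] at h2
    have hp0 : (p : ℤ) ≠ 0 := by exact_mod_cast hp.ne_zero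
    rcases mul_eq_zero.1 h2.symm with h | h
    · exact absurd h hp0
    · exact h
  let z : SUnit K S := ⟨Units.mk0 ζ hζ0, hmem⟩
  have hz : orderOf z = p := by
    have h1 : orderOf z = orderOf (Units.mk0 ζ hζ0) := Subgroup.orderOf_mk _ hmem
    have h2 : orderOf (Units.mk0 ζ hζ0) = orderOf ζ := by
      rw [← orderOf_units]
      rfl
    rw [h1, h2, ← hζ.eq_orderOf]
  let f : SUnit K S →* K := (Units.coeHom K).comp (SUnit K S).subtype
  have hf : Function.Injective f := by
    intro x y hxy
    exact Subtype.ext (Units.ext hxy)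
  rw [index_range_pow_of_injective_field (SUnit K S) f hf hp hz, finrank_sUnit]
  have hpos : 0 < Fintype.card (InfinitePlace K) := Fintype.card_pos
  congr 1
  omega

end SUnit

end Fermat.Agent.Lib.CFT.Global.SecondIneq
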