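/-
P-CFT work package Global/SecondIneq (task 205), file: the index computation of the second
inequality in an abstract `KummerModel` (Cassels-Froehlich VII.9), given the auxiliary primes.
-/
import Fermat.Agent.Lib.CFT.Global.SecondIneq.Basic
import Fermat.Agent.Lib.CFT.Global.SecondIneq.IndexLemma
import Fermat.Agent.Lib.CFT.Global.SecondIneq.LocalIndexAbstract
import Fermat.Agent.Lib.CFT.Global.SecondIneq.SUnitPow
import Fermat.Agent.Lib.CFT.Global.SecondIneq.ResidueCard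

set_option autoImplicit false

namespace Fermat.Agent.Lib.CFT.Global.SecondIneq

open NumberField IsDedekindDomain Fermat.Agent.Lib.CFT.Global.SUnits

variable {K : Type} [Field K] [NumberField K] {p : ℕ}

namespace LocalModel

variable (M : LocalModel K p)

/-- Hensel in the model: a `v`-unit of `K` whose residue class is a `p`-th power is a local
`p`-th power of a unit (`v` not above `p`). -/
lemma exists_pow_eq_embU {v : HeightOneSpectrum (𝓞 K)} (hv : (p : 𝓞 K) ∉ v.asIdeal)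
    (x : unitsAt v) (hx : ∃ t : (𝓞 K ⧸ v.asIdeal)ˣ, t ^ p = M.resChar v x) :
    ∃ u : M.U v, u ^ p = M.embU v x := by
  obtain ⟨t, ht⟩ := hx
  obtain ⟨u₀, hu₀⟩ := M.red_surjective v t
  have h1 : M.red v (M.embU v x / u₀ ^ p) = 1 := by
    rw [map_div, map_pow, hu₀, ht, resChar_apply, div_self']
  obtain ⟨u', hu'⟩ := M.red_ker v hv _ h1
  refine ⟨u₀ * u', ?_⟩
  rw [mul_pow, hu', mul_div_cancel]

/-- More generally: a local unit whose residue class is a `p`-th power is a `p`-th power. -/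
lemma exists_pow_eq_of_red {v : HeightOneSpectrum (𝓞 K)} (hv : (p : 𝓞 K) ∉ v.asIdeal)
    (u : M.U v) (hx : ∃ t : (𝓞 K ⧸ v.asIdeal)ˣ, t ^ p = M.red v u) :
    ∃ u' : M.U v, u' ^ p = u := by
  obtain ⟨t, ht⟩ := hx
  obtain ⟨u₀, hu₀⟩ := M.red_surjective v t
  have h1 : M.red v (u / u₀ ^ p) = 1 := by
    rw [map_div, map_pow, hu₀, ht, div_self']
  obtain ⟨u', hu'⟩ := M.red_ker v hv _ h1
  refine ⟨u₀ * u', ?_⟩
  rw [mul_pow, hu', mul_div_cancel]

/-- The subgroup `E` of the proof: `p`-th powers on `S` and at infinity, arbitrary on `S' \ S`,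
units outside `S'`. -/
def EE (S S' : Finset (HeightOneSpectrum (𝓞 K))) : Subgroup M.J where
  carrier := {x | (∀ v ∈ S, (x : M.Prod).1 v ∈ powSubgroup (M.Fv v) p) ∧
    (∀ v, v ∉ S' → (x : M.Prod).1 v ∈ M.U v) ∧ (x : M.Prod).2 ∈ powSubgroup M.A p}
  mul_mem' := by
    rintro a b ⟨ha1, ha2, ha3⟩ ⟨hb1, hb2, hb3⟩
    exact ⟨fun v hv => mul_mem (ha1 v hv) (hb1 v hv), fun v hv => mul_mem (ha2 v hv) (hb2 v hv),
      mul_mem ha3 hb3⟩
  one_mem' := ⟨fun v _ => one_mem _, fun v _ => one_mem _, one_mem _⟩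
  inv_mem' := by
    rintro a ⟨ha1, ha2, ha3⟩
    exact ⟨fun v hv => inv_mem (ha1 v hv), fun v hv => inv_mem (ha2 v hv), inv_mem ha3⟩

lemma mem_EE {S S' : Finset (HeightOneSpectrum (𝓞 K))} {x : M.J} :
    x ∈ M.EE S S' ↔ (∀ v ∈ S, (x : M.Prod).1 v ∈ powSubgroup (M.Fv v) p) ∧
      (∀ v, v ∉ S' → (x : M.Prod).1 v ∈ M.U v) ∧ (x : M.Prod).2 ∈ powSubgroup M.A p := Iff.rfl

lemma EE_le_JS (S S' : Finset (HeightOneSpectrum (𝓞 K))) : M.EE S S' ≤ M.JS S' :=
  fun _ hx => hx.2.1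

/-- The subgroup `D` of the proof: `p`-th powers of units on `T`, units outside `S'`. -/
def DD (T S' : Finset (HeightOneSpectrum (𝓞 K))) : Subgroup M.J where
  carrier := {x | (∀ v ∈ T, ∃ u : M.U v, ((u ^ p : M.U v) : M.Fv v) = (x : M.Prod).1 v) ∧
    (∀ v, v ∉ S' → (x : M.Prod).1 v ∈ M.U v)}
  mul_mem' := by
    rintro a b ⟨ha1, ha2⟩ ⟨hb1, hb2⟩
    refine ⟨fun v hv => ?_, fun v hv => mul_mem (ha2 v hv) (hb2 v hv)⟩
    obtain ⟨u, hu⟩ := ha1 v hv
    obtain ⟨u', hu'⟩ := hb1 v hv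
    refine ⟨u * u', ?_⟩
    rw [mul_pow, Subgroup.coe_mul, hu, hu']
    rfl
  one_mem' := ⟨fun v _ => ⟨1, by simp⟩, fun v _ => one_mem _⟩
  inv_mem' := by
    rintro a ⟨ha1, ha2⟩
    refine ⟨fun v hv => ?_, fun v hv => inv_mem (ha2 v hv)⟩
    obtain ⟨u, hu⟩ := ha1 v hv
    refine ⟨u⁻¹, ?_⟩
    rw [inv_pow, Subgroup.coe_inv, hu]
    rfl

lemma mem_DD {T S' : Finset (HeightOneSpectrum (𝓞 K))} {x : M.J} :
    x ∈ M.DD T S' ↔ (∀ v ∈ T, ∃ u : M.U v, ((u ^ p : M.U v) : M.Fv v) = (x : M.Prod).1 v) ∧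
      (∀ v, v ∉ S' → (x : M.Prod).1 v ∈ M.U v) := Iff.rfl

/-- The component of an idele at `v`. -/
def evalAt (v : HeightOneSpectrum (𝓞 K)) : M.J →* M.Fv v :=
  (Pi.evalMonoidHom (fun v => M.Fv v) v).comp ((MonoidHom.fst _ _).comp M.ideleSubgroup.subtype)

/-- The archimedean component of an idele. -/
def evalA : M.J →* M.A := (MonoidHom.snd _ _).comp M.ideleSubgroup.subtype

@[simp] lemma evalAt_apply (v : HeightOneSpectrum (𝓞 K)) (x : M.J) :
    M.evalAt v x = (x : M.Prod).1 v := rfl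

@[simp] lemma evalA_apply (x : M.J) : M.evalA x = (x : M.Prod).2 := rfl

/-- The map `J → ∏_{v ∈ S} K_vˣ/p × A/p`. -/
def quotHom (S : Finset (HeightOneSpectrum (𝓞 K))) :
    M.J →* (∀ v : S, M.Fv v ⧸ powSubgroup (M.Fv v) p) × (M.A ⧸ powSubgroup M.A p) :=
  MonoidHom.prod (MonoidHom.pi fun v : S => (QuotientGroup.mk' _).comp (M.evalAt v))
    ((QuotientGroup.mk' _).comp M.evalA)

lemma mem_ker_quotHom {S : Finset (HeightOneSpectrum (𝓞 K))} {x : M.J} :
    x ∈ (M.quotHom S).ker ↔ (∀ v ∈ S, (x : M.Prod).1 v ∈ powSubgroup (M.Fv v) p) ∧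
      (x : M.Prod).2 ∈ powSubgroup M.A p := by
  rw [MonoidHom.mem_ker, quotHom, MonoidHom.prod_apply, Prod.mk_eq_one]
  constructor
  · rintro ⟨h1, h2⟩
    refine ⟨fun v hv => ?_, ?_⟩
    · have := congrFun h1 ⟨v, hv⟩
      simpa using this
    · simpa using h2
  · rintro ⟨h1, h2⟩
    refine ⟨?_, ?_⟩
    · funext v
      simpa using h1 v v.2
    · simpa using h2

lemma quotHom_restrict_surjective [DecidableEq (HeightOneSpectrum (𝓞 K))]
    {S S' : Finset (HeightOneSpectrum (𝓞 K))} (hSS' : S ⊆ S') :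
    Function.Surjective ((M.quotHom S).domRestrict (M.JS S')) := by
  rintro ⟨q, qA⟩
  let x₀ : M.Prod := (fun v => if h : v ∈ S then (q ⟨v, h⟩).out else 1, qA.out)
  have hx₀ : x₀ ∈ M.ideleSubgroup := by
    rw [mem_ideleSubgroup]
    refine S.finite_toSet.subset ?_
    intro v hv
    by_contra hvS
    apply hv
    have : x₀.1 v = 1 := by simp only [x₀, dif_neg (show v ∉ S from hvS)]
    rw [this]
    exact one_mem _
  have hx : (⟨x₀, hx₀⟩ : M.J) ∈ M.JS S' := by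
    intro v hv
    have hvS : v ∉ S := fun h => hv (hSS' h)
    have : x₀.1 v = 1 := by simp only [x₀, dif_neg hvS]
    change x₀.1 v ∈ M.U v
    rw [this]
    exact one_mem _
  refine ⟨⟨⟨x₀, hx₀⟩, hx⟩, ?_⟩
  rw [MonoidHom.domRestrict_apply, quotHom, MonoidHom.prod_apply]
  refine Prod.ext ?_ ?_
  · funext v
    have : x₀.1 v = (q v).out := by simp only [x₀, dif_pos v.2]
    simp only [MonoidHom.pi_apply, MonoidHom.coe_comp, Function.comp_apply, evalAt_apply,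
      QuotientGroup.mk'_apply]
    rw [this]
    exact QuotientGroup.out_eq' _
  · simp only [MonoidHom.coe_comp, Function.comp_apply, evalA_apply, QuotientGroup.mk'_apply]
    exact QuotientGroup.out_eq' _

/-- `[J_{S'} : E] = ∏_{v ∈ S} [K_vˣ : (K_vˣ)^p] · [A : A^p]`. -/
lemma relIndex_EE_JS [DecidableEq (HeightOneSpectrum (𝓞 K))]
    {S S' : Finset (HeightOneSpectrum (𝓞 K))} (hSS' : S ⊆ S') :
    (M.EE S S').relIndex (M.JS S') =
      (∏ v ∈ S, (powSubgroup (M.Fv v) p).index) * (powSubgroup M.A p).index := by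
  have hker : (M.EE S S').subgroupOf (M.JS S') = ((M.quotHom S).domRestrict (M.JS S')).ker := by
    ext x
    rw [Subgroup.mem_subgroupOf, MonoidHom.mem_ker, MonoidHom.domRestrict_apply, ← MonoidHom.mem_ker,
      mem_ker_quotHom, mem_EE]
    constructor
    · rintro ⟨h1, -, h3⟩
      exact ⟨h1, h3⟩
    · rintro ⟨h1, h3⟩
      exact ⟨h1, x.2, h3⟩
  rw [Subgroup.relIndex, hker, Subgroup.index_ker,
    MonoidHom.range_eq_top.2 (M.quotHom_restrict_surjective hSS'),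
    Nat.card_congr (Subgroup.topEquiv).toEquiv, Nat.card_prod, Nat.card_pi]
  congr 1
  exact Finset.prod_coe_sort S (fun v => (powSubgroup (M.Fv v) p).index)

end LocalModel

namespace KummerModel

variable (M : KummerModel K p) [DecidableEq (HeightOneSpectrum (𝓞 K))]

/-- `E ⊆ N_a`: the ideles in `E` are norms from `K(a^{1/p})`. -/
lemma EE_le_Nb (a : Kˣ) (S T : Finset (HeightOneSpectrum (𝓞 K)))
    (hSp : ∀ v : HeightOneSpectrum (𝓞 K), (p : 𝓞 K) ∈ v.asIdeal → v ∈ S) (hSa : a ∈ SUnit K S)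
    (hT1 : ∀ w ∈ T, ∀ h : a ∈ unitsAt w,
      ∃ t : (𝓞 K ⧸ w.asIdeal)ˣ, t ^ p = M.resChar w ⟨a, h⟩) :
    M.EE S (S ∪ T) ≤ M.Nb a := by
  classical
  intro x hx
  obtain ⟨hx1, hx2, hx3⟩ := hx
  refine M.mem_Nb a x (fun v => ?_) ?_
  · by_cases hvS : v ∈ S
    · obtain ⟨y, hy⟩ := hx1 v hvS
      rw [← hy]
      exact M.pow_mem_Nloc a v y
    · have hvp : (p : 𝓞 K) ∉ v.asIdeal := fun h => hvS (hSp v h)
      have hav : a ∈ unitsAt v := sUnit_le_unitsAt hvS hSa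
      by_cases hvT : v ∈ T
      · obtain ⟨u, hu⟩ := M.exists_pow_eq_embU hvp ⟨a, hav⟩ (hT1 v hvT hav)
        have : M.Nloc a v = ⊤ := M.Nloc_eq_top a v ⟨(u : M.Fv v), by
          have := congrArg (fun z : M.U v => (z : M.Fv v)) hu
          simpa using this⟩
        rw [this]
        trivial
      · have hv' : v ∉ S ∪ T := by
          simp only [Finset.mem_union, not_or]
          exact ⟨hvS, hvT⟩
        exact M.U_le_Nloc a v hvp hav (hx2 v hv')
  · obtain ⟨y, hy⟩ := hx3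
    rw [← hy]
    exact M.pow_mem_NlocA a y

/-- `D ⊆ N_b` for every `b ∈ Kˣ ∩ E`. -/
lemma DD_le_Nb (b : Kˣ) (S T : Finset (HeightOneSpectrum (𝓞 K)))
    (hSp : ∀ v : HeightOneSpectrum (𝓞 K), (p : 𝓞 K) ∈ v.asIdeal → v ∈ S)
    (hb : M.principal b ∈ M.EE S (S ∪ T)) :
    M.DD T (S ∪ T) ≤ M.Nb b := by
  classical
  intro x hx
  obtain ⟨hx1, hx2⟩ := hx
  obtain ⟨hb1, hb2, hb3⟩ := hb
  refine M.mem_Nb b x (fun v => ?_) ?_
  · by_cases hvS : v ∈ S
    · have : M.Nloc b v = ⊤ := by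
        obtain ⟨y, hy⟩ := hb1 v hvS
        exact M.Nloc_eq_top b v ⟨y, hy⟩
      rw [this]
      trivial
    · by_cases hvT : v ∈ T
      · obtain ⟨u, hu⟩ := hx1 v hvT
        rw [← hu]
        simpa using M.pow_mem_Nloc b v (u : M.Fv v)
      · have hv' : v ∉ S ∪ T := by
          simp only [Finset.mem_union, not_or]
          exact ⟨hvS, hvT⟩
        have hvp : (p : 𝓞 K) ∉ v.asIdeal := fun h => hvS (hSp v h)
        have hbv : ordAt v b = 0 := (M.emb_mem_U_iff v b).1 (hb2 v hv')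
        exact M.U_le_Nloc b v hvp hbv (hx2 v hv')
  · have : M.NlocA b = ⊤ := by
      obtain ⟨y, hy⟩ := hb3
      exact M.NlocA_eq_top b ⟨y, hy⟩
    rw [this]
    trivial

/-- `J = Kˣ · D`, by the surjectivity of the residue characters on the `S`-units. -/
lemma principal_range_sup_DD (S T : Finset (HeightOneSpectrum (𝓞 K)))
    (hSp : ∀ v : HeightOneSpectrum (𝓞 K), (p : 𝓞 K) ∈ v.asIdeal → v ∈ S)
    (hScl : IsClassGenerating S) (hdisj : Disjoint S T)
    (hT2 : ∀ f : (∀ w : HeightOneSpectrum (𝓞 K), (𝓞 K ⧸ w.asIdeal)ˣ), ∃ b : Kˣ, b ∈ SUnit K S ∧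
      ∀ w ∈ T, ∀ h : b ∈ unitsAt w, ∃ t : (𝓞 K ⧸ w.asIdeal)ˣ, M.resChar w ⟨b, h⟩ = f w * t ^ p) :
    M.principal.range ⊔ M.DD T (S ∪ T) = ⊤ := by
  rw [eq_top_iff]
  intro x _
  have hx : x ∈ M.principal.range ⊔ M.JS S := by
    rw [M.principal_range_sup_JS hScl]; trivial
  obtain ⟨y, ⟨y₀, rfl⟩, z, hz, rfl⟩ := Subgroup.mem_sup.1 hx
  have hTS : ∀ w ∈ T, w ∉ S := fun w hw hS => (Finset.disjoint_left.1 hdisj hS hw)
  -- the target residues
  let f : ∀ w : HeightOneSpectrum (𝓞 K), (𝓞 K ⧸ w.asIdeal)ˣ := fun w =>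
    if h : w ∈ T then M.red w ⟨(z : M.Prod).1 w, hz w (hTS w h)⟩ else 1
  obtain ⟨b, hbS, hb⟩ := hT2 f
  have hmem : (M.principal b)⁻¹ * z ∈ M.DD T (S ∪ T) := by
    refine ⟨fun w hw => ?_, fun v hv => ?_⟩
    · have hwS := hTS w hw
      have hwp : (p : 𝓞 K) ∉ w.asIdeal := fun h => hwS (hSp w h)
      have hbw : b ∈ unitsAt w := sUnit_le_unitsAt hwS hbS
      obtain ⟨t, ht⟩ := hb w hw hbw
      let zu : M.U w := ⟨(z : M.Prod).1 w, hz w hwS⟩
      have hfw : f w = M.red w zu := by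
        simp only [f, dif_pos hw, zu]
      obtain ⟨u', hu'⟩ := M.exists_pow_eq_of_red hwp ((M.embU w ⟨b, hbw⟩)⁻¹ * zu) ⟨t⁻¹, by
        rw [map_mul, map_inv, ← LocalModel.resChar_apply, ht, hfw, inv_pow]
        rw [mul_inv, mul_comm (M.red w zu)⁻¹, mul_assoc, inv_mul_cancel, mul_one]⟩
      refine ⟨u', ?_⟩
      rw [hu']
      rfl
    · have hvS : v ∉ S := fun h => hv (Finset.mem_union_left _ h)
      have h1 : (((M.principal b)⁻¹ * z : M.J) : M.Prod).1 v =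
          (M.emb v b)⁻¹ * (z : M.Prod).1 v := rfl
      rw [h1]
      exact mul_mem (inv_mem ((M.emb_mem_U_iff v b).2 (mem_sUnit_iff.1 hbS v hvS))) (hz v hvS)
  have : M.principal y₀ * z = M.principal (y₀ * b) * ((M.principal b)⁻¹ * z) := by
    rw [map_mul]; group
  rw [this]
  exact Subgroup.mul_mem_sup ⟨_, rfl⟩ hmem

/-- `Kˣ ∩ E = (K_{S ∪ T})^p`. -/
lemma comap_principal_EE (hp : p.Prime) (S T : Finset (HeightOneSpectrum (𝓞 K)))
    (hSp : ∀ v : HeightOneSpectrum (𝓞 K), (p : 𝓞 K) ∈ v.asIdeal → v ∈ S)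
    (hScl : IsClassGenerating S) (hdisj : Disjoint S T)
    (hT2 : ∀ f : (∀ w : HeightOneSpectrum (𝓞 K), (𝓞 K ⧸ w.asIdeal)ˣ), ∃ b : Kˣ, b ∈ SUnit K S ∧
      ∀ w ∈ T, ∀ h : b ∈ unitsAt w, ∃ t : (𝓞 K ⧸ w.asIdeal)ˣ, M.resChar w ⟨b, h⟩ = f w * t ^ p) :
    (M.EE S (S ∪ T)).comap M.principal = (SUnit K (S ∪ T)).map (powMonoidHom p : Kˣ →* Kˣ) := by
  ext b
  rw [Subgroup.mem_comap, Subgroup.mem_map]
  constructor
  · intro hb
    have htop : M.principal.range ⊔ M.Nb b = ⊤ := by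
      rw [eq_top_iff, ← M.principal_range_sup_DD S T hSp hScl hdisj hT2]
      exact sup_le_sup_left (M.DD_le_Nb b S T hSp hb) _
    obtain ⟨c, hc⟩ := M.first_ineq b htop
    refine ⟨c, ?_, hc⟩
    rw [mem_sUnit_iff]
    intro v hv
    have hbv : ordAt v b = 0 := (M.emb_mem_U_iff v b).1 (hb.2.1 v hv)
    rw [← hc, ordAt_pow] at hbv
    rcases mul_eq_zero.1 hbv with h | h
    · exact absurd (by exact_mod_cast h) hp.ne_zero
    · exact h
  · rintro ⟨c, hc, rfl⟩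
    refine ⟨fun v _ => ⟨M.emb v c, ?_⟩, fun v hv => ?_, ⟨M.embA c, ?_⟩⟩
    · simp [powMonoidHom_apply]
    · rw [LocalModel.principal_fst, M.emb_mem_U_iff, powMonoidHom_apply, ordAt_pow,
        mem_sUnit_iff.1 hc v hv, mul_zero]
    · simp [powMonoidHom_apply]

omit [DecidableEq (HeightOneSpectrum (𝓞 K))] in
/-- The local index at a prime not above `p`. -/
lemma index_powSubgroup_Fv (hp : p.Prime) {ζ : K} (hζ : IsPrimitiveRoot ζ p)
    (v : HeightOneSpectrum (𝓞 K)) (hv : (p : 𝓞 K) ∉ v.asIdeal) :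
    (powSubgroup (M.Fv v) p).index = p ^ 2 := by
  have hcyc := isCyclic_residue_units v
  have hU : (M.ord v).ker = M.U v := M.ord_ker v
  let incl : (M.ord v).ker →* M.U v := Subgroup.inclusion (le_of_eq hU)
  have hincl : Function.Surjective incl := by
    intro u
    exact ⟨⟨u.1, by rw [hU]; exact u.2⟩, rfl⟩
  refine index_range_pow_of_ord_red hp (dvd_card_residue_units hp hζ v hv) (M.ord v)
    (M.ord_surjective v) ((M.red v).comp incl) ((M.red_surjective v).comp hincl) ?_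
  intro u hu
  obtain ⟨u', hu'⟩ := M.red_ker v hv (incl u) hu
  refine ⟨⟨u'.1, by rw [hU]; exact u'.2⟩, ?_⟩
  ext
  have := congrArg (fun z : M.U v => (z : M.Fv v)) hu'
  simpa [incl] using this

/-- **The index computation of the second inequality**, given the auxiliary primes `T`. -/
theorem index_dvd_of_auxPrimes (hp : p.Prime) {ζ : K} (hζ : IsPrimitiveRoot ζ p) (a : Kˣ)
    (S T : Finset (HeightOneSpectrum (𝓞 K)))
    (hSp : ∀ v : HeightOneSpectrum (𝓞 K), (p : 𝓞 K) ∈ v.asIdeal → v ∈ S) (hSa : a ∈ SUnit K S)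
    (hScl : IsClassGenerating S) (hdisj : Disjoint S T)
    (hT1 : ∀ w ∈ T, ∀ h : a ∈ unitsAt w,
      ∃ t : (𝓞 K ⧸ w.asIdeal)ˣ, t ^ p = M.resChar w ⟨a, h⟩)
    (hT2 : ∀ f : (∀ w : HeightOneSpectrum (𝓞 K), (𝓞 K ⧸ w.asIdeal)ˣ), ∃ b : Kˣ, b ∈ SUnit K S ∧
      ∀ w ∈ T, ∀ h : b ∈ unitsAt w, ∃ t : (𝓞 K ⧸ w.asIdeal)ˣ, M.resChar w ⟨b, h⟩ = f w * t ^ p)
    (hT3 : T.card + 1 = S.card + Fintype.card (InfinitePlace K)) :
    (M.principal.range ⊔ M.Nb a).index ∣ p := by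
  classical
  set S' := S ∪ T with hS'
  have hSS' : S ⊆ S' := Finset.subset_union_left
  -- the index of `Kˣ E`
  have hJ : M.principal.range ⊔ M.JS S' = ⊤ := by
    rw [eq_top_iff, ← M.principal_range_sup_JS hScl]
    exact sup_le_sup_left (M.JS_mono hSS') _
  have h1 := index_sup_mul_relIndex_comap M.principal (M.EE S S') (M.JS S') (M.EE_le_JS S S') hJ
  rw [M.comap_principal_EE hp S T hSp hScl hdisj hT2, M.comap_principal_JS, relIndex_map_pow_eq_index,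
    index_range_pow_sUnit hp hζ, M.relIndex_EE_JS hSS'] at h1
  -- the local indices
  let P : Finset (HeightOneSpectrum (𝓞 K)) := S.filter fun v => (p : 𝓞 K) ∈ v.asIdeal
  have hP : ∀ v, v ∈ P ↔ (p : 𝓞 K) ∈ v.asIdeal := by
    intro v
    simp only [P, Finset.mem_filter]
    exact ⟨fun h => h.2, fun h => ⟨hSp v h, h⟩⟩
  have h2 : (∏ v ∈ S, (powSubgroup (M.Fv v) p).index) =
      (∏ v ∈ P, (powSubgroup (M.Fv v) p).index) * p ^ (2 * (S.card - P.card)) := by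
    rw [← Finset.prod_filter_mul_prod_filter_not S (fun v => (p : 𝓞 K) ∈ v.asIdeal)]
    congr 1
    rw [Finset.prod_congr rfl (fun v hv => M.index_powSubgroup_Fv hp hζ v (Finset.mem_filter.1 hv).2),
      Finset.prod_const, ← pow_mul]
    congr 1
    have := Finset.card_filter_add_card_filter_not (s := S) (fun v => (p : 𝓞 K) ∈ v.asIdeal)
    change P.card + _ = _ at this
    omega
  have hPS : P.card ≤ S.card := Finset.card_filter_le _ _
  have h3 : (∏ v ∈ S, (powSubgroup (M.Fv v) p).index) * (powSubgroup M.A p).index =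
      p ^ (2 * S.card + 2 * Fintype.card (InfinitePlace K)) := by
    rw [h2, mul_right_comm, M.index_p P hP, ← pow_add]
    congr 1
    omega
  rw [h3] at h1
  have hcard : S'.card = S.card + T.card := Finset.card_union_of_disjoint hdisj
  have h4 : 2 * S.card + 2 * Fintype.card (InfinitePlace K) =
      (Fintype.card (InfinitePlace K) + S'.card) + 1 := by
    rw [hcard]; omega
  rw [h4, pow_succ] at h1
  have h5 : (M.principal.range ⊔ M.EE S S').index = p :=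
    Nat.eq_of_mul_eq_mul_left (pow_pos hp.pos _) (by rw [mul_comm, h1])
  have h6 := Subgroup.index_dvd_of_le
    (sup_le_sup_left (M.EE_le_Nb a S T hSp hSa hT1) M.principal.range)
  rwa [h5] at h6

end KummerModel

end Fermat.Agent.Lib.CFT.Global.SecondIneq
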