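/-
P-CFT work package Global/SecondIneq (task 205): selection of the auxiliary primes
`w_1, …, w_{s-1}` from the statement (**) "the residue characters at the primes outside `S` where
`a` is a `p`-th power residue cut out exactly `⟨a⟩ · (K_S)^p`".
-/
import Fermat.Agent.Lib.CFT.Global.SecondIneq.Main
import Fermat.Agent.Lib.CFT.Global.SecondIneq.AuxSelect

set_option autoImplicit false

namespace Fermat.Agent.Lib.CFT.Global.SecondIneq

open NumberField IsDedekindDomain Fermat.Agent.Lib.CFT.Global.SUnits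

variable {K : Type} [Field K] [NumberField K] {p : ℕ}

/-- The quotient of a finite cyclic group of order divisible by the prime `p` by its `p`-th powers
has order `p`. -/
lemma card_quotient_powSubgroup_of_isCyclic {G : Type*} [CommGroup G] [Finite G] [IsCyclic G]
    (hC : p ∣ Nat.card G) : Nat.card (G ⧸ powSubgroup G p) = p := by
  have h := IsCyclic.index_powMonoidHom_range (G := G) p
  rw [Nat.gcd_eq_right hC] at h
  exact h

/-- If `c ^ p` is an `S`-unit then so is `c`. -/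
lemma mem_sUnit_of_pow_mem (hp : p ≠ 0) {S : Finset (HeightOneSpectrum (𝓞 K))} {c : Kˣ}
    (hc : c ^ p ∈ SUnit K S) : c ∈ SUnit K S := by
  rw [mem_sUnit_iff] at hc ⊢
  intro v hv
  have := hc v hv
  rw [ordAt_pow] at this
  rcases mul_eq_zero.1 this with h | h
  · exact absurd (by exact_mod_cast h) hp
  · exact h

namespace KummerModel

variable (M : KummerModel K p)

/-- **Selection of the auxiliary primes.**  Assume (**): an `S`-unit `b` which is a `p`-th power
residue at every prime `w ∉ S` at which `a` is one lies in `⟨a⟩ · (Kˣ)^p`.  Then there is a set `T`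
of `s - 1` primes outside `S` at which `a` is a `p`-th power residue and such that the `S`-units
surject onto `∏_{w ∈ T} k_wˣ / (k_wˣ)^p`. -/
theorem exists_auxPrimes (hp : p.Prime) {ζ : K} (hζ : IsPrimitiveRoot ζ p) (a : Kˣ)
    (S : Finset (HeightOneSpectrum (𝓞 K)))
    (hSp : ∀ v : HeightOneSpectrum (𝓞 K), (p : 𝓞 K) ∈ v.asIdeal → v ∈ S) (hSa : a ∈ SUnit K S)
    (ha : ¬ ∃ c : Kˣ, c ^ p = a)
    (hstar : ∀ b ∈ SUnit K S,
      (∀ w, w ∉ S → ∀ (ha' : a ∈ unitsAt w) (hb' : b ∈ unitsAt w),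
        (∃ t : (𝓞 K ⧸ w.asIdeal)ˣ, t ^ p = M.resChar w ⟨a, ha'⟩) →
          ∃ t : (𝓞 K ⧸ w.asIdeal)ˣ, t ^ p = M.resChar w ⟨b, hb'⟩) →
      b ∈ Subgroup.zpowers a ⊔ (powMonoidHom p : Kˣ →* Kˣ).range) :
    ∃ T : Finset (HeightOneSpectrum (𝓞 K)), Disjoint S T ∧
      (∀ w ∈ T, ∀ h : a ∈ unitsAt w, ∃ t : (𝓞 K ⧸ w.asIdeal)ˣ, t ^ p = M.resChar w ⟨a, h⟩) ∧
      (∀ f : (∀ w : HeightOneSpectrum (𝓞 K), (𝓞 K ⧸ w.asIdeal)ˣ), ∃ b : Kˣ, b ∈ SUnit K S ∧
        ∀ w ∈ T, ∀ h : b ∈ unitsAt w,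
          ∃ t : (𝓞 K ⧸ w.asIdeal)ˣ, M.resChar w ⟨b, h⟩ = f w * t ^ p) ∧
      T.card + 1 = S.card + Fintype.card (InfinitePlace K) := by
  classical
  have : Fact p.Prime := ⟨hp⟩
  -- the good primes
  let Good : Type := {w : HeightOneSpectrum (𝓞 K) // ∃ h : w ∉ S,
    ∃ t : (𝓞 K ⧸ w.asIdeal)ˣ, t ^ p = M.resChar w ⟨a, sUnit_le_unitsAt h hSa⟩}
  let C : Good → Type := fun i =>
    (𝓞 K ⧸ i.1.asIdeal)ˣ ⧸ powSubgroup ((𝓞 K ⧸ i.1.asIdeal)ˣ) p
  have hnotS : ∀ i : Good, i.1 ∉ S := fun i => i.2.1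
  have hnotp : ∀ i : Good, (p : 𝓞 K) ∉ i.1.asIdeal := fun i h => hnotS i (hSp _ h)
  have hC : ∀ i : Good, Nat.card (C i) = p := by
    intro i
    have := isCyclic_residue_units i.1
    exact card_quotient_powSubgroup_of_isCyclic (dvd_card_residue_units hp hζ i.1 (hnotp i))
  let ρ : ∀ i : Good, SUnit K S →* (𝓞 K ⧸ i.1.asIdeal)ˣ := fun i =>
    (M.resChar i.1).comp (Subgroup.inclusion (sUnit_le_unitsAt (hnotS i)))
  let χ : ∀ i : Good, SUnit K S →* C i := fun i => (QuotientGroup.mk' _).comp (ρ i)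
  have hχ : ∀ (i : Good) (b : SUnit K S), χ i b = 1 ↔
      ∃ t : (𝓞 K ⧸ i.1.asIdeal)ˣ, t ^ p = ρ i b := by
    intro i b
    change (QuotientGroup.mk (ρ i b) : C i) = 1 ↔ _
    rw [QuotientGroup.eq_one_iff]
    rfl
  let aV : SUnit K S := ⟨a, hSa⟩
  let H : Subgroup (SUnit K S) := ⨅ i, (χ i).ker
  let H' : Subgroup (SUnit K S) := Subgroup.zpowers aV ⊔ powSubgroup (SUnit K S) p
  -- `H = H'`
  have hHH' : H = H' := by
    apply le_antisymm
    · intro b hb
      have hb' : ∀ i : Good, χ i b = 1 := by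
        intro i
        have := (Subgroup.mem_iInf.1 hb) i
        exact this
      have hmem := hstar b b.2 (by
        intro w hw ha' hb'' hta
        have := (hχ ⟨w, hw, hta⟩ b).1 (hb' ⟨w, hw, hta⟩)
        exact this)
      obtain ⟨x, ⟨n, rfl⟩, y, ⟨c, rfl⟩, hxy⟩ := Subgroup.mem_sup.1 hmem
      have hcp : c ^ p ∈ SUnit K S := by
        have h1 : c ^ p = (a ^ n)⁻¹ * b := by
          rw [← hxy]
          simp only [powMonoidHom_apply]
          group
        rw [h1]
        exact mul_mem (inv_mem (zpow_mem hSa n)) b.2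
      have hc : c ∈ SUnit K S := mem_sUnit_of_pow_mem hp.ne_zero hcp
      have hb2 : b = aV ^ n * (⟨c, hc⟩ : SUnit K S) ^ p := by
        apply Subtype.ext
        simp only [Subgroup.coe_mul, Subgroup.coe_zpow, Subgroup.coe_pow, aV]
        rw [← hxy]
        rfl
      rw [hb2]
      exact Subgroup.mul_mem_sup (Subgroup.zpow_mem_zpowers aV n) ⟨⟨c, hc⟩, rfl⟩
    · refine sup_le ?_ ?_
      · rw [Subgroup.zpowers_le]
        refine Subgroup.mem_iInf.2 fun i => ?_
        rw [MonoidHom.mem_ker, hχ]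
        exact i.2.2
      · rintro _ ⟨c, rfl⟩
        refine Subgroup.mem_iInf.2 fun i => ?_
        rw [MonoidHom.mem_ker, hχ]
        exact ⟨ρ i c, by simp [powMonoidHom_apply]⟩
  -- the index of `H'`
  let Q := SUnit K S ⧸ powSubgroup (SUnit K S) p
  have hQcard : Nat.card Q = p ^ (Fintype.card (InfinitePlace K) + S.card) :=
    index_range_pow_sUnit hp hζ S
  have hQfin : Finite Q := by
    apply Nat.finite_of_card_ne_zero
    rw [hQcard]
    exact pow_ne_zero _ hp.ne_zero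
  let ā : Q := QuotientGroup.mk aV
  have hā : orderOf ā = p := by
    apply orderOf_eq_prime
    · change (QuotientGroup.mk aV : Q) ^ p = 1
      rw [← QuotientGroup.mk_pow, QuotientGroup.eq_one_iff]
      exact ⟨aV, rfl⟩
    · intro h
      have : aV ∈ powSubgroup (SUnit K S) p := (QuotientGroup.eq_one_iff aV).1 h
      obtain ⟨c, hc⟩ := this
      apply ha
      refine ⟨(c : Kˣ), ?_⟩
      have := congrArg (fun z : SUnit K S => (z : Kˣ)) hc
      simpa [powMonoidHom_apply, aV] using this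
  have hH'comap : H' = (Subgroup.zpowers ā).comap (QuotientGroup.mk' _) := by
    have : Subgroup.zpowers ā = (Subgroup.zpowers aV).map (QuotientGroup.mk' _) := by
      rw [MonoidHom.map_zpowers]; rfl
    rw [this, Subgroup.comap_map_eq, QuotientGroup.ker_mk']
  have hH'idx : p * H'.index = p ^ (Fintype.card (InfinitePlace K) + S.card) := by
    rw [hH'comap, Subgroup.index_comap_of_surjective _ (QuotientGroup.mk'_surjective _),
      ← hQcard, ← Subgroup.card_mul_index (Subgroup.zpowers ā), Nat.card_zpowers, hā]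
  have hH'ne : H'.index ≠ 0 := by
    intro h
    rw [h, mul_zero] at hH'idx
    exact pow_ne_zero _ hp.ne_zero hH'idx.symm
  -- selection
  obtain ⟨T, hsurj, hker, hidx⟩ := exists_finset_surjective C hp hC χ H rfl (by rw [hHH']; exact hH'ne)
  rw [hHH'] at hidx
  have hcardT : T.card + 1 = S.card + Fintype.card (InfinitePlace K) := by
    rw [hidx, ← pow_succ'] at hH'idx
    have := Nat.pow_right_injective hp.two_le hH'idx
    omega
  refine ⟨T.map ⟨Subtype.val, Subtype.val_injective⟩, ?_, ?_, ?_, ?_⟩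
  · rw [Finset.disjoint_right]
    intro w hw
    obtain ⟨i, -, rfl⟩ := Finset.mem_map.1 hw
    exact hnotS i
  · intro w hw h
    obtain ⟨i, -, rfl⟩ := Finset.mem_map.1 hw
    exact i.2.2
  · intro f
    obtain ⟨b, hb⟩ := hsurj (fun i : T => (QuotientGroup.mk (f i.1.1) : C i.1))
    refine ⟨b.1, b.2, ?_⟩
    intro w hw h
    obtain ⟨i, hi, rfl⟩ := Finset.mem_map.1 hw
    have h1 := congrFun hb ⟨i, hi⟩
    change (QuotientGroup.mk (ρ i b) : C i) = QuotientGroup.mk (f i.1) at h1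
    rw [eq_comm, QuotientGroup.eq] at h1
    obtain ⟨t, ht⟩ := h1
    refine ⟨t, ?_⟩
    rw [powMonoidHom_apply] at ht
    change ρ i b = f i.1 * t ^ p
    rw [ht, mul_inv_cancel_left]
  · rw [Finset.card_map]
    exact hcardT

end KummerModel

end Fermat.Agent.Lib.CFT.Global.SecondIneq
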