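/-
P-CFT work package Global/SecondIneq (task 205): compatibility of the residue characters of two
abstract idele models under an extension `L/K` of number fields.
-/
import Fermat.Agent.Lib.CFT.Global.SecondIneq.Basic

set_option autoImplicit false

namespace Fermat.Agent.Lib.CFT.Global.SecondIneq

open NumberField IsDedekindDomain Fermat.Agent.Lib.CFT.Global.SUnits

variable {K : Type} [Field K] [NumberField K]

/-- A `w`-unit of `K` is a quotient of two algebraic integers outside `w`. -/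
lemma exists_integers_of_mem_unitsAt {w : HeightOneSpectrum (𝓞 K)} {x : Kˣ} (hx : x ∈ unitsAt w) :
    ∃ c d : 𝓞 K, c ∉ w.asIdeal ∧ d ∉ w.asIdeal ∧ (x : K) * (d : K) = (c : K) := by
  have hv : w.valuation K (x : K) = 1 := (valuation_eq_one_iff_ordAt w x).2 hx
  obtain ⟨n, d, hnd⟩ := w.exists_primeCompl_mul_eq_of_integer (x : K) hv.le
  refine ⟨n, d, ?_, d.2, hnd⟩
  rw [← HeightOneSpectrum.valuation_eq_one_iff_notMem (K := K), ← hnd, map_mul, hv, one_mul,
    HeightOneSpectrum.valuation_eq_one_iff_notMem]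
  exact d.2

lemma coe_ne_zero_of_notMem {w : HeightOneSpectrum (𝓞 K)} {c : 𝓞 K} (hc : c ∉ w.asIdeal) :
    (c : K) ≠ 0 := by
  intro h
  apply hc
  have : c = 0 := by
    apply RingOfIntegers.coe_injective
    simpa using h
  rw [this]
  exact zero_mem _

lemma mk0_mem_unitsAt {w : HeightOneSpectrum (𝓞 K)} {c : 𝓞 K} (hc : c ∉ w.asIdeal) :
    Units.mk0 (c : K) (coe_ne_zero_of_notMem hc) ∈ unitsAt w :=
  ordAt_mk0_eq_zero w _ hc

variable {L : Type} [Field L] [NumberField L] [Algebra K L]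

/-- The map of residue fields `k_w → k_W`, `w = W ∩ 𝓞 K`. -/
noncomputable def resMap (W : HeightOneSpectrum (𝓞 L)) :
    (𝓞 K ⧸ (W.under (𝓞 K)).asIdeal) →+* (𝓞 L ⧸ W.asIdeal) :=
  Ideal.quotientMap W.asIdeal (algebraMap (𝓞 K) (𝓞 L)) (le_of_eq rfl)

@[simp] lemma resMap_mk (W : HeightOneSpectrum (𝓞 L)) (c : 𝓞 K) :
    resMap W (Ideal.Quotient.mk (W.under (𝓞 K)).asIdeal c) =
      Ideal.Quotient.mk W.asIdeal (algebraMap (𝓞 K) (𝓞 L) c) := by
  simp [resMap]

lemma coe_algebraMap_integer (c : 𝓞 K) :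
    ((algebraMap (𝓞 K) (𝓞 L) c : 𝓞 L) : L) = algebraMap K L (c : K) := rfl

lemma algebraMap_notMem {W : HeightOneSpectrum (𝓞 L)} {c : 𝓞 K}
    (hc : c ∉ (W.under (𝓞 K)).asIdeal) : algebraMap (𝓞 K) (𝓞 L) c ∉ W.asIdeal := hc

/-- The image in `Lˣ` of a `w`-unit of `K` is a `W`-unit. -/
lemma map_mem_unitsAt {W : HeightOneSpectrum (𝓞 L)} {x : Kˣ}
    (hx : x ∈ unitsAt (W.under (𝓞 K))) : Units.map (algebraMap K L : K →* L) x ∈ unitsAt W := by
  obtain ⟨c, d, hc, hd, hxd⟩ := exists_integers_of_mem_unitsAt hx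
  have hc' := mk0_mem_unitsAt (algebraMap_notMem (W := W) hc)
  have hd' := mk0_mem_unitsAt (algebraMap_notMem (W := W) hd)
  have : Units.map (algebraMap K L : K →* L) x =
      Units.mk0 ((algebraMap (𝓞 K) (𝓞 L) c : 𝓞 L) : L) (coe_ne_zero_of_notMem (algebraMap_notMem hc)) *
      (Units.mk0 ((algebraMap (𝓞 K) (𝓞 L) d : 𝓞 L) : L)
        (coe_ne_zero_of_notMem (algebraMap_notMem hd)))⁻¹ := by
    rw [eq_mul_inv_iff_mul_eq]
    ext
    simp only [Units.val_mul, Units.coe_map, MonoidHom.coe_coe, Units.val_mk0]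
    rw [coe_algebraMap_integer, coe_algebraMap_integer, ← map_mul, hxd]
  rw [this]
  exact mul_mem hc' (inv_mem hd')

variable {p : ℕ}

/-- Compatibility of the residue characters of models of `K` and `L`. -/
lemma resChar_map (MK : LocalModel K p) (ML : LocalModel L p) (W : HeightOneSpectrum (𝓞 L))
    (x : Kˣ) (hx : x ∈ unitsAt (W.under (𝓞 K))) :
    ML.resChar W ⟨Units.map (algebraMap K L : K →* L) x, map_mem_unitsAt hx⟩ =
      Units.map (resMap (K := K) W).toMonoidHom (MK.resChar (W.under (𝓞 K)) ⟨x, hx⟩) := by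
  -- first for integers
  have key : ∀ (c : 𝓞 K) (hc : c ∉ (W.under (𝓞 K)).asIdeal),
      ML.resChar W ⟨Units.map (algebraMap K L : K →* L) (Units.mk0 (c : K) (coe_ne_zero_of_notMem hc)),
        map_mem_unitsAt (mk0_mem_unitsAt hc)⟩ =
      Units.map (resMap (K := K) W).toMonoidHom (MK.resChar (W.under (𝓞 K))
        ⟨Units.mk0 (c : K) (coe_ne_zero_of_notMem hc), mk0_mem_unitsAt hc⟩) := by
    intro c hc
    ext
    rw [ML.coe_resChar_of_integer W _ (algebraMap (𝓞 K) (𝓞 L) c) (by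
        simp only [Units.coe_map, MonoidHom.coe_coe, Units.val_mk0]
        rw [coe_algebraMap_integer])]
    rw [Units.coe_map, RingHom.toMonoidHom_eq_coe, MonoidHom.coe_coe,
      MK.coe_resChar_of_integer _ _ c rfl, resMap_mk]
  obtain ⟨c, d, hc, hd, hxd⟩ := exists_integers_of_mem_unitsAt hx
  set c' : unitsAt (W.under (𝓞 K)) := ⟨Units.mk0 (c : K) (coe_ne_zero_of_notMem hc), mk0_mem_unitsAt hc⟩
  set d' : unitsAt (W.under (𝓞 K)) := ⟨Units.mk0 (d : K) (coe_ne_zero_of_notMem hd), mk0_mem_unitsAt hd⟩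
  have hx' : (⟨x, hx⟩ : unitsAt (W.under (𝓞 K))) = c' * d'⁻¹ := by
    rw [eq_mul_inv_iff_mul_eq]
    ext
    simpa [c', d'] using hxd
  -- the corresponding identity in `L`
  have hxL : (⟨Units.map (algebraMap K L : K →* L) x, map_mem_unitsAt hx⟩ : unitsAt W) =
      ⟨Units.map (algebraMap K L : K →* L) c'.1, map_mem_unitsAt c'.2⟩ *
        (⟨Units.map (algebraMap K L : K →* L) d'.1, map_mem_unitsAt d'.2⟩ : unitsAt W)⁻¹ := by
    rw [eq_mul_inv_iff_mul_eq]
    apply Subtype.ext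
    have := congrArg (fun z : unitsAt (W.under (𝓞 K)) => Units.map (algebraMap K L : K →* L) z.1)
      (eq_mul_inv_iff_mul_eq.1 hx')
    simpa using this
  rw [hxL, hx', map_mul, map_inv, map_mul, map_inv, map_mul, map_inv]
  congr 1
  · exact key c hc
  · congr 1
    exact key d hd

end Fermat.Agent.Lib.CFT.Global.SecondIneq
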