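/-
P-CFT work package Global/SecondIneq (task 205): the key consequence of the first inequality over
`L = K(a^{1/p})`: an `S`-unit `b` of `K` which is a `p`-th power residue at every prime `w ∉ S` at
which `a` is one becomes a `p`-th power in `L`, hence lies in `⟨a⟩ · (Kˣ)^p`.
-/
import Fermat.Agent.Lib.CFT.Global.SecondIneq.Main
import Fermat.Agent.Lib.CFT.Global.SecondIneq.ResidueCompat
import Fermat.Agent.Lib.CFT.Kummer.Basic

set_option autoImplicit false

namespace Fermat.Agent.Lib.CFT.Global.SecondIneq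

open NumberField IsDedekindDomain Fermat.Agent.Lib.CFT.Global.SUnits

variable {p : ℕ}

/-- In a finite cyclic group `G₁` of order divisible by the prime `p`, a non-`p`-th power generates
`G₁` modulo `p`-th powers; so a homomorphism sending it to a `p`-th power sends everything to
`p`-th powers. -/
lemma exists_pow_eq_map_of_generator {G₁ G₂ : Type*} [CommGroup G₁] [CommGroup G₂] [Finite G₁]
    [IsCyclic G₁] (hp : p.Prime) (hC : p ∣ Nat.card G₁) (φ : G₁ →* G₂) (a : G₁)
    (ha : ¬ ∃ t : G₁, t ^ p = a) (hφ : ∃ t : G₂, t ^ p = φ a) (g : G₁) :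
    ∃ t : G₂, t ^ p = φ g := by
  have : Fact p.Prime := ⟨hp⟩
  have hcard : Nat.card (G₁ ⧸ powSubgroup G₁ p) = p := by
    have h := IsCyclic.index_powMonoidHom_range (G := G₁) p
    rw [Nat.gcd_eq_right hC] at h
    exact h
  have ha1 : (QuotientGroup.mk a : G₁ ⧸ powSubgroup G₁ p) ≠ 1 := by
    intro h
    exact ha ((QuotientGroup.eq_one_iff a).1 h)
  have hg : (QuotientGroup.mk g : G₁ ⧸ powSubgroup G₁ p) ∈
      Subgroup.zpowers (QuotientGroup.mk a : G₁ ⧸ powSubgroup G₁ p) :=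
    mem_zpowers_of_prime_card hcard ha1
  obtain ⟨n, hn⟩ := hg
  have h1 : (QuotientGroup.mk (a ^ n) : G₁ ⧸ powSubgroup G₁ p) = QuotientGroup.mk g := by
    rw [QuotientGroup.mk_zpow]; exact hn
  obtain ⟨t₀, ht₀⟩ := QuotientGroup.eq.1 h1
  obtain ⟨t, ht⟩ := hφ
  refine ⟨t ^ n * φ t₀, ?_⟩
  rw [powMonoidHom_apply] at ht₀
  have hg' : g = a ^ n * t₀ ^ p := by rw [ht₀, mul_inv_cancel_left]
  rw [hg', map_mul, map_zpow, map_pow, ← ht, mul_pow, ← zpow_natCast, ← zpow_mul, mul_comm (n : ℤ),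
    zpow_mul, zpow_natCast]

variable {L : Type} [Field L] [NumberField L]

/-- If `b` is a local `p`-th power outside a finite set of primes then `J = Lˣ · N_b`
(weak approximation). -/
lemma KummerModel.principal_range_sup_Nb_eq_top (ML : KummerModel L p) (b : Lˣ)
    (T : Finset (HeightOneSpectrum (𝓞 L)))
    (hT : ∀ W, W ∉ T → ∃ y : ML.Fv W, y ^ p = ML.emb W b) :
    ML.principal.range ⊔ ML.Nb b = ⊤ := by
  rw [eq_top_iff]
  intro x _
  obtain ⟨y, hy, hyA⟩ := ML.weak_approx T x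
  have hz : x * (ML.principal y)⁻¹ ∈ ML.Nb b := by
    refine ML.mem_Nb b _ (fun W => ?_) ?_
    · have h1 : ((x * (ML.principal y)⁻¹ : ML.J) : ML.Prod).1 W =
          (x : ML.Prod).1 W / ML.emb W y := by
        rw [div_eq_mul_inv]; rfl
      rw [h1]
      by_cases hW : W ∈ T
      · obtain ⟨z, hz⟩ := hy W hW
        rw [← hz]
        exact ML.pow_mem_Nloc b W z
      · rw [ML.Nloc_eq_top b W (hT W hW)]
        trivial
    · have h1 : ((x * (ML.principal y)⁻¹ : ML.J) : ML.Prod).2 = (x : ML.Prod).2 / ML.embA y := by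
        rw [div_eq_mul_inv]; rfl
      rw [h1]
      obtain ⟨z, hz⟩ := hyA
      rw [← hz]
      exact ML.pow_mem_NlocA b z
  have : x = ML.principal y * (x * (ML.principal y)⁻¹) := by
    rw [mul_comm x, mul_inv_cancel_left]
  rw [this]
  exact Subgroup.mul_mem_sup ⟨y, rfl⟩ hz

variable {K : Type} [Field K] [NumberField K] [Algebra K L]

/-- A finite set of primes of `L` containing all primes above a given finite set of primes
of `K`. -/
lemma exists_finset_above (S : Finset (HeightOneSpectrum (𝓞 K))) :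
    ∃ T : Finset (HeightOneSpectrum (𝓞 L)), ∀ W : HeightOneSpectrum (𝓞 L),
      W.under (𝓞 K) ∈ S → W ∈ T := by
  classical
  let N : ℕ := ∏ w ∈ S, Ideal.absNorm w.asIdeal
  have hN : N ≠ 0 := by
    rw [Finset.prod_ne_zero_iff]
    intro w _
    rw [ne_eq, Ideal.absNorm_eq_zero_iff]
    exact w.ne_bot
  have hI : Ideal.span {(N : 𝓞 L)} ≠ 0 := by
    rw [ne_eq, Ideal.zero_eq_bot, Ideal.span_singleton_eq_bot]
    exact_mod_cast hN
  refine ⟨(Ideal.finite_factors hI).toFinset, ?_⟩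
  intro W hW
  rw [Set.Finite.mem_toFinset, Set.mem_ofPred_eq, Ideal.dvd_span_singleton]
  have h1 : (N : 𝓞 K) ∈ (W.under (𝓞 K)).asIdeal := by
    have h2 : (Ideal.absNorm (W.under (𝓞 K)).asIdeal : 𝓞 K) ∈ (W.under (𝓞 K)).asIdeal :=
      Ideal.absNorm_mem _
    have h3 : Ideal.absNorm (W.under (𝓞 K)).asIdeal ∣ N := Finset.dvd_prod_of_mem _ hW
    obtain ⟨m, hm⟩ := h3
    rw [hm, Nat.cast_mul]
    exact Ideal.mul_mem_right _ _ h2
  have h4 : algebraMap (𝓞 K) (𝓞 L) (N : 𝓞 K) ∈ W.asIdeal := h1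
  rwa [map_natCast] at h4

/-- **(**)**: an `S`-unit `b` of `K` which is a `p`-th power residue at every prime `w ∉ S` at which
`a` is one lies in `⟨a⟩ · (Kˣ)^p`, where `L = K(a^{1/p})`.  (Consequence of the first inequality
and weak approximation over `L`.) -/
theorem KummerModel.mem_zpowers_sup_of_residues (MK : KummerModel K p) (ML : KummerModel L p)
    (hp : p.Prime) {ζ : K} (hζ : IsPrimitiveRoot ζ p) (a : Kˣ) (α : L)
    (hα : α ^ p = algebraMap K L a) (hgen : IntermediateField.adjoin K {α} = ⊤)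
    (S : Finset (HeightOneSpectrum (𝓞 K)))
    (hSp : ∀ v : HeightOneSpectrum (𝓞 K), (p : 𝓞 K) ∈ v.asIdeal → v ∈ S) (hSa : a ∈ SUnit K S)
    (b : Kˣ) (hb : b ∈ SUnit K S)
    (hres : ∀ w, w ∉ S → ∀ (ha' : a ∈ unitsAt w) (hb' : b ∈ unitsAt w),
      (∃ t : (𝓞 K ⧸ w.asIdeal)ˣ, t ^ p = MK.resChar w ⟨a, ha'⟩) →
        ∃ t : (𝓞 K ⧸ w.asIdeal)ˣ, t ^ p = MK.resChar w ⟨b, hb'⟩) :
    b ∈ Subgroup.zpowers a ⊔ (powMonoidHom p : Kˣ →* Kˣ).range := by
  have : NeZero p := ⟨hp.ne_zero⟩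
  set bL : Lˣ := Units.map (algebraMap K L : K →* L) b with hbL
  set aL : Lˣ := Units.map (algebraMap K L : K →* L) a with haL
  -- `α` as a unit of `L`
  have hα0 : α ≠ 0 := by
    intro h
    rw [h, zero_pow hp.ne_zero] at hα
    exact (Units.ne_zero aL) hα.symm
  set αu : Lˣ := Units.mk0 α hα0
  have hαu : αu ^ p = aL := by
    ext
    simpa [αu, aL] using hα
  obtain ⟨T, hT⟩ := exists_finset_above (L := L) S
  -- `b` is a local `p`-th power outside `T`
  have hloc : ∀ W, W ∉ T → ∃ y : ML.Fv W, y ^ p = ML.emb W bL := by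
    intro W hWT
    have hwS : W.under (𝓞 K) ∉ S := fun h => hWT (hT W h)
    have hwp : (p : 𝓞 K) ∉ (W.under (𝓞 K)).asIdeal := fun h => hwS (hSp _ h)
    have hWp : (p : 𝓞 L) ∉ W.asIdeal := by
      intro h
      apply hwp
      change algebraMap (𝓞 K) (𝓞 L) (p : 𝓞 K) ∈ W.asIdeal
      rwa [map_natCast]
    have haw : a ∈ unitsAt (W.under (𝓞 K)) := sUnit_le_unitsAt hwS hSa
    have hbw : b ∈ unitsAt (W.under (𝓞 K)) := sUnit_le_unitsAt hwS hb
    have haW : aL ∈ unitsAt W := map_mem_unitsAt haw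
    have hbW : bL ∈ unitsAt W := map_mem_unitsAt hbw
    have hαW : αu ∈ unitsAt W := by
      rw [mem_unitsAt]
      have h1 : ordAt W (αu ^ p) = 0 := by rw [hαu]; exact haW
      rw [ordAt_pow] at h1
      rcases mul_eq_zero.1 h1 with h | h
      · exact absurd (by exact_mod_cast h) hp.ne_zero
      · exact h
    -- the residue class of `b` at `W` is a `p`-th power
    have hres' : ∃ t : (𝓞 L ⧸ W.asIdeal)ˣ, t ^ p = ML.resChar W ⟨bL, hbW⟩ := by
      have hcompat := resChar_map MK.toLocalModel ML.toLocalModel W b hbw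
      have hcompat_a := resChar_map MK.toLocalModel ML.toLocalModel W a haw
      by_cases hcase : ∃ t : (𝓞 K ⧸ (W.under (𝓞 K)).asIdeal)ˣ,
          t ^ p = MK.resChar (W.under (𝓞 K)) ⟨a, haw⟩
      · obtain ⟨t, ht⟩ := hres _ hwS haw hbw hcase
        refine ⟨Units.map (resMap (K := K) W).toMonoidHom t, ?_⟩
        rw [← map_pow, ht]
        exact hcompat.symm
      · have hcyc := isCyclic_residue_units (W.under (𝓞 K))
        have hφa : ∃ t : (𝓞 L ⧸ W.asIdeal)ˣ, t ^ p = Units.map (resMap (K := K) W).toMonoidHom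
            (MK.resChar (W.under (𝓞 K)) ⟨a, haw⟩) := by
          refine ⟨ML.resChar W ⟨αu, hαW⟩, ?_⟩
          rw [← map_pow, ← hcompat_a]
          congr 1
          exact Subtype.ext hαu
        obtain ⟨t, ht⟩ := exists_pow_eq_map_of_generator hp
          (dvd_card_residue_units hp hζ (W.under (𝓞 K)) hwp)
          (Units.map (resMap (K := K) W).toMonoidHom) _ hcase hφa
          (MK.resChar (W.under (𝓞 K)) ⟨b, hbw⟩)
        exact ⟨t, ht.trans hcompat.symm⟩
    obtain ⟨u, hu⟩ := ML.exists_pow_eq_embU hWp ⟨bL, hbW⟩ hres'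
    refine ⟨(u : ML.Fv W), ?_⟩
    have := congrArg (fun z : ML.U W => (z : ML.Fv W)) hu
    simpa using this
  -- the first inequality over `L`
  obtain ⟨γ, hγ⟩ := ML.first_ineq bL (ML.principal_range_sup_Nb_eq_top bL T hloc)
  -- Kummer theory
  have hζ' : (primitiveRoots p K).Nonempty := ⟨ζ, (mem_primitiveRoots hp.pos).2 hζ⟩
  have hD : Subgroup.zpowers a ≤ Kummer.kummerGroup K L p := by
    rw [Subgroup.zpowers_le]
    exact ⟨α, hα⟩
  have hgen' : Kummer.IsGeneratedBy L p (Subgroup.zpowers a) := by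
    rw [Kummer.IsGeneratedBy, eq_top_iff, ← hgen]
    apply IntermediateField.adjoin.mono
    rintro _ rfl
    exact ⟨a, Subgroup.mem_zpowers a, hα⟩
  have hbk : b ∈ Kummer.kummerGroup K L p := by
    refine ⟨(γ : L), ?_⟩
    have := congrArg (fun z : Lˣ => (z : L)) hγ
    simpa [hbL] using this
  rw [Kummer.kummerGroup_eq_sup hζ' hgen' hD] at hbk
  exact hbk

end Fermat.Agent.Lib.CFT.Global.SecondIneq
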