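/-
P-CFT work package Global/SecondIneq (task 205): **the second inequality in an abstract idele
model**.  For a Kummer extension `L = K(a^{1/p})` of prime degree `p` of number fields, with idele
models `MK`, `ML` of `K` and `L`, the norm index `[J_K : Kˣ · N_a]` divides `p`.
-/
import Fermat.Agent.Lib.CFT.Global.SecondIneq.AuxPrimes
import Fermat.Agent.Lib.CFT.Global.SecondIneq.Star

set_option autoImplicit false

namespace Fermat.Agent.Lib.CFT.Global.SecondIneq

open NumberField IsDedekindDomain Fermat.Agent.Lib.CFT.Global.SUnits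

variable {p : ℕ} {K L : Type} [Field K] [NumberField K] [Field L] [NumberField L] [Algebra K L]

/-- If `L = K(α)` is a proper extension with `α ^ p = a ∈ K` and `K` contains the `p`-th roots of
unity then `a` is not a `p`-th power in `K`. -/
lemma not_exists_pow_eq_of_adjoin_eq_top (hp : p.Prime) {ζ : K} (hζ : IsPrimitiveRoot ζ p) (a : Kˣ)
    (α : L) (hα : α ^ p = algebraMap K L a) (hgen : IntermediateField.adjoin K {α} = ⊤)
    (hne : Module.finrank K L ≠ 1) : ¬ ∃ c : Kˣ, c ^ p = a := by
  have : NeZero p := ⟨hp.ne_zero⟩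
  rintro ⟨c, hc⟩
  have hζ' : (primitiveRoots p K).Nonempty := ⟨ζ, (mem_primitiveRoots hp.pos).2 hζ⟩
  have hc0 : algebraMap K L (c : K) ≠ 0 := by
    simp
  have h1 : (α / algebraMap K L (c : K)) ^ p = 1 := by
    rw [div_pow, hα, ← map_pow, ← hc]
    simp
  obtain ⟨η, hη⟩ := Kummer.exists_rootsOfUnity_eq hζ' h1
  have hmem : α ∈ (⊥ : IntermediateField K L) := by
    rw [IntermediateField.mem_bot]
    refine ⟨((η : Kˣ) : K) * (c : K), ?_⟩
    rw [map_mul, hη, div_mul_cancel₀ _ hc0]
  rw [IntermediateField.adjoin_simple_eq_bot_iff.2 hmem] at hgen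
  apply hne
  have h2 : Module.finrank K (⊤ : IntermediateField K L) = 1 := by
    rw [← hgen]
    exact IntermediateField.finrank_bot
  rwa [IntermediateField.finrank_top'] at h2

/-- **Second inequality, abstract form.**  `K` a number field containing a primitive `p`-th root
of unity, `L = K(α)` with `α ^ p = a ∈ Kˣ`, `L ≠ K`; `MK`, `ML` Kummer idele models of `K` and `L`.
Then `[J_K : Kˣ · N_a]` divides `p`, where `N_a` is the norm group attached to `a` by `MK`. -/
theorem second_inequality_model (MK : KummerModel K p) (ML : KummerModel L p) (hp : p.Prime) {ζ : K}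
    (hζ : IsPrimitiveRoot ζ p) (a : Kˣ) (α : L) (hα : α ^ p = algebraMap K L a)
    (hgen : IntermediateField.adjoin K {α} = ⊤) (hne : Module.finrank K L ≠ 1) :
    (MK.principal.range ⊔ MK.Nb a).index ∣ p := by
  classical
  have ha := not_exists_pow_eq_of_adjoin_eq_top hp hζ a α hα hgen hne
  -- the set `S`
  have hpK : Ideal.span {(p : 𝓞 K)} ≠ 0 := by
    rw [ne_eq, Ideal.zero_eq_bot, Ideal.span_singleton_eq_bot]
    exact_mod_cast hp.ne_zero
  let S₀ : Finset (HeightOneSpectrum (𝓞 K)) :=
    (Ideal.finite_factors hpK).toFinset ∪ (LocalModel.finite_setOf_ordAt_ne_zero a).toFinset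
  obtain ⟨S, hS₀, hScl⟩ := exists_isClassGenerating S₀
  have hSp : ∀ v : HeightOneSpectrum (𝓞 K), (p : 𝓞 K) ∈ v.asIdeal → v ∈ S := by
    intro v hv
    apply hS₀
    refine Finset.mem_union_left _ ?_
    rw [Set.Finite.mem_toFinset, Set.mem_ofPred_eq, Ideal.dvd_span_singleton]
    exact hv
  have hSa : a ∈ SUnit K S := by
    rw [mem_sUnit_iff]
    intro v hv
    by_contra h
    apply hv
    apply hS₀
    refine Finset.mem_union_right _ ?_
    rw [Set.Finite.mem_toFinset]
    exact h
  obtain ⟨T, hdisj, hT1, hT2, hT3⟩ := MK.exists_auxPrimes hp hζ a S hSp hSa ha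
    (fun b hb hres => MK.mem_zpowers_sup_of_residues ML hp hζ a α hα hgen S hSp hSa b hb hres)
  exact MK.index_dvd_of_auxPrimes hp hζ a S T hSp hSa hScl hdisj hT1 hT2 hT3

end Fermat.Agent.Lib.CFT.Global.SecondIneq
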