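/-
helper66 (P-CFT, WP Global/SecondIneq, file PrimeDegree).  Removal of the roots of unity in the
second inequality: if `[J_{K'} : K'ˣ N J_{L'}]` divides `p` for all Galois extensions `L'/K'` of
number fields of prime degree `p` with `ζ_p ∈ K'`, then the same holds for all Galois extensions of
degree `p`.

* `index_dvd_index_of_norm_comp` : abstract index transfer;
* `smul_eq_ideleMap` : the Galois action on ideles is `ideleMap`;
* `ideleMap_ideleNorm_baseChange` : base change of the idele norm;
* `cycloBase K L M p = K(ζ_p) ⊆ M = L(ζ_p)`, `resGal`, `resGal_bijective`,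
  `finrank_cycloBase_le`, `finrank_cycloBase_top`;
* `index_dvd_of_prime_degree` : the theorem.
-/
import Mathlib
import Fermat.Agent.Lib.CFT.Global.IdeleNorm
import Fermat.Agent.Lib.CFT.Unram.CrossingFields.Tower

set_option autoImplicit false

namespace Fermat.Agent.Lib.CFT.Global.SecondIneq

open NumberField Fermat.Agent.Lib.CFT.Global Polynomial IntermediateField
open Fermat.Agent.Lib.CFT.Unram.CrossingFields

section Abstract

/-- Abstract index transfer: `Q = A/N` is killed by `p`, there are maps `i : A → A'`, `ν : A' → A`
compatible with `N`, `N'`, whose composite is `a ↦ a ^ d` with `d` prime to `p`.  Then `[A : N]`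
divides `[A' : N']` if the latter is nonzero. -/
theorem index_dvd_index_of_norm_comp {A A' : Type*} [CommGroup A] [CommGroup A']
    (N : Subgroup A) (N' : Subgroup A') (i : A →* A') (ν : A' →* A) {p d : ℕ}
    (hdp : Nat.Coprime d p) (hi : N ≤ N'.comap i) (hν : N' ≤ N.comap ν)
    (hνi : ∀ a, ν (i a) = a ^ d) (hpow : ∀ a : A, a ^ p ∈ N) (hN' : N'.index ≠ 0) :
    N.index ∣ N'.index := by
  -- the induced maps on quotients
  let ibar : A ⧸ N →* A' ⧸ N' := QuotientGroup.map N N' i hi
  have hinj : Function.Injective ibar := by
    rw [injective_iff_map_eq_one]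
    intro x hx
    induction x using QuotientGroup.induction_on with
    | H a =>
      have h1 : i a ∈ N' := by
        have : (QuotientGroup.mk (i a) : A' ⧸ N') = 1 := hx
        exact (QuotientGroup.eq_one_iff _).1 this
      have h2 : a ^ d ∈ N := by
        rw [← hνi]
        exact hν h1
      have h3 : a ^ p ∈ N := hpow a
      -- Bezout
      have hone : a ^ (1 : ℤ) ∈ N := by
        have hb : (d : ℤ) * Nat.gcdA d p + (p : ℤ) * Nat.gcdB d p = 1 := by
          have := Nat.gcd_eq_gcd_ab d p
          rw [hdp] at this
          exact_mod_cast this.symm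
        rw [← hb, zpow_add, zpow_mul, zpow_mul, zpow_natCast, zpow_natCast]
        exact mul_mem (zpow_mem h2 _) (zpow_mem h3 _)
      rw [zpow_one] at hone
      exact (QuotientGroup.eq_one_iff _).2 hone
  have : Finite (A' ⧸ N') := by
    have : N'.FiniteIndex := ⟨hN'⟩
    exact Subgroup.finite_quotient_of_finiteIndex
  rw [Subgroup.index_eq_card, Subgroup.index_eq_card]
  exact Subgroup.card_dvd_of_injective ibar hinj

end Abstract

section Smul

variable {L : Type} [Field L] [NumberField L] {G : Type} [Group G] [MulSemiringAction G L]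

/-- The action of a group of automorphisms on the ideles is `ideleMap`. -/
theorem smul_eq_ideleMap (g : G) (a : Idele L) :
    g • a = ideleMap (MulSemiringAction.toRingHom G L g) a := by
  apply Subtype.ext
  ext : 1
  · funext q
    apply Units.ext
    rfl
  · apply Units.ext
    rfl

end Smul

section BaseChange

variable (K L K' M : Type) [Field K] [NumberField K] [Field L] [NumberField L]
  [Field K'] [NumberField K'] [Field M] [NumberField M]
  [Algebra K L] [Algebra K K'] [Algebra L M] [Algebra K' M] [Algebra K M]
  [IsScalarTower K L M] [IsScalarTower K K' M] [IsGalois K L] [IsGalois K' M]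

/-- **Base change of the idele norm.**  If restriction `Gal(M/K') → Gal(L/K)` is bijective then
`N_{L/K}` followed by `J_K → J_{K'}` is `J_L → J_M` followed by `N_{M/K'}`. -/
theorem ideleMap_ideleNorm_baseChange (r : Gal(M/K') ≃ Gal(L/K))
    (hr : ∀ (h : Gal(M/K')) (x : L), h (algebraMap L M x) = algebraMap L M (r h x))
    (y : Idele L) :
    ideleMap (algebraMap K K') (ideleNorm K L y) =
      ideleNorm K' M (ideleMap (algebraMap L M) y) := by
  apply ideleMap_injective (algebraMap K' M)
  rw [ideleMap_ideleNorm K' M, ← ideleMap_comp]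
  have hcomp : (algebraMap K' M).comp (algebraMap K K') = (algebraMap L M).comp (algebraMap K L) := by
    rw [← IsScalarTower.algebraMap_eq K K' M, ← IsScalarTower.algebraMap_eq K L M]
  rw [hcomp, ideleMap_comp, ideleMap_ideleNorm K L, map_prod]
  rw [← Equiv.prod_comp r]
  refine Finset.prod_congr rfl fun h _ => ?_
  rw [smul_eq_ideleMap, smul_eq_ideleMap, ← ideleMap_comp, ← ideleMap_comp]
  have hc : (algebraMap L M).comp (MulSemiringAction.toRingHom Gal(L/K) L (r h)) =
      (MulSemiringAction.toRingHom Gal(M/K') M h).comp (algebraMap L M) := by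
    ext x
    exact (hr h x).symm
  rw [hc]

end BaseChange

section Cyclo

variable (K L M : Type*) [Field K] [Field L] [Field M] [Algebra K L] [Algebra L M] [Algebra K M]
  [IsScalarTower K L M] (p : ℕ) [NeZero p] [IsCyclotomicExtension {p} L M]

/-- The field `K(ζ_p)` inside `M = L(ζ_p)`. -/
noncomputable abbrev cycloBase : IntermediateField K M :=
  K⟮IsCyclotomicExtension.zeta p L M⟯

omit [Algebra K L] [IsScalarTower K L M] in
theorem zeta_mem_cycloBase : IsCyclotomicExtension.zeta p L M ∈ cycloBase K L M p :=
  mem_adjoin_simple_self K _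

omit [Algebra K L] [IsScalarTower K L M] in
/-- `[K(ζ_p) : K] ≤ φ(p)`. -/
theorem finrank_cycloBase_le : Module.finrank K (cycloBase K L M p) ≤ p.totient := by
  have hζ := IsCyclotomicExtension.zeta_spec p L M
  set ζ := IsCyclotomicExtension.zeta p L M with hζdef
  have hint : IsIntegral K ζ := (hζ.isIntegral (NeZero.pos p)).tower_top
  have hdvd : minpoly K ζ ∣ cyclotomic p K := by
    apply minpoly.dvd
    rw [aeval_def, eval₂_eq_eval_map, map_cyclotomic]
    exact hζ.isRoot_cyclotomic (NeZero.pos p)
  rw [cycloBase, IntermediateField.adjoin.finrank hint, ← natDegree_cyclotomic p K]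
  exact natDegree_le_of_dvd hdvd (cyclotomic_ne_zero p K)

variable [Normal K L]

/-- Restriction `Gal(M/K(ζ_p)) → Gal(L/K)`. -/
noncomputable def resGal (h : Gal(M/(cycloBase K L M p))) : Gal(L/K) :=
  AlgEquiv.restrictNormalHom L (h.restrictScalars K)

theorem resGal_commutes (h : Gal(M/(cycloBase K L M p))) (x : L) :
    h (algebraMap L M x) = algebraMap L M (resGal K L M p h x) :=
  (AlgEquiv.restrictNormal_commutes (h.restrictScalars K) L x).symm

theorem resGal_injective : Function.Injective (resGal K L M p) := by
  have hζ := IsCyclotomicExtension.zeta_spec p L M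
  set ζ := IsCyclotomicExtension.zeta p L M with hζdef
  intro h h' hh
  have hL : ∀ x : L, h (algebraMap L M x) = h' (algebraMap L M x) := by
    intro x
    rw [resGal_commutes, resGal_commutes, hh]
  have hz : h ζ = h' ζ := by
    have h1 := h.commutes ⟨ζ, zeta_mem_cycloBase K L M p⟩
    have h2 := h'.commutes ⟨ζ, zeta_mem_cycloBase K L M p⟩
    exact h1.trans h2.symm
  ext x
  have hx : x ∈ Algebra.adjoin L ({ζ} : Set M) := by
    rw [IsCyclotomicExtension.adjoin_primitive_root_eq_top hζ]
    exact Algebra.mem_top
  induction hx using Algebra.adjoin_induction with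
  | mem y hy =>
    rw [Set.mem_singleton_iff] at hy
    rw [hy, hz]
  | algebraMap l => exact hL l
  | add y z _ _ hy hz => rw [map_add, map_add, hy, hz]
  | mul y z _ _ hy hz => rw [map_mul, map_mul, hy, hz]

end Cyclo

section Degree

variable (K L M : Type*) [Field K] [Field L] [Field M] [Algebra K L] [Algebra L M] [Algebra K M]
  [IsScalarTower K L M] (p : ℕ) [NeZero p] [IsCyclotomicExtension {p} L M]
  [IsGalois K L] [FiniteDimensional K L]

/-- `[L(ζ_p) : K(ζ_p)] = p` when `L/K` is Galois of prime degree `p`. -/
theorem finrank_cycloBase_top (hp : p.Prime) (hdeg : Module.finrank K L = p) :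
    Module.finrank (cycloBase K L M p) M = p := by
  have hKM : IsGalois K M := isGalois_top K L M p
  have hfd : FiniteDimensional K M := finiteDimensional_top K L M p
  have h1 : Module.finrank K (cycloBase K L M p) * Module.finrank (cycloBase K L M p) M =
      Module.finrank K L * Module.finrank L M := by
    rw [Module.finrank_mul_finrank, Module.finrank_mul_finrank]
  have hd_lt : Module.finrank K (cycloBase K L M p) < p := by
    have := finrank_cycloBase_le K L M p
    rw [Nat.totient_prime hp] at this
    have hp1 := hp.one_lt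
    omega
  have hd_pos : 0 < Module.finrank K (cycloBase K L M p) := Module.finrank_pos
  have he_pos : 0 < Module.finrank (cycloBase K L M p) M := Module.finrank_pos
  have he_le : Module.finrank (cycloBase K L M p) M ≤ p := by
    have h2 : Nat.card Gal(M/(cycloBase K L M p)) ≤ Nat.card Gal(L/K) :=
      Nat.card_le_card_of_injective _ (resGal_injective K L M p)
    rw [IsGalois.card_aut_eq_finrank, IsGalois.card_aut_eq_finrank, hdeg] at h2
    exact h2
  have hcop : Nat.Coprime p (Module.finrank K (cycloBase K L M p)) :=
    Nat.coprime_of_lt_prime hd_pos.ne' hd_lt hp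
  have hdvd : p ∣ Module.finrank (cycloBase K L M p) M := by
    apply hcop.dvd_of_dvd_mul_left
    rw [h1, hdeg]
    exact dvd_mul_right p _
  exact le_antisymm he_le (Nat.le_of_dvd he_pos hdvd)

/-- Restriction `Gal(M/K(ζ_p)) → Gal(L/K)` is bijective. -/
theorem resGal_bijective (hp : p.Prime) (hdeg : Module.finrank K L = p) :
    Function.Bijective (resGal K L M p) := by
  have hKM : IsGalois K M := isGalois_top K L M p
  have hfd : FiniteDimensional K M := finiteDimensional_top K L M p
  rw [Nat.bijective_iff_injective_and_card]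
  refine ⟨resGal_injective K L M p, ?_⟩
  rw [IsGalois.card_aut_eq_finrank, IsGalois.card_aut_eq_finrank, hdeg,
    finrank_cycloBase_top K L M p hp hdeg]

end Degree

section Main

/-- **Removal of the roots of unity** in the second inequality. -/
theorem index_dvd_of_prime_degree {p : ℕ}
    (H : ∀ (K' L' : Type) [Field K'] [NumberField K'] [Field L'] [NumberField L'] [Algebra K' L']
      [IsGalois K' L'], Module.finrank K' L' = p → (∃ ζ : K', IsPrimitiveRoot ζ p) →
      ((principal K').range ⊔ (ideleNorm K' L').range).index ∣ p)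
    (K L : Type) [Field K] [NumberField K] [Field L] [NumberField L] [Algebra K L] [IsGalois K L]
    (hp : p.Prime) (hdeg : Module.finrank K L = p) :
    ((principal K).range ⊔ (ideleNorm K L).range).index ∣ p := by
  have hNZ : NeZero p := ⟨hp.ne_zero⟩
  -- the model `M = L(ζ_p)` and `K' = K(ζ_p)`
  let M := CyclotomicField p L
  have hζ := IsCyclotomicExtension.zeta_spec p L M
  have hKM : IsGalois K M := isGalois_top K L M p
  let K' : IntermediateField K M := cycloBase K L M p
  have hdegM : Module.finrank K' M = p := finrank_cycloBase_top K L M p hp hdeg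
  -- the primitive root in `K'`
  have hroot : ∃ ζ : K', IsPrimitiveRoot ζ p :=
    ⟨⟨IsCyclotomicExtension.zeta p L M, zeta_mem_cycloBase K L M p⟩,
      IsPrimitiveRoot.coe_submonoidClass_iff.1 hζ⟩
  have hH := H K' M hdegM hroot
  -- the restriction bijection
  let r : Gal(M/K') ≃ Gal(L/K) :=
    Equiv.ofBijective (resGal K L M p) (resGal_bijective K L M p hp hdeg)
  have hr : ∀ (h : Gal(M/K')) (x : L), h (algebraMap L M x) = algebraMap L M (r h x) :=
    fun h x => resGal_commutes K L M p h x
  -- apply the abstract transfer
  have hd_lt : Module.finrank K K' < p := by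
    have := finrank_cycloBase_le K L M p
    rw [Nat.totient_prime hp] at this
    have hp1 := hp.one_lt
    exact lt_of_le_of_lt this (by omega)
  have hd_pos : 0 < Module.finrank K K' := Module.finrank_pos
  have hcop : Nat.Coprime (Module.finrank K K') p :=
    (Nat.coprime_of_lt_prime hd_pos.ne' hd_lt hp).symm
  have hN'0 : ((principal K').range ⊔ (ideleNorm K' M).range).index ≠ 0 := by
    intro h0
    rw [h0] at hH
    exact hp.ne_zero (zero_dvd_iff.1 hH)
  refine (index_dvd_index_of_norm_comp ((principal K).range ⊔ (ideleNorm K L).range)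
    ((principal K').range ⊔ (ideleNorm K' M).range) (ideleMap (algebraMap K K'))
    (ideleNorm K K') hcop ?_ ?_ ?_ ?_ hN'0).trans hH
  · -- `i` maps `N` into `N'`
    rw [sup_le_iff]
    constructor
    · rintro _ ⟨x, rfl⟩
      rw [Subgroup.mem_comap, ideleMap_principal]
      exact Subgroup.mem_sup_left ⟨_, rfl⟩
    · rintro _ ⟨y, rfl⟩
      rw [Subgroup.mem_comap, ideleMap_ideleNorm_baseChange K L K' M r hr y]
      exact Subgroup.mem_sup_right ⟨_, rfl⟩
  · -- `ν` maps `N'` into `N`
    rw [sup_le_iff]
    constructor
    · rintro _ ⟨x, rfl⟩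
      rw [Subgroup.mem_comap, ideleNorm_principal]
      exact Subgroup.mem_sup_left ⟨_, rfl⟩
    · rintro _ ⟨z, rfl⟩
      rw [Subgroup.mem_comap, ideleNorm_trans K K' M z, ← ideleNorm_trans K L M z]
      exact Subgroup.mem_sup_right ⟨_, rfl⟩
  · intro a
    exact ideleNorm_ideleMap K K' a
  · intro a
    rw [← hdeg, ← ideleNorm_ideleMap K L a]
    exact Subgroup.mem_sup_right ⟨_, rfl⟩

end Main

end Fermat.Agent.Lib.CFT.Global.SecondIneq
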