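/-
P-CFT, Global/SecondIneq (C) (helper80): cohomological consequences of the two inequalities.

For every finite Galois extension `L / K` of number fields, `H¹(Gal(L/K), C_L) = 0` and
`H²(Gal(L/K), C_L)` is finite of order dividing `[L : K]` (`LayerGood K L`), as soon as this holds
for all layers of prime degree (`PrimeLayersGood`; this is where the first and the second
inequality enter).  Pattern: `Local/NormUnits/{SolvableH2, GeneralH2}` (helper43): induction along
a normal subgroup of prime index for solvable groups (inflation-restriction, `Coh/InfRes`,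
`Coh/Solvable`), then Sylow reduction (`Coh/SylowCard`).  The descent `(C_L)^N = C_{L^N}` is
`Global/IdeleClassInvariants` (helper54).

* `LayerGood`, `PrimeLayersGood`: see `ConsequencesDefs.lean` (shared with `ConsequencesCyclic.lean`,
  helper96, which proves `PrimeLayersGood` from the two inequalities);
* `resIso`, `invIso`: the transport isomorphisms;
* `layerGood_of_isSolvable`, `layerGood`;
* `ideleClass_cohomology`: the action form (a finite group acting faithfully on a number field).
-/
import Mathlib
import Fermat.Agent.Lib.CFT.Global.IdeleClassInvariants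
import Fermat.Agent.Lib.CFT.Global.SecondIneq.PrimeDegree
import Fermat.Agent.Lib.CFT.Global.SecondIneq.ConsequencesDefs
import Fermat.Agent.Lib.CFT.Coh.InfRes
import Fermat.Agent.Lib.CFT.Coh.Solvable
import Fermat.Agent.Lib.CFT.Coh.SylowCard

set_option autoImplicit false
set_option linter.unusedSectionVars false

namespace Fermat.Agent.Lib.CFT.Global.SecondIneq.Consequences

open Fermat.Agent.Lib.CFT Fermat.Agent.Lib.CFT.Global CategoryTheory IntermediateField

/-- A shortcut instance (instance search for `Module ℤ (Additive (IdeleClass L))` does not find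
its way through the quotient / subgroup / product structure by itself). -/
noncomputable local instance (priority := high) instAddCommGroupAdditiveIdeleClass (L : Type)
    [Field L] [NumberField L] : AddCommGroup (Additive (IdeleClass L)) := Additive.addCommGroup





section Transport

variable {K L : Type} [Field K] [NumberField K] [Field L] [NumberField L] [Algebra K L]
  [IsGalois K L]

/-- `Hⁿ(H, C_L) ≅ Hⁿ(Gal(L/L^H), C_L)` for a subgroup `H` of `Gal(L/K)`. -/
noncomputable def resIso (H : Subgroup Gal(L/K)) (n : ℕ) :
    groupCohomology (Rep.res H.subtype (ideleClassRep L Gal(L/K))) n ≅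
      groupCohomology (ideleClassRep L Gal(L/fixedField H)) n :=
  groupCohomology.mapIso (A := ideleClassRep L Gal(L/fixedField H))
    (B := Rep.res H.subtype (ideleClassRep L Gal(L/K)))
    (IntermediateField.subgroupEquivAlgEquiv H) (LinearEquiv.refl ℤ _)
    (fun g => by
      ext u
      exact congrArg Additive.ofMul
        (smul_ideleClass_congr L (g : Gal(L/K)) (IntermediateField.subgroupEquivAlgEquiv H g)
          (fun _ => rfl) (Additive.toMul u))) n

section Invariants

variable (N : Subgroup Gal(L/K)) [N.Normal]

/-- the map `C_{L^N} → C_L`. -/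
noncomputable def classIota : IdeleClass (fixedField N) →* IdeleClass L :=
  ideleClassMap (algebraMap (fixedField N) L)

theorem classIota_injective : Function.Injective (classIota N) :=
  ideleClassMap_injective (fixedField N) L

/-- Equivariance of `C_{L^N} → C_L` for `Gal(L/K) → Gal(L^N/K)`. -/
theorem smul_classIota (σ : Gal(L/K)) (c : IdeleClass (fixedField N)) :
    σ • classIota N c = classIota N (AlgEquiv.restrictNormalHom (fixedField N) σ • c) := by
  induction c using QuotientGroup.induction_on with
  | H a =>
    rw [classIota, ideleClassMap_mk, smul_mk_ideleClass, smul_mk_ideleClass, ideleClassMap_mk]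
    congr 1
    have hcomp : (MulSemiringAction.toRingHom Gal(L/K) L σ).comp
          (algebraMap (fixedField N) L) =
        (algebraMap (fixedField N) L).comp (MulSemiringAction.toRingHom Gal(fixedField N/K)
          (fixedField N) (AlgEquiv.restrictNormalHom (fixedField N) σ)) := by
      ext x
      exact (AlgEquiv.restrictNormal_commutes σ (fixedField N) x).symm
    rw [smul_eq_ideleMap, smul_eq_ideleMap, ← ideleMap_comp, ← ideleMap_comp, hcomp]

theorem smul_classIota_of_mem (n : N) (c : IdeleClass (fixedField N)) :
    (n : Gal(L/K)) • classIota N c = classIota N c := by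
  have h1 : (n : Gal(L/K)) • classIota N c =
      (IntermediateField.subgroupEquivAlgEquiv N n) • classIota N c :=
    smul_ideleClass_congr L _ _ (fun _ => rfl) _
  rw [h1]
  exact (mem_range_ideleClassMap_iff (fixedField N) L _).1 ⟨c, rfl⟩ _

theorem exists_classIota_eq (c : IdeleClass L) (hc : ∀ n : N, (n : Gal(L/K)) • c = c) :
    ∃ y, classIota N y = c := by
  apply (mem_range_ideleClassMap_iff (fixedField N) L c).2
  intro g
  have h1 : g • c = (((IntermediateField.subgroupEquivAlgEquiv N).symm g : N) : Gal(L/K)) • c := by
    refine smul_ideleClass_congr L _ _ (fun x => ?_) _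
    have := congrArg (fun τ : Gal(L/fixedField N) => τ x)
      ((IntermediateField.subgroupEquivAlgEquiv N).apply_symm_apply g)
    exact this.symm
  rw [h1]
  exact hc _

theorem classIota_mem_invariants (y : Additive (IdeleClass (fixedField N))) :
    (Additive.ofMul (classIota N y.toMul) : Additive (IdeleClass L)) ∈
      Representation.invariants ((ideleClassRep L Gal(L/K)).ρ.comp N.subtype) := by
  intro n
  exact congrArg Additive.ofMul (smul_classIota_of_mem N n y.toMul)

/-- `C_{L^N} → (C_L)^N` as a linear map. -/
noncomputable def classToInvariants : Additive (IdeleClass (fixedField N)) →ₗ[ℤ]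
    ↥(Representation.invariants ((ideleClassRep L Gal(L/K)).ρ.comp N.subtype)) :=
  LinearMap.codRestrict _ (MonoidHom.toAdditive (classIota N)).toIntLinearMap
    (classIota_mem_invariants N)

theorem coe_classToInvariants (y : Additive (IdeleClass (fixedField N))) :
    (classToInvariants N y).val = Additive.ofMul (classIota N y.toMul) := rfl

theorem classToInvariants_bijective : Function.Bijective (classToInvariants N) := by
  constructor
  · intro x y h
    have h1 := congrArg Subtype.val h
    rw [coe_classToInvariants, coe_classToInvariants] at h1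
    exact classIota_injective N h1
  · rintro ⟨(u : Additive (IdeleClass L)), hu⟩
    have hfix : ∀ n : N, (n : Gal(L/K)) • u.toMul = u.toMul := by
      intro n
      have h1 : (Additive.ofMul ((n : Gal(L/K)) • u.toMul) : Additive (IdeleClass L)) = u := hu n
      exact h1
    obtain ⟨y, hy⟩ := exists_classIota_eq N u.toMul hfix
    refine ⟨Additive.ofMul y, Subtype.ext ?_⟩
    rw [coe_classToInvariants]
    show Additive.ofMul (classIota N y) = u
    rw [hy]
    rfl

/-- `(C_L)^N ≃ C_{L^N}`. -/
noncomputable def invariantsEquiv :
    ↥(Representation.invariants ((ideleClassRep L Gal(L/K)).ρ.comp N.subtype)) ≃ₗ[ℤ]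
      Additive (IdeleClass (fixedField N)) :=
  (LinearEquiv.ofBijective (classToInvariants N) (classToInvariants_bijective N)).symm

theorem invariantsEquiv_classToInvariants (y : Additive (IdeleClass (fixedField N))) :
    invariantsEquiv N (classToInvariants N y) = y :=
  (LinearEquiv.ofBijective (classToInvariants N) (classToInvariants_bijective N)).symm_apply_apply y

theorem quotientToInvariants_classToInvariants (σ : Gal(L/K))
    (y : Additive (IdeleClass (fixedField N))) :
    ((ideleClassRep L Gal(L/K)).quotientToInvariants N).ρ (σ : Gal(L/K) ⧸ N)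
        (classToInvariants N y) =
      classToInvariants N ((ideleClassRep (fixedField N) Gal(fixedField N/K)).ρ
        (AlgEquiv.restrictNormalHom (fixedField N) σ) y) := by
  apply Subtype.ext
  exact congrArg Additive.ofMul (smul_classIota N σ y.toMul)

/-- `Hⁿ(G/N, (C_L)^N) ≅ Hⁿ(Gal(L^N/K), C_{L^N})` for a normal subgroup `N` of `G = Gal(L/K)`. -/
noncomputable def invIso (n : ℕ) :
    groupCohomology ((ideleClassRep L Gal(L/K)).quotientToInvariants N) n ≅
      groupCohomology (ideleClassRep (fixedField N) Gal(fixedField N/K)) n :=
  groupCohomology.mapIso (A := ideleClassRep (fixedField N) Gal(fixedField N/K))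
    (B := (ideleClassRep L Gal(L/K)).quotientToInvariants N)
    (IsGalois.normalAutEquivQuotient N) (invariantsEquiv N)
    (fun g => by
      induction g using QuotientGroup.induction_on with
      | H σ =>
        apply LinearMap.ext
        intro x
        obtain ⟨y, rfl⟩ := (classToInvariants_bijective N).2 x
        rw [LinearMap.comp_apply, LinearMap.comp_apply, quotientToInvariants_classToInvariants]
        erw [invariantsEquiv_classToInvariants, invariantsEquiv_classToInvariants]
        rfl) n

end Invariants

end Transport

section Main

open Limits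

theorem layerGood_aux (h : PrimeLayersGood) : ∀ (n : ℕ) (K L : Type) [Field K] [NumberField K]
    [Field L] [NumberField L] [Algebra K L] [IsGalois K L], Group.IsSolvable Gal(L/K) →
    Module.finrank K L = n → LayerGood K L := by
  intro n
  induction n using Nat.strong_induction_on with
  | _ n ih =>
  intro K L _ _ _ _ _ _ hsolv hn
  set A := ideleClassRep L Gal(L/K) with hA
  by_cases hG : Nontrivial Gal(L/K)
  · obtain ⟨N, hN, hp⟩ := Coh.Solvable.exists_normal_prime_index Gal(L/K)
    -- degrees
    have hEK : Module.finrank K (fixedField N) = Nat.card (Gal(L/K) ⧸ N) := by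
      rw [← IsGalois.card_aut_eq_finrank K (fixedField N)]
      exact (Nat.card_congr (IsGalois.normalAutEquivQuotient N).toEquiv).symm
    have hLE : Module.finrank (fixedField N) L = Nat.card N := finrank_fixedField_eq_card N
    have hmul : Module.finrank K (fixedField N) * Module.finrank (fixedField N) L = n := by
      rw [Module.finrank_mul_finrank, hn]
    have hlt : Module.finrank (fixedField N) L < n := by
      have h2 : 2 ≤ Module.finrank K (fixedField N) := hEK ▸ hp.two_le
      have hpos : 0 < Module.finrank (fixedField N) L := Module.finrank_pos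
      nlinarith
    -- the bottom layer has prime degree
    obtain ⟨hX1, hXfin, hXdvd⟩ := h K (fixedField N) (hEK ▸ hp)
    -- the top layer, by induction
    have hsolvE : Group.IsSolvable Gal(L/fixedField N) :=
      Group.isSolvable_of_surjective (f := (subgroupEquivAlgEquiv N).toMonoidHom)
        (subgroupEquivAlgEquiv N).surjective
    obtain ⟨hZ1, hZfin, hZdvd⟩ := ih _ hlt (fixedField N) L hsolvE rfl
    -- transport
    have eX := (invIso N 2).toLinearEquiv.toEquiv
    have eZ := (resIso N 2).toLinearEquiv.toEquiv
    have hXfin' : Finite (groupCohomology (A.quotientToInvariants N) 2) :=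
      Finite.of_equiv _ eX.symm
    have hZfin' : Finite (groupCohomology (Rep.res N.subtype A) 2) := Finite.of_equiv _ eZ.symm
    have h1N : IsZero (groupCohomology (Rep.res N.subtype A) 1) :=
      IsZero.of_iso hZ1 (resIso N 1)
    have h1Q : IsZero (groupCohomology (A.quotientToInvariants N) 1) :=
      IsZero.of_iso hX1 (invIso N 1)
    refine ⟨?_, ?_⟩
    · -- `H¹`
      have hex := Coh.InfRes.infResExact_one A N
      have sN := ModuleCat.isZero_iff_subsingleton.1 h1N
      have sQ := ModuleCat.isZero_iff_subsingleton.1 h1Q
      refine ModuleCat.isZero_iff_subsingleton.2 ⟨fun x y => ?_⟩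
      obtain ⟨x', rfl⟩ := hex.2 x (Subsingleton.elim _ _)
      obtain ⟨y', rfl⟩ := hex.2 y (Subsingleton.elim _ _)
      rw [Subsingleton.elim x' y']
    · -- `H²`
      obtain ⟨hinj, hex⟩ := Coh.InfRes.infResExact_two A N h1N
      have key := Coh.Solvable.finite_and_card_dvd_of_exact
        (f := (Coh.InfRes.infl A N 2).hom.toAddMonoidHom)
        (g := (Coh.InfRes.rest A N 2).hom.toAddMonoidHom) hinj
        (fun x => by
          have h := Coh.InfRes.infl_comp_rest A N 1
          have h' := congrArg (fun φ => φ.hom x) h
          simpa using h')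
        hex
      refine ⟨key.1, key.2.trans ?_⟩
      rw [Nat.card_congr eX, Nat.card_congr eZ, ← Module.finrank_mul_finrank K (fixedField N) L]
      exact Nat.mul_dvd_mul hXdvd hZdvd
  · have hsub : Subsingleton Gal(L/K) := not_nontrivial_iff_subsingleton.mp hG
    have s1 := ModuleCat.isZero_iff_subsingleton.1
      (isZero_groupCohomology_succ_of_subsingleton A 0)
    have s2 := ModuleCat.isZero_iff_subsingleton.1
      (isZero_groupCohomology_succ_of_subsingleton A 1)
    exact ⟨isZero_groupCohomology_succ_of_subsingleton A 0, inferInstance,
      by rw [Nat.card_unique]; exact one_dvd _⟩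

/-- **Solvable layers.** -/
theorem layerGood_of_isSolvable (h : PrimeLayersGood) (K L : Type) [Field K] [NumberField K]
    [Field L] [NumberField L] [Algebra K L] [IsGalois K L] [hs : Group.IsSolvable Gal(L/K)] :
    LayerGood K L :=
  layerGood_aux h _ K L hs rfl

/-- **All Galois layers**: Sylow reduction to `p`-groups (which are solvable). -/
theorem layerGood (h : PrimeLayersGood) (K L : Type) [Field K] [NumberField K]
    [Field L] [NumberField L] [Algebra K L] [IsGalois K L] : LayerGood K L := by
  classical
  let _ : Fintype Gal(L/K) := Fintype.ofFinite _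
  have hcard : Fintype.card Gal(L/K) = Module.finrank K L := by
    rw [← Nat.card_eq_fintype_card, IsGalois.card_aut_eq_finrank]
  set A := ideleClassRep L Gal(L/K) with hA
  -- the Sylow subgroups give solvable layers
  have hsyl : ∀ (p : ℕ) [Fact p.Prime] (P : Sylow p Gal(L/K)),
      LayerGood (fixedField (P : Subgroup Gal(L/K))) L := by
    intro p _ P
    have hsolv : Group.IsSolvable Gal(L/fixedField (P : Subgroup Gal(L/K))) := by
      have hP : IsPGroup p Gal(L/fixedField (P : Subgroup Gal(L/K))) :=
        P.isPGroup'.of_equiv (subgroupEquivAlgEquiv (P : Subgroup Gal(L/K)))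
      have := hP.isNilpotent
      infer_instance
    exact layerGood_of_isSolvable h _ L
  refine ⟨?_, ?_⟩
  · -- `H¹`: a class restricting to zero on all Sylow subgroups is zero
    have hz : ∀ z : tateCohomology A 1, z = 0 := by
      intro z
      refine Coh.SylowCard.eq_zero_of_forall_prime_tRes A 1 z (fun p hp hpG => ?_)
      have hpF : Fact p.Prime := ⟨hp⟩
      obtain ⟨P⟩ : Nonempty (Sylow p Gal(L/K)) := inferInstance
      let _ : Fintype (P : Subgroup Gal(L/K)) := Fintype.ofFinite _
      let _ : Fintype (Gal(L/K) ⧸ (P : Subgroup Gal(L/K))) := Fintype.ofFinite _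
      refine ⟨(P : Subgroup Gal(L/K)), inferInstance, inferInstance, ?_, ?_⟩
      · have := P.not_dvd_index
        rwa [Subgroup.index_eq_card, Nat.card_eq_fintype_card] at this
      · have h1 : IsZero (groupCohomology (Rep.res (P : Subgroup Gal(L/K)).subtype A) 1) :=
          IsZero.of_iso (hsyl p P).1 (resIso (P : Subgroup Gal(L/K)) 1)
        have h2 : IsZero (tateCohomology (Rep.res (P : Subgroup Gal(L/K)).subtype A) 1) :=
          IsZero.of_iso h1 ((TateCohomology.isoGroupCohomology 1).app _)
        have := ModuleCat.isZero_iff_subsingleton.1 h2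
        exact Subsingleton.elim _ _
    have h2 : IsZero (tateCohomology A 1) :=
      ModuleCat.isZero_iff_subsingleton.2 ⟨fun x y => by rw [hz x, hz y]⟩
    exact IsZero.of_iso h2 ((TateCohomology.isoGroupCohomology 1).app A).symm
  · -- `H²`
    rw [← hcard]
    refine Coh.SylowCard.finite_and_card_dvd_of_sylow A 2 (fun p hp hpG => ?_)
    have hpF : Fact p.Prime := ⟨hp⟩
    obtain ⟨P⟩ : Nonempty (Sylow p Gal(L/K)) := inferInstance
    refine ⟨(P : Subgroup Gal(L/K)), ?_, ?_⟩
    · rw [P.card_eq_multiplicity, Nat.card_eq_fintype_card]
    · obtain ⟨-, hfin, hdvd⟩ := hsyl p P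
      have e := (resIso (P : Subgroup Gal(L/K)) 2).toLinearEquiv.toEquiv
      refine ⟨Finite.of_equiv _ e.symm, ?_⟩
      rw [Nat.card_congr e, ← finrank_fixedField_eq_card]
      exact hdvd

/-- **Action form** (input (I1) of `Global/ClassFormation`): for a finite group `G` acting
faithfully on a number field `M`, `H¹(G, C_M) = 0` and `H²(G, C_M)` is finite of order dividing
`|G|`. -/
theorem ideleClass_cohomology (h : PrimeLayersGood) (M : Type) [Field M] [NumberField M]
    (G : Type) [Group G] [Finite G] [MulSemiringAction G M] [FaithfulSMul G M] :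
    IsZero (groupCohomology (ideleClassRep M G) 1) ∧
      Finite (groupCohomology (ideleClassRep M G) 2) ∧
      Nat.card (groupCohomology (ideleClassRep M G) 2) ∣ Nat.card G := by
  obtain ⟨h1, h2, h3⟩ := layerGood h (FixedPoints.subfield G M) M
  have iso : ∀ n, groupCohomology (ideleClassRep M G) n ≅
      groupCohomology (ideleClassRep M Gal(M/FixedPoints.subfield G M)) n := fun n =>
    groupCohomology.mapIso (A := ideleClassRep M Gal(M/FixedPoints.subfield G M))
      (B := ideleClassRep M G) (FixedPoints.toAlgAutMulEquiv G M) (LinearEquiv.refl ℤ _)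
      (fun g => by
        ext u
        exact congrArg Additive.ofMul
          (smul_ideleClass_congr M g (FixedPoints.toAlgAutMulEquiv G M g) (fun _ => rfl)
            (Additive.toMul u))) n
  have e := (iso 2).toLinearEquiv.toEquiv
  refine ⟨IsZero.of_iso h1 (iso 1), Finite.of_equiv _ e.symm, ?_⟩
  rw [Nat.card_congr e, Nat.card_congr (FixedPoints.toAlgAutMulEquiv G M).toEquiv,
    IsGalois.card_aut_eq_finrank]
  exact h3

end Main

end Fermat.Agent.Lib.CFT.Global.SecondIneq.Consequences
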