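import Mathlib
import Fermat.Agent.Lib.CFT.Global.SecondIneq.ConsequencesCyclic
import Fermat.Agent.Lib.CFT.Global.SecondIneq.Consequences

/-!
# Cohomology of the idele class group: all cyclic layers (helper96, P-CFT)

For a cyclic extension `L / K` of number fields with group `G`: `|H²(G, C_L)| = [L : K]` and
`[J_K : Kˣ N J_L] = [C_K : N C_L] = [L : K]`, from the first inequality and the goodness of all
layers (`H¹ = 0`).
-/

set_option autoImplicit false

open scoped NumberField

noncomputable section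

namespace Fermat.Agent.Lib.CFT.Global.SecondIneq.Consequences

open Fermat.Agent.Lib.CFT Fermat.Agent.Lib.CFT.Herbrand Fermat.Agent.Lib.CFT.Global
open CategoryTheory CategoryTheory.Limits

section Cyclic

variable (K L : Type) [Field K] [NumberField K] [Field L] [NumberField L] [Algebra K L]
  [IsGalois K L]

/-- For a cyclic layer with generator `s`: `[(C_L)^G : N_G C_L] = [L : K]` and
`[ker N_G : (s - 1) C_L] = 1`. -/
theorem hIndexMul_of_generator (h1 : FirstIneqHerbrand) (hP : PrimeLayersGood)
    {s : L ≃ₐ[K] L} (hs : ∀ x, x ∈ Subgroup.zpowers s) :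
    hIndexMul (subOneMul (L ≃ₐ[K] L) (IdeleClass L) s) (normMul (L ≃ₐ[K] L) (IdeleClass L)) =
        Module.finrank K L ∧
      hIndexMul (normMul (L ≃ₐ[K] L) (IdeleClass L))
        (subOneMul (L ≃ₐ[K] L) (IdeleClass L) s) = 1 := by
  classical
  have hcyc : IsCyclic (L ≃ₐ[K] L) := ⟨⟨s, hs⟩⟩
  let _ : CommGroup (L ≃ₐ[K] L) := IsCyclic.commGroup
  obtain ⟨hfin, hherb⟩ := h1 K L s hs
  have hmul := FirstIneq.hIndexMul_eq_mul_of_herbrandCycMul_eq hfin hherb
  obtain ⟨hH1, -, -⟩ := layerGood hP K L
  have hsub : Subsingleton (groupCohomology (ideleClassRep L (L ≃ₐ[K] L)) 1) :=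
    ModuleCat.isZero_iff_subsingleton.1 hH1
  have hc1 : Nat.card (groupCohomology (ideleClassRep L (L ≃ₐ[K] L)) 1) = 1 :=
    Nat.card_eq_one_iff_unique.2 ⟨hsub, ⟨0⟩⟩
  rw [card_groupCohomology_odd (ideleClassRep L (L ≃ₐ[K] L)) s hs 1 (by decide),
    hIndex_repNorm_repSub_ofMul (L ≃ₐ[K] L) (IdeleClass L) s] at hc1
  exact ⟨by rw [hmul, hc1, mul_one], hc1⟩

/-- `|H²(G, C_L)| = [L : K]` for a cyclic layer. -/
theorem card_H2_of_isCyclic (h1 : FirstIneqHerbrand) (hP : PrimeLayersGood)
    [IsCyclic (L ≃ₐ[K] L)] :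
    Nat.card (groupCohomology (ideleClassRep L (L ≃ₐ[K] L)) 2) = Module.finrank K L := by
  classical
  let _ : CommGroup (L ≃ₐ[K] L) := IsCyclic.commGroup
  obtain ⟨s, hs⟩ := IsCyclic.exists_generator (α := (L ≃ₐ[K] L))
  rw [card_groupCohomology_even (ideleClassRep L (L ≃ₐ[K] L)) s hs 2 (by decide),
    hIndex_repSub_repNorm_ofMul (L ≃ₐ[K] L) (IdeleClass L) s]
  exact (hIndexMul_of_generator K L h1 hP hs).1

/-- `[J_K : Kˣ N J_L] = [L : K]` for a cyclic layer. -/
theorem index_norm_of_isCyclic (h1 : FirstIneqHerbrand) (hP : PrimeLayersGood)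
    [IsCyclic (L ≃ₐ[K] L)] :
    ((principal K).range ⊔ (ideleNorm K L).range).index = Module.finrank K L := by
  obtain ⟨s, hs⟩ := IsCyclic.exists_generator (α := (L ≃ₐ[K] L))
  rw [← hIndexMul_eq_index K L hs]
  exact (hIndexMul_of_generator K L h1 hP hs).1

omit [IsGalois K L] in
/-- The range of the class norm is the image of `Kˣ N J_L`. -/
theorem comap_range_ideleClassNorm :
    (ideleClassNorm K L).range.comap (QuotientGroup.mk' (principal K).range) =
      (principal K).range ⊔ (ideleNorm K L).range := by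
  ext x
  rw [Subgroup.mem_comap, Subgroup.mem_sup]
  constructor
  · rintro ⟨c, hc⟩
    induction c using QuotientGroup.induction_on with
    | H b =>
      rw [ideleClassNorm_mk] at hc
      have h1 : (QuotientGroup.mk (ideleNorm K L b) : IdeleClass K) = QuotientGroup.mk x := hc
      rw [QuotientGroup.eq] at h1
      refine ⟨(ideleNorm K L b)⁻¹ * x, h1, ideleNorm K L b, ⟨b, rfl⟩, ?_⟩
      rw [mul_comm, mul_inv_cancel_left]
  · rintro ⟨y, ⟨a, rfl⟩, z, ⟨b, rfl⟩, rfl⟩
    refine ⟨QuotientGroup.mk b, ?_⟩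
    rw [ideleClassNorm_mk]
    change (QuotientGroup.mk (ideleNorm K L b) : IdeleClass K) =
      QuotientGroup.mk (principal K a * ideleNorm K L b)
    rw [QuotientGroup.eq]
    refine ⟨a, ?_⟩
    rw [mul_comm (principal K a), inv_mul_cancel_left]

omit [IsGalois K L] in
/-- `[C_K : N C_L] = [J_K : Kˣ N J_L]`. -/
theorem index_range_ideleClassNorm :
    (ideleClassNorm K L).range.index = ((principal K).range ⊔ (ideleNorm K L).range).index := by
  rw [← comap_range_ideleClassNorm, Subgroup.index_comap_of_surjective _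
    (QuotientGroup.mk'_surjective _)]

/-- `[C_K : N C_L] = [L : K]` for a cyclic layer. -/
theorem index_ideleClassNorm_of_isCyclic (h1 : FirstIneqHerbrand) (hP : PrimeLayersGood)
    [IsCyclic (L ≃ₐ[K] L)] :
    (ideleClassNorm K L).range.index = Module.finrank K L := by
  rw [index_range_ideleClassNorm, index_norm_of_isCyclic K L h1 hP]

end Cyclic

/-- **Action form**: for a finite cyclic group `G` acting faithfully on a number field `M`,
`|H²(G, C_M)| = |G|`. -/
theorem card_H2_ideleClass_of_isCyclic (h1 : FirstIneqHerbrand) (hP : PrimeLayersGood)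
    (M : Type) [Field M] [NumberField M] (G : Type) [Group G] [Finite G]
    [MulSemiringAction G M] [FaithfulSMul G M] [IsCyclic G] :
    Nat.card (groupCohomology (ideleClassRep M G) 2) = Nat.card G := by
  have iso : ∀ n, groupCohomology (ideleClassRep M G) n ≅
      groupCohomology (ideleClassRep M Gal(M/FixedPoints.subfield G M)) n := fun n =>
    groupCohomology.mapIso (A := ideleClassRep M Gal(M/FixedPoints.subfield G M))
      (B := ideleClassRep M G) (FixedPoints.toAlgAutMulEquiv G M) (LinearEquiv.refl ℤ _)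
      (fun g => by
        ext u
        exact congrArg Additive.ofMul
          (smul_ideleClass_congr M g (FixedPoints.toAlgAutMulEquiv G M g) (fun _ => rfl)
            (Additive.toMul u))) n
  have e := (iso 2).toLinearEquiv.toEquiv
  have hcyc : IsCyclic Gal(M/FixedPoints.subfield G M) :=
    isCyclic_of_surjective (FixedPoints.toAlgAutMulEquiv G M)
      (FixedPoints.toAlgAutMulEquiv G M).surjective
  rw [Nat.card_congr e, Nat.card_congr (FixedPoints.toAlgAutMulEquiv G M).toEquiv,
    IsGalois.card_aut_eq_finrank]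
  exact card_H2_of_isCyclic (FixedPoints.subfield G M) M h1 hP

end Fermat.Agent.Lib.CFT.Global.SecondIneq.Consequences
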