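/-
P-CFT work package Global/SecondIneq (task 205): **summary file**.  All consequences of the two
inequalities of global class field theory, from the single local input (D2)
`FirstIneqFinal.UnramHerbrandTrivial` (helper39): at the primes `q` where all inertia groups are
trivial, the integral units `locIntUnits L q` have trivial Tate cohomology for cyclic groups.

* `primeLayersGood_of_unram`, `layerGood_of_unram`;
* `ideleClass_cohomology_of_unram` : `H¹(G, C_M) = 0`, `|H²(G, C_M)| ∣ |G|` (action form);
* `card_H2_ideleClass_of_isCyclic_of_unram` : `|H²(G, C_M)| = |G|` for cyclic `G`;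
* `index_norm_of_isCyclic_of_unram` : `[J_K : Kˣ · N J_L] = [L : K]` for cyclic `L / K`;
* `second_inequality_of_unram` : `[J_K : Kˣ · N J_L] ∣ p` for Galois `L / K` of prime degree `p`.
-/
import Mathlib
import Fermat.Agent.Lib.CFT.Global.FirstIneqFinal
import Fermat.Agent.Lib.CFT.Global.SecondIneq.Consequences
import Fermat.Agent.Lib.CFT.Global.SecondIneq.ConsequencesCyclicAll
import Fermat.Agent.Lib.CFT.Global.SecondIneq.Instance.Final

set_option autoImplicit false

open scoped NumberField

noncomputable section

namespace Fermat.Agent.Lib.CFT.Global.SecondIneq.Consequences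

open Fermat.Agent.Lib.CFT Fermat.Agent.Lib.CFT.Global
  Fermat.Agent.Lib.CFT.Global.SecondIneq.Instance Fermat.Agent.Lib.CFT.Global.FirstIneqFinal
  CategoryTheory.Limits

theorem primeLayersGood_of_unram (hD2 : UnramHerbrandTrivial) : PrimeLayersGood :=
  primeLayersGood_of_herbrand (firstIneqHerbrand hD2)

/-- `H¹(Gal(L/K), C_L) = 0` and `|H²(Gal(L/K), C_L)| ∣ [L : K]` for every Galois extension of
number fields. -/
theorem layerGood_of_unram (hD2 : UnramHerbrandTrivial) (K L : Type) [Field K] [NumberField K]
    [Field L] [NumberField L] [Algebra K L] [IsGalois K L] : LayerGood K L :=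
  layerGood (primeLayersGood_of_unram hD2) K L

/-- Action form: `H¹(G, C_M) = 0`, `H²(G, C_M)` finite of order dividing `|G|`. -/
theorem ideleClass_cohomology_of_unram (hD2 : UnramHerbrandTrivial) (M : Type) [Field M]
    [NumberField M] (G : Type) [Group G] [Finite G] [MulSemiringAction G M] [FaithfulSMul G M] :
    IsZero (groupCohomology (ideleClassRep M G) 1) ∧
      Finite (groupCohomology (ideleClassRep M G) 2) ∧
      Nat.card (groupCohomology (ideleClassRep M G) 2) ∣ Nat.card G :=
  ideleClass_cohomology (primeLayersGood_of_unram hD2) M G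

/-- Action form, cyclic groups: `|H²(G, C_M)| = |G|`. -/
theorem card_H2_ideleClass_of_isCyclic_of_unram (hD2 : UnramHerbrandTrivial) (M : Type)
    [Field M] [NumberField M] (G : Type) [Group G] [Finite G] [MulSemiringAction G M]
    [FaithfulSMul G M] [IsCyclic G] :
    Nat.card (groupCohomology (ideleClassRep M G) 2) = Nat.card G :=
  card_H2_ideleClass_of_isCyclic (firstIneqHerbrand hD2) (primeLayersGood_of_unram hD2) M G

/-- `[J_K : Kˣ · N J_L] = [L : K]` for cyclic extensions of number fields. -/
theorem index_norm_of_isCyclic_of_unram (hD2 : UnramHerbrandTrivial) (K L : Type) [Field K]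
    [NumberField K] [Field L] [NumberField L] [Algebra K L] [IsGalois K L]
    [IsCyclic (L ≃ₐ[K] L)] :
    ((principal K).range ⊔ (ideleNorm K L).range).index = Module.finrank K L :=
  index_norm_of_isCyclic K L (firstIneqHerbrand hD2) (primeLayersGood_of_unram hD2)

/-- The second inequality for Galois extensions of prime degree. -/
theorem second_inequality_of_unram (hD2 : UnramHerbrandTrivial) {p : ℕ} (hp : p.Prime)
    (K L : Type) [Field K] [NumberField K] [Field L] [NumberField L] [Algebra K L] [IsGalois K L]
    (hdeg : Module.finrank K L = p) :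
    ((principal K).range ⊔ (ideleNorm K L).range).index ∣ p :=
  second_inequality (firstIneqAll_of_herbrand (firstIneqHerbrand hD2)) hp K L hdeg

end Fermat.Agent.Lib.CFT.Global.SecondIneq.Consequences
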