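/-
P-CFT work package Global/SecondIneq (task 205): **the cohomology of the idele class group,
unconditionally** (first inequality: helper39 + helper58; second inequality: this package;
devissage: helper80, helper96).

For every finite Galois extension `L / K` of number fields with group `G`:
`H¹(G, C_L) = 0`, `H²(G, C_L)` is finite of order dividing `[L : K]`, with equality for cyclic `G`,
and `[J_K : Kˣ · N J_L] = [L : K]` for cyclic `L / K`.

* `layerGood_all`, `ideleClass_H1_isZero`, `ideleClass_H2_finite`, `ideleClass_card_H2_dvd`
  (action form: input (I1) of `Global/ClassFormation`);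
* `ideleClass_card_H2_of_isCyclic` (input (I2));
* `index_norm_eq_finrank_of_isCyclic`, `index_ideleClassNorm_eq_finrank_of_isCyclic`.
-/
import Mathlib
import Fermat.Agent.Lib.CFT.Global.CohIdeles.UnramTrivial
import Fermat.Agent.Lib.CFT.Global.SecondIneq.Summary

set_option autoImplicit false

open scoped NumberField

noncomputable section

namespace Fermat.Agent.Lib.CFT.Global.SecondIneq.Consequences

open Fermat.Agent.Lib.CFT Fermat.Agent.Lib.CFT.Global CategoryTheory.Limits

/-- `H¹(Gal(L/K), C_L) = 0` and `|H²(Gal(L/K), C_L)| ∣ [L : K]` for every Galois extension of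
number fields. -/
theorem layerGood_all (K L : Type) [Field K] [NumberField K] [Field L] [NumberField L]
    [Algebra K L] [IsGalois K L] : LayerGood K L :=
  layerGood CohIdeles.primeLayersGood K L

section Action

variable (M : Type) [Field M] [NumberField M] (G : Type) [Group G] [Finite G]
  [MulSemiringAction G M] [FaithfulSMul G M]

/-- Action form (input (I1) of `Global/ClassFormation`): `H¹(G, C_M) = 0`, `H²(G, C_M)` is finite
of order dividing `|G|`. -/
theorem ideleClass_cohomology_all :
    IsZero (groupCohomology (ideleClassRep M G) 1) ∧
      Finite (groupCohomology (ideleClassRep M G) 2) ∧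
      Nat.card (groupCohomology (ideleClassRep M G) 2) ∣ Nat.card G :=
  ideleClass_cohomology CohIdeles.primeLayersGood M G

/-- `H¹(G, C_M) = 0`. -/
theorem ideleClass_H1_isZero : IsZero (groupCohomology (ideleClassRep M G) 1) :=
  (ideleClass_cohomology_all M G).1

/-- `H²(G, C_M)` is finite. -/
theorem ideleClass_H2_finite : Finite (groupCohomology (ideleClassRep M G) 2) :=
  (ideleClass_cohomology_all M G).2.1

/-- `|H²(G, C_M)|` divides `|G|`. -/
theorem ideleClass_card_H2_dvd :
    Nat.card (groupCohomology (ideleClassRep M G) 2) ∣ Nat.card G :=
  (ideleClass_cohomology_all M G).2.2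

/-- Input (I2) of `Global/ClassFormation`: `|H²(G, C_M)| = |G|` for cyclic `G`. -/
theorem ideleClass_card_H2_of_isCyclic [IsCyclic G] :
    Nat.card (groupCohomology (ideleClassRep M G) 2) = Nat.card G :=
  card_H2_ideleClass_of_isCyclic CohIdeles.firstIneqHerbrand CohIdeles.primeLayersGood M G

end Action

section Cyclic

variable (K L : Type) [Field K] [NumberField K] [Field L] [NumberField L] [Algebra K L]
  [IsGalois K L] [IsCyclic (L ≃ₐ[K] L)]

/-- **Both inequalities**: `[J_K : Kˣ · N J_L] = [L : K]` for a cyclic extension of number
fields. -/
theorem index_norm_eq_finrank_of_isCyclic :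
    ((principal K).range ⊔ (ideleNorm K L).range).index = Module.finrank K L :=
  index_norm_of_isCyclic K L CohIdeles.firstIneqHerbrand CohIdeles.primeLayersGood

/-- `[C_K : N C_L] = [L : K]` for a cyclic extension of number fields. -/
theorem index_ideleClassNorm_eq_finrank_of_isCyclic :
    (ideleClassNorm K L).range.index = Module.finrank K L :=
  index_ideleClassNorm_of_isCyclic K L CohIdeles.firstIneqHerbrand CohIdeles.primeLayersGood

end Cyclic

end Fermat.Agent.Lib.CFT.Global.SecondIneq.Consequences
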