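/-
helper66 (P-CFT, WP Global/SecondIneq, piece G3).  Residue homomorphisms of a number field.

* `resHom v : unitsAt v →* (𝓞 K ⧸ v.asIdeal)ˣ` : reduction modulo `v` of the elements of `Kˣ` which
  are units at `v`; `coe_resHom_of_integer`, `resHom_mk` (value on algebraic integers),
  `coe_resHom_mul_mk` (value on fractions), `resHom_surjective`;                       **(R1)**
* `isCyclic_units_quotient`, `finite_units_quotient`, `natCard_units_quotient`,
  `coprime_absNorm_of_notMem`, `dvd_natCard_units_quotient` : if `ζ_p ∈ K` and `p ∉ v` then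
  `p ∣ |(𝓞 K ⧸ v)ˣ|`, a finite cyclic group;                                          **(R2)**
* for `W` a prime of `L` above the prime `w` of `K` (`[W.asIdeal.LiesOver w.asIdeal]`):
  `mapUnitsAt w W : unitsAt w →* unitsAt W`, `resFieldMap w W`, `resHom_mapUnitsAt`
  (compatibility), `finrank_quotient_eq_one_or` (residue degree `1` or `p` in a Galois extension of
  prime degree) and `exists_pow_eq_resHom_mapUnitsAt`;                                 **(R3)**
* finite fields: `exists_pow_eq_map_of_finrank_eq`, `bijective_algebraMap_of_finrank_eq_one`.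
-/
import Mathlib
import Fermat.Agent.Lib.CFT.Global.SecondIneq.Basic

set_option autoImplicit false

namespace Fermat.Agent.Lib.CFT.Global.SecondIneq

open NumberField IsDedekindDomain Fermat.Agent.Lib.CFT.Global.SUnits

section FiniteFields

variable {k k' : Type*} [Field k] [Field k'] [Finite k] [Finite k'] [Algebra k k']

/-- In an extension `k'/k` of finite fields of prime degree `p` with `p ∣ |kˣ|`, every element of
`kˣ` is a `p`-th power in `k'ˣ`. -/
theorem exists_pow_eq_map_of_finrank_eq {p : ℕ} (hf : Module.finrank k k' = p)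
    (hdvd : p ∣ Nat.card kˣ) (x : kˣ) :
    ∃ y : k'ˣ, y ^ p = Units.map (algebraMap k k').toMonoidHom x := by
  classical
  have := Fintype.ofFinite k
  have := Fintype.ofFinite k'
  set q := Nat.card k with hq
  have hq2 : 2 ≤ q := by
    rw [hq, Nat.card_eq_fintype_card]
    exact Fintype.one_lt_card
  have hcardk : Nat.card kˣ = q - 1 := Nat.card_units k
  have hcardk' : Nat.card k'ˣ = q ^ p - 1 := by
    rw [Nat.card_units, hq, ← hf]
    congr 1
    exact Module.natCard_eq_pow_finrank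
  -- the geometric sum
  set m := ∑ i ∈ Finset.range p, q ^ i with hm
  have hqm : (q - 1) * m = q ^ p - 1 := by
    have h := Nat.geomSum_eq hq2 p
    rw [hm, h]
    exact Nat.mul_div_cancel' (Nat.sub_one_dvd_pow_sub_one q p) -- (nat_sub_dvd_pow_sub_pow q 1 p)
  have hpm : p ∣ m := by
    rw [← ZMod.natCast_eq_zero_iff]
    have hq1 : (q : ZMod p) = 1 := by
      have h1 : q = (q - 1) + 1 := by omega
      rw [h1, Nat.cast_add, Nat.cast_one, (ZMod.natCast_eq_zero_iff (q - 1) p).2 (hcardk ▸ hdvd),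
        zero_add]
    rw [hm, Nat.cast_sum]
    simp [hq1]
  -- generator of `k'ˣ`
  obtain ⟨g, hg⟩ := IsCyclic.exists_generator (α := k'ˣ)
  set y := Units.map (algebraMap k k').toMonoidHom x with hy
  have hy1 : y ^ (q - 1) = 1 := by
    rw [hy, ← map_pow, ← hcardk, pow_card_eq_one', map_one]
  obtain ⟨j, hj⟩ : ∃ j : ℕ, g ^ j = y := by
    have := hg y
    rwa [← mem_powers_iff_mem_zpowers, Submonoid.mem_powers_iff] at this
  have hord : orderOf g = q ^ p - 1 := by
    rw [orderOf_eq_card_of_forall_mem_zpowers hg, hcardk']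
  have hdvd2 : (q - 1) * m ∣ j * (q - 1) := by
    rw [hqm, ← hord]
    apply orderOf_dvd_of_pow_eq_one
    rw [pow_mul, hj, hy1]
  have hmj : m ∣ j := by
    rw [mul_comm j] at hdvd2
    exact Nat.dvd_of_mul_dvd_mul_left (by omega) hdvd2
  obtain ⟨t, ht⟩ := hpm.trans hmj
  exact ⟨g ^ t, by rw [← pow_mul, mul_comm, ← ht, hj]⟩

omit [Finite k] in
/-- In an extension of finite fields of degree one, the structure map is bijective. -/
theorem bijective_algebraMap_of_finrank_eq_one (hf : Module.finrank k k' = 1) :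
    Function.Bijective (algebraMap k k') := by
  refine ⟨(algebraMap k k').injective, ?_⟩
  have h := Subalgebra.bot_eq_top_of_finrank_eq_one hf
  intro z
  have hz : z ∈ (⊥ : Subalgebra k k') := by
    rw [h]
    exact Algebra.mem_top
  exact Algebra.mem_bot.1 hz

end FiniteFields

section Res

variable {K : Type} [Field K] [NumberField K] (v : HeightOneSpectrum (𝓞 K))

/-- Elements outside `v` become units in the residue field. -/
theorem isUnit_mk_of_primeCompl (y : v.asIdeal.primeCompl) :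
    IsUnit (Ideal.Quotient.mk v.asIdeal (y : 𝓞 K)) := by
  have : v.asIdeal.IsMaximal := v.isMaximal
  let _ := Ideal.Quotient.field v.asIdeal
  rw [isUnit_iff_ne_zero, Ne, Ideal.Quotient.eq_zero_iff_mem]
  exact y.2

/-- Reduction modulo `v` on the localization of `𝓞 K` at `v` (as a subring of `K`). -/
noncomputable def resRing : HeightOneSpectrum.valuationSubringAtPrime K v →+* 𝓞 K ⧸ v.asIdeal :=
  IsLocalization.lift (M := v.asIdeal.primeCompl) (g := Ideal.Quotient.mk v.asIdeal)
    (isUnit_mk_of_primeCompl v)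

theorem resRing_algebraMap (c : 𝓞 K) :
    resRing v (algebraMap (𝓞 K) (HeightOneSpectrum.valuationSubringAtPrime K v) c) =
      Ideal.Quotient.mk v.asIdeal c :=
  IsLocalization.lift_eq _ c

theorem mem_valuationSubringAtPrime_iff {x : K} :
    x ∈ HeightOneSpectrum.valuationSubringAtPrime K v ↔ v.valuation K x ≤ 1 := by
  rw [HeightOneSpectrum.valuationSubringAtPrime_eq_valuationSubring,
    Valuation.mem_valuationSubring_iff]

theorem coe_mem_valuationSubringAtPrime (x : unitsAt v) :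
    ((x : Kˣ) : K) ∈ HeightOneSpectrum.valuationSubringAtPrime K v := by
  rw [mem_valuationSubringAtPrime_iff, valuation_le_one_iff_ordAt]
  exact (mem_unitsAt.1 x.2).ge

/-- The `v`-units of `K` as units of the localization at `v`. -/
noncomputable def toLocUnits : unitsAt v →* (HeightOneSpectrum.valuationSubringAtPrime K v)ˣ where
  toFun x :=
    { val := ⟨((x : Kˣ) : K), coe_mem_valuationSubringAtPrime v x⟩
      inv := ⟨(((x⁻¹ : unitsAt v) : Kˣ) : K), coe_mem_valuationSubringAtPrime v x⁻¹⟩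
      val_inv := by
        ext
        simp
      inv_val := by
        ext
        simp }
  map_one' := by
    ext
    simp
  map_mul' x y := by
    ext
    simp

@[simp] theorem coe_toLocUnits (x : unitsAt v) :
    (((toLocUnits v x : (HeightOneSpectrum.valuationSubringAtPrime K v)ˣ) :
      HeightOneSpectrum.valuationSubringAtPrime K v) : K) = ((x : Kˣ) : K) := rfl

/-- The residue homomorphism: reduction modulo `v` of the `v`-units of `K`. -/
noncomputable def resHom : unitsAt v →* (𝓞 K ⧸ v.asIdeal)ˣ :=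
  (Units.map (resRing v).toMonoidHom).comp (toLocUnits v)

theorem coe_resHom (x : unitsAt v) :
    ((resHom v x : (𝓞 K ⧸ v.asIdeal)ˣ) : 𝓞 K ⧸ v.asIdeal) =
      resRing v (toLocUnits v x : (HeightOneSpectrum.valuationSubringAtPrime K v)ˣ) := rfl

/-- If `x * d = n` with `n d : 𝓞 K` then `res x * (d mod v) = n mod v`. -/
theorem coe_resHom_mul_mk (x : unitsAt v) (n d : 𝓞 K) (h : ((x : Kˣ) : K) * (d : K) = (n : K)) :
    ((resHom v x : (𝓞 K ⧸ v.asIdeal)ˣ) : 𝓞 K ⧸ v.asIdeal) * Ideal.Quotient.mk v.asIdeal d =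
      Ideal.Quotient.mk v.asIdeal n := by
  rw [coe_resHom, ← resRing_algebraMap v d, ← resRing_algebraMap v n, ← map_mul]
  congr 1
  ext
  exact h

/-- On algebraic integers the residue homomorphism is the reduction modulo `v`. -/
theorem coe_resHom_of_integer (x : unitsAt v) (c : 𝓞 K) (hc : ((x : Kˣ) : K) = (c : K)) :
    ((resHom v x : (𝓞 K ⧸ v.asIdeal)ˣ) : 𝓞 K ⧸ v.asIdeal) = Ideal.Quotient.mk v.asIdeal c := by
  have := coe_resHom_mul_mk v x c 1 (by simpa using hc)
  simpa using this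

omit [NumberField K] in
theorem coe_ne_zero_of_notMem_asIdeal {c : 𝓞 K} (hc : c ∉ v.asIdeal) : (c : K) ≠ 0 := by
  intro h
  apply hc
  have : c = 0 := RingOfIntegers.coe_injective (by simpa using h)
  rw [this]
  exact v.asIdeal.zero_mem

/-- An algebraic integer outside `v`, as a `v`-unit of `K`. -/
noncomputable def unitsAtMk (c : 𝓞 K) (hc : c ∉ v.asIdeal) : unitsAt v :=
  ⟨Units.mk0 (c : K) (coe_ne_zero_of_notMem_asIdeal v hc),
    mem_unitsAt.2 (ordAt_mk0_eq_zero v (coe_ne_zero_of_notMem_asIdeal v hc) hc)⟩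

@[simp] theorem coe_unitsAtMk (c : 𝓞 K) (hc : c ∉ v.asIdeal) :
    (((unitsAtMk v c hc : unitsAt v) : Kˣ) : K) = (c : K) := rfl

/-- **(R1)** the value of the residue homomorphism on an algebraic integer outside `v`. -/
theorem resHom_mk (c : 𝓞 K) (hc : c ∉ v.asIdeal) :
    ((resHom v (unitsAtMk v c hc) : (𝓞 K ⧸ v.asIdeal)ˣ) : 𝓞 K ⧸ v.asIdeal) =
      Ideal.Quotient.mk v.asIdeal c :=
  coe_resHom_of_integer v _ c rfl

/-- **(R1)** the residue homomorphism is surjective. -/
theorem resHom_surjective : Function.Surjective (resHom v) := by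
  intro u
  obtain ⟨c, hc⟩ := Ideal.Quotient.mk_surjective (u : 𝓞 K ⧸ v.asIdeal)
  have hcv : c ∉ v.asIdeal := by
    intro h
    have h0 : (u : 𝓞 K ⧸ v.asIdeal) = 0 := by
      rw [← hc]
      exact Ideal.Quotient.eq_zero_iff_mem.2 h
    have : Nontrivial (𝓞 K ⧸ v.asIdeal) := Ideal.Quotient.nontrivial_iff.2 v.isPrime.ne_top
    exact u.ne_zero h0
  refine ⟨unitsAtMk v c hcv, Units.ext ?_⟩
  rw [resHom_mk, hc]

/-! ### (R2) roots of unity in the residue field -/

theorem finite_quotient : Finite (𝓞 K ⧸ v.asIdeal) := by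
  have : v.asIdeal.IsMaximal := v.isMaximal
  infer_instance

theorem finite_units_quotient : Finite (𝓞 K ⧸ v.asIdeal)ˣ := by
  have := finite_quotient v
  infer_instance

/-- **(R2)** the units of the residue field form a cyclic group. -/
theorem isCyclic_units_quotient : IsCyclic (𝓞 K ⧸ v.asIdeal)ˣ := by
  have := finite_units_quotient v
  infer_instance

theorem natCard_units_quotient :
    Nat.card (𝓞 K ⧸ v.asIdeal)ˣ = Ideal.absNorm v.asIdeal - 1 := by
  have : v.asIdeal.IsMaximal := v.isMaximal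
  let _ := Ideal.Quotient.field v.asIdeal
  have := finite_quotient v
  rw [Nat.card_units, Ideal.absNorm_apply, Submodule.cardQuot_apply]

/-- If the prime number `p` does not lie in `v` then it is prime to the norm of `v`. -/
theorem coprime_absNorm_of_notMem {p : ℕ} (hp : p.Prime) (hpv : (p : 𝓞 K) ∉ v.asIdeal) :
    (Ideal.absNorm v.asIdeal).Coprime p := by
  have : v.asIdeal.IsMaximal := v.isMaximal
  let _ := Ideal.Quotient.field v.asIdeal
  have := finite_quotient v
  have := Fintype.ofFinite (𝓞 K ⧸ v.asIdeal)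
  rw [Nat.coprime_comm, hp.coprime_iff_not_dvd]
  intro hdvd
  apply hpv
  obtain ⟨n, hq, hcard⟩ := FiniteField.card (𝓞 K ⧸ v.asIdeal) (ringChar (𝓞 K ⧸ v.asIdeal))
  rw [Ideal.absNorm_apply, Submodule.cardQuot_apply, Nat.card_eq_fintype_card, hcard] at hdvd
  have hpq : p = ringChar (𝓞 K ⧸ v.asIdeal) :=
    (Nat.prime_dvd_prime_iff_eq hp hq).1 (hp.dvd_of_dvd_pow hdvd)
  rw [← Ideal.Quotient.eq_zero_iff_mem, map_natCast, hpq]
  exact ringChar.Nat.cast_ringChar

/-- **(R2)** if `K` contains a primitive `p`-th root of unity and `p ∉ v`, then `p` divides the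
order of the multiplicative group of the residue field at `v`. -/
theorem dvd_natCard_units_quotient {p : ℕ} (hp : p.Prime) {ζ : K} (hζ : IsPrimitiveRoot ζ p)
    (hpv : (p : 𝓞 K) ∉ v.asIdeal) : p ∣ Nat.card (𝓞 K ⧸ v.asIdeal)ˣ := by
  have : NeZero p := ⟨hp.ne_zero⟩
  have h1 : Ideal.absNorm v.asIdeal ≠ 1 := by
    rw [Ne, Ideal.absNorm_eq_one_iff]
    exact v.isPrime.ne_top
  have hμ : IsPrimitiveRoot (Ideal.Quotient.mk v.asIdeal hζ.toInteger) p :=
    hζ.toInteger_isPrimitiveRoot.idealQuotient_mk h1 (coprime_absNorm_of_notMem v hp hpv)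
  obtain ⟨u, hu⟩ := hμ.isUnit hp.ne_zero
  have hu' : IsPrimitiveRoot u p := IsPrimitiveRoot.coe_units_iff.1 (hu ▸ hμ)
  rw [hu'.eq_orderOf]
  exact orderOf_dvd_natCard u

end Res

section Ext

variable {K L : Type} [Field K] [NumberField K] [Field L] [NumberField L] [Algebra K L]
  (w : HeightOneSpectrum (𝓞 K)) (W : HeightOneSpectrum (𝓞 L)) [W.asIdeal.LiesOver w.asIdeal]

/-- Units at `w` stay units at a prime `W` above `w`. -/
theorem ordAt_map_eq_zero {x : Kˣ} (hx : ordAt w x = 0) :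
    ordAt W (Units.map (algebraMap K L).toMonoidHom x) = 0 := by
  rw [← valuation_eq_one_iff_ordAt] at hx ⊢
  have h := HeightOneSpectrum.valuation_liesOver L w W (x : K)
  rw [hx, one_pow] at h
  exact h.symm

/-- The map `unitsAt w → unitsAt W` induced by `K → L`. -/
noncomputable def mapUnitsAt : unitsAt w →* unitsAt W where
  toFun x := ⟨Units.map (algebraMap K L).toMonoidHom (x : Kˣ),
    mem_unitsAt.2 (ordAt_map_eq_zero w W (mem_unitsAt.1 x.2))⟩
  map_one' := by
    ext
    simp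
  map_mul' x y := by
    ext
    simp

@[simp] theorem coe_mapUnitsAt (x : unitsAt w) :
    (((mapUnitsAt w W x : unitsAt W) : Lˣ) : L) = algebraMap K L ((x : Kˣ) : K) := rfl

/-- Compatibility of the residue homomorphisms with the extension of residue fields. -/
theorem coe_resHom_mapUnitsAt (x : unitsAt w) :
    ((resHom W (mapUnitsAt w W x) : (𝓞 L ⧸ W.asIdeal)ˣ) : 𝓞 L ⧸ W.asIdeal) =
      algebraMap (𝓞 K ⧸ w.asIdeal) (𝓞 L ⧸ W.asIdeal)
        ((resHom w x : (𝓞 K ⧸ w.asIdeal)ˣ) : 𝓞 K ⧸ w.asIdeal) := by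
  have hval : w.valuation K ((x : Kˣ) : K) ≤ 1 := by
    rw [valuation_le_one_iff_ordAt]
    exact (mem_unitsAt.1 x.2).ge
  obtain ⟨n, d, hnd⟩ := HeightOneSpectrum.exists_primeCompl_mul_eq_of_integer w _ hval
  have h1 := coe_resHom_mul_mk w x n d hnd
  have hL : (((mapUnitsAt w W x : unitsAt W) : Lˣ) : L) *
      ((algebraMap (𝓞 K) (𝓞 L) (d : 𝓞 K) : 𝓞 L) : L) =
      ((algebraMap (𝓞 K) (𝓞 L) n : 𝓞 L) : L) := by
    have := congrArg (algebraMap K L) hnd
    rw [map_mul] at this
    rw [coe_mapUnitsAt]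
    convert this using 2
    · exact (IsScalarTower.algebraMap_apply (𝓞 K) (𝓞 L) L _).symm.trans
        (IsScalarTower.algebraMap_apply (𝓞 K) K L _)
    · exact (IsScalarTower.algebraMap_apply (𝓞 K) (𝓞 L) L _).symm.trans
        (IsScalarTower.algebraMap_apply (𝓞 K) K L _)
  have h2 := coe_resHom_mul_mk W (mapUnitsAt w W x) _ _ hL
  have h3 := congrArg (algebraMap (𝓞 K ⧸ w.asIdeal) (𝓞 L ⧸ W.asIdeal)) h1
  rw [map_mul, Ideal.Quotient.algebraMap_mk_of_liesOver,
    Ideal.Quotient.algebraMap_mk_of_liesOver] at h3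
  have hd : Ideal.Quotient.mk W.asIdeal (algebraMap (𝓞 K) (𝓞 L) (d : 𝓞 K)) ≠ 0 := by
    rw [Ne, Ideal.Quotient.eq_zero_iff_mem, ← Ideal.mem_of_liesOver W.asIdeal w.asIdeal]
    exact d.2
  exact mul_right_cancel₀ hd (h2.trans h3.symm)

/-- In a Galois extension of prime degree the residue degree is `1` or `p`. -/
theorem finrank_quotient_eq_one_or [IsGalois K L] {p : ℕ} (hp : p.Prime)
    (hdeg : Module.finrank K L = p) :
    Module.finrank (𝓞 K ⧸ w.asIdeal) (𝓞 L ⧸ W.asIdeal) = 1 ∨
      Module.finrank (𝓞 K ⧸ w.asIdeal) (𝓞 L ⧸ W.asIdeal) = p := by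
  have : w.asIdeal.IsMaximal := w.isMaximal
  have : W.asIdeal.IsMaximal := W.isMaximal
  have h1 := Ideal.ncard_primesOver_mul_ramificationIdxIn_mul_inertiaDegIn w.asIdeal (𝓞 L) Gal(L/K)
  rw [IsGaloisGroup.card_eq_finrank Gal(L/K) K L, hdeg,
    Ideal.inertiaDegIn_eq_inertiaDeg w.asIdeal W.asIdeal Gal(L/K),
    Ideal.inertiaDeg_eq_of_isMaximal w.asIdeal W.asIdeal] at h1
  have hdvd : Module.finrank (𝓞 K ⧸ w.asIdeal) (𝓞 L ⧸ W.asIdeal) ∣ p :=
    Dvd.intro_left ((w.asIdeal.primesOver (𝓞 L)).ncard * w.asIdeal.ramificationIdxIn (𝓞 L))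
      (by rw [← h1]; ring)
  exact (Nat.dvd_prime hp).1 hdvd

/-- The map on units of the residue fields induced by `𝓞 K ⧸ w → 𝓞 L ⧸ W`. -/
noncomputable def resFieldMap : (𝓞 K ⧸ w.asIdeal)ˣ →* (𝓞 L ⧸ W.asIdeal)ˣ :=
  Units.map (algebraMap (𝓞 K ⧸ w.asIdeal) (𝓞 L ⧸ W.asIdeal)).toMonoidHom

omit [NumberField K] [NumberField L] in
@[simp] theorem coe_resFieldMap (u : (𝓞 K ⧸ w.asIdeal)ˣ) :
    ((resFieldMap w W u : (𝓞 L ⧸ W.asIdeal)ˣ) : 𝓞 L ⧸ W.asIdeal) =
      algebraMap (𝓞 K ⧸ w.asIdeal) (𝓞 L ⧸ W.asIdeal) (u : 𝓞 K ⧸ w.asIdeal) := rfl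

/-- Compatibility of the residue homomorphisms with the extension of residue fields. -/
theorem resHom_mapUnitsAt (x : unitsAt w) :
    resHom W (mapUnitsAt w W x) = resFieldMap w W (resHom w x) :=
  Units.ext (coe_resHom_mapUnitsAt w W x)

theorem resFieldMap_injective : Function.Injective (resFieldMap w W) := by
  have : w.asIdeal.IsMaximal := w.isMaximal
  have : W.asIdeal.IsMaximal := W.isMaximal
  let _ := Ideal.Quotient.field w.asIdeal
  have : Nontrivial (𝓞 L ⧸ W.asIdeal) := Ideal.Quotient.nontrivial_iff.2 W.isPrime.ne_top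
  exact Units.map_injective (algebraMap (𝓞 K ⧸ w.asIdeal) (𝓞 L ⧸ W.asIdeal)).injective

/-- **(R3)** Let `L/K` be a Galois extension of number fields of prime degree `p`, with `ζ_p ∈ K`,
`W` a prime of `L` above the prime `w ∌ p` of `K`, `a b` units at `w` such that `a` is a `p`-th
power in `L`.  If (`a mod w` is a `p`-th power ⇒ `b mod w` is a `p`-th power) then `b mod W` is a
`p`-th power. -/
theorem exists_pow_eq_resHom_mapUnitsAt [IsGalois K L] {p : ℕ} (hp : p.Prime)
    (hdeg : Module.finrank K L = p) {ζ : K} (hζ : IsPrimitiveRoot ζ p)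
    (hpw : (p : 𝓞 K) ∉ w.asIdeal) (a b : unitsAt w) (α : L)
    (hα : α ^ p = algebraMap K L ((a : Kˣ) : K))
    (h : (∃ y : (𝓞 K ⧸ w.asIdeal)ˣ, y ^ p = resHom w a) →
      ∃ y : (𝓞 K ⧸ w.asIdeal)ˣ, y ^ p = resHom w b) :
    ∃ y : (𝓞 L ⧸ W.asIdeal)ˣ, y ^ p = resHom W (mapUnitsAt w W b) := by
  have hwmax : w.asIdeal.IsMaximal := w.isMaximal
  have hWmax : W.asIdeal.IsMaximal := W.isMaximal
  let _ := Ideal.Quotient.field w.asIdeal
  let _ := Ideal.Quotient.field W.asIdeal
  have := finite_quotient w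
  have := finite_quotient W
  rcases finrank_quotient_eq_one_or w W hp hdeg with h1 | hpf
  · -- residue degree one
    have hbij := bijective_algebraMap_of_finrank_eq_one h1
    -- `α` is a unit at `W`
    have hα0 : α ≠ 0 := by
      intro h0
      rw [h0, zero_pow hp.ne_zero] at hα
      exact (Units.ne_zero (mapUnitsAt w W a : Lˣ)) hα.symm
    have hαp : (Units.mk0 α hα0) ^ p = ((mapUnitsAt w W a : unitsAt W) : Lˣ) := by
      ext
      simpa using hα
    have hαW : Units.mk0 α hα0 ∈ unitsAt W := by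
      rw [mem_unitsAt]
      have h2 := ordAt_pow W (Units.mk0 α hα0) p
      rw [hαp, mem_unitsAt.1 (mapUnitsAt w W a).2] at h2
      have hp0 : (p : ℤ) ≠ 0 := by exact_mod_cast hp.ne_zero
      rcases mul_eq_zero.1 h2.symm with h3 | h3
      · exact absurd h3 hp0
      · exact h3
    let αW : unitsAt W := ⟨Units.mk0 α hα0, hαW⟩
    have hαW' : αW ^ p = mapUnitsAt w W a := Subtype.ext hαp
    have hβ' : (resHom W αW) ^ p = resFieldMap w W (resHom w a) := by
      rw [← map_pow, hαW', resHom_mapUnitsAt]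
    -- descend `resHom W αW` to the residue field of `w`
    obtain ⟨c, hc⟩ := hbij.2 ((resHom W αW : (𝓞 L ⧸ W.asIdeal)ˣ) : 𝓞 L ⧸ W.asIdeal)
    have hc0 : c ≠ 0 := by
      intro h0
      rw [h0, map_zero] at hc
      exact (Units.ne_zero (resHom W αW)) hc.symm
    have hβ : resFieldMap w W (Units.mk0 c hc0) = resHom W αW := Units.ext hc
    have hpow : (Units.mk0 c hc0) ^ p = resHom w a := by
      apply resFieldMap_injective w W
      rw [map_pow, hβ, hβ']
    obtain ⟨y, hy⟩ := h ⟨_, hpow⟩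
    exact ⟨resFieldMap w W y, by rw [← map_pow, hy, resHom_mapUnitsAt]⟩
  · -- residue degree `p`
    obtain ⟨y, hy⟩ := exists_pow_eq_map_of_finrank_eq hpf
      (dvd_natCard_units_quotient w hp hζ hpw) (resHom w b)
    exact ⟨y, by rw [hy, resHom_mapUnitsAt]; rfl⟩

end Ext

end Fermat.Agent.Lib.CFT.Global.SecondIneq
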