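/-
P-CFT work package Global/SecondIneq (task 205): the residue field at a prime not above `p` of a
number field containing the `p`-th roots of unity has `p ∣ q - 1`.
-/
import Mathlib

set_option autoImplicit false

namespace Fermat.Agent.Lib.CFT.Global.SecondIneq

open NumberField IsDedekindDomain

variable {K : Type*} [Field K] [NumberField K]

/-- Residue fields of number fields are finite. -/
instance instFiniteResidue (v : HeightOneSpectrum (𝓞 K)) : Finite (𝓞 K ⧸ v.asIdeal) :=
  Ideal.finiteQuotientOfFreeOfNeBot v.asIdeal v.ne_bot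

/-- The multiplicative group of a residue field is cyclic. -/
theorem isCyclic_residue_units (v : HeightOneSpectrum (𝓞 K)) : IsCyclic (𝓞 K ⧸ v.asIdeal)ˣ := by
  have := v.isMaximal
  let _ := Ideal.Quotient.field v.asIdeal
  infer_instance

/-- If `K` contains a primitive `p`-th root of unity and `v` does not divide `p` then `p` divides
the order of the multiplicative group of the residue field. -/
theorem dvd_card_residue_units {p : ℕ} (hp : p.Prime) {ζ : K} (hζ : IsPrimitiveRoot ζ p)
    (v : HeightOneSpectrum (𝓞 K)) (hv : (p : 𝓞 K) ∉ v.asIdeal) :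
    p ∣ Nat.card (𝓞 K ⧸ v.asIdeal)ˣ := by
  have hmax := v.isMaximal
  let _ := Ideal.Quotient.field v.asIdeal
  have : NeZero p := ⟨hp.ne_zero⟩
  have : Fact p.Prime := ⟨hp⟩
  let ζ' : 𝓞 K := hζ.toInteger
  have hζ' : IsPrimitiveRoot ζ' p := hζ.toInteger_isPrimitiveRoot
  let z : 𝓞 K ⧸ v.asIdeal := Ideal.Quotient.mk v.asIdeal ζ'
  have hzp : z ^ p = 1 := by
    rw [← map_pow, hζ'.pow_eq_one, map_one]
  have hz1 : z ≠ 1 := by
    intro h
    have hroot : (Polynomial.cyclotomic p (𝓞 K)).IsRoot ζ' := hζ'.isRoot_cyclotomic hp.pos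
    have h2 : Polynomial.eval z (Polynomial.cyclotomic p (𝓞 K ⧸ v.asIdeal)) = 0 := by
      rw [← Polynomial.map_cyclotomic p (Ideal.Quotient.mk v.asIdeal), Polynomial.eval_map,
        Polynomial.eval₂_at_apply, hroot.eq_zero, map_zero]
    rw [h, Polynomial.eval_one_cyclotomic_prime] at h2
    apply hv
    rw [← Ideal.Quotient.eq_zero_iff_mem, map_natCast]
    exact h2
  have hzu : IsUnit z := IsUnit.of_pow_eq_one hzp hp.ne_zero
  obtain ⟨u, hu⟩ := hzu
  have hup : u ^ p = 1 := by
    ext; simp [hu, hzp]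
  have hu1 : u ≠ 1 := by
    intro h; apply hz1; rw [← hu, h]; rfl
  have : orderOf u = p := orderOf_eq_prime hup hu1
  rw [← this]
  exact orderOf_dvd_natCard u

end Fermat.Agent.Lib.CFT.Global.SecondIneq
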